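import Mathlib
import Fermat.Statements.S16

set_option autoImplicit false

namespace Fermat.Agent.S16Lib

/-- `sig p k = ∑_{d ∣ k, p ∤ d} d`: the `k`-th coefficient of the weight two Eisenstein series of
level `Γ₀(p)`. -/
def sig (p k : ℕ) : ℤ := ∑ d ∈ k.divisors.filter (fun d => ¬ p ∣ d), (d : ℤ)

end Fermat.Agent.S16Lib
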