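import Fermat.Agent.S16.UBDefs
import Fermat.Agent.S16.Defs
import Fermat.Agent.Lib.Modular.LevelRaise
import Fermat.Agent.S28.IsQ

/-!
# S16: the Eisenstein series of weight two on `Γ₀(p)`
-/

set_option autoImplicit false

open UpperHalfPlane ModularForm Matrix.SpecialLinearGroup CongruenceSubgroup EisensteinSeries
open scoped MatrixGroups Manifold
open Fermat.Agent.S20Lib Fermat.Agent.S28Lib Fermat.Agent.LevelRaise

namespace Fermat.Agent.S16Lib

noncomputable section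

local notation "𝕢" => Function.Periodic.qParam

namespace EIS

theorem bdd_D2 (γ : SL(2, ℤ)) : IsBoundedAtImInfty (D2 γ) := by
  rw [isBoundedAtImInfty_iff]
  refine ⟨2 * Real.pi, 1, fun z hz => ?_⟩
  by_cases hc : γ 1 0 = 0
  · simp [D2, hc, Real.pi_pos.le]
  · have hc1 : (1 : ℝ) ≤ |((γ 1 0 : ℤ) : ℝ)| := by
      have : (1 : ℤ) ≤ |γ 1 0| := Int.one_le_abs hc
      exact_mod_cast this
    have hden : |((γ 1 0 : ℤ) : ℝ)| ≤ ‖denom γ z‖ := by
      have h1 : (denom γ z).im = ((γ 1 0 : ℤ) : ℝ) * z.im := by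
        simp [denom]
      calc |((γ 1 0 : ℤ) : ℝ)| ≤ |((γ 1 0 : ℤ) : ℝ)| * z.im := le_mul_of_one_le_right (abs_nonneg _) hz
        _ = |(denom γ z).im| := by rw [h1, abs_mul, abs_of_pos z.im_pos]
        _ ≤ ‖denom γ z‖ := Complex.abs_im_le_norm _
    have hpos : 0 < ‖denom γ z‖ := lt_of_lt_of_le (by linarith) hden
    rw [D2, norm_div, div_le_iff₀ hpos]
    simp only [norm_mul, Complex.norm_ofNat, Complex.norm_real, Real.norm_eq_abs,
      abs_of_pos Real.pi_pos, Complex.norm_I, mul_one, Complex.norm_intCast]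
    exact mul_le_mul_of_nonneg_left hden (by positivity)

theorem bdd_E2_slash (γ : SL(2, ℤ)) : IsBoundedAtImInfty (E2 ∣[(2 : ℤ)] γ) := by
  rw [E2_slash_action]
  exact isBoundedAtImInfty_E2.sub ((bdd_D2 γ).const_smul_left _)

theorem raise_slash_bdd' (k : ℤ) {N : ℕ} (hN : N ≠ 0) {f : ℍ → ℂ}
    (hb : ∀ γ : SL(2, ℤ), IsBoundedAtImInfty (f ∣[k] γ)) (γ : SL(2, ℤ)) :
    IsBoundedAtImInfty ((raise N f) ∣[k] γ) := by
  obtain ⟨A, D, B, γ', hAD, -, h⟩ := exists_decomp N hN γ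
  have hA0 : A ≠ 0 := by rintro rfl; simp at hAD; exact hN hAD.symm
  have hD0 : D ≠ 0 := by rintro rfl; simp at hAD; exact hN hAD.symm
  rw [raise_eq k hN, SL_smul_slash, SL_slash, ← SlashAction.slash_mul, h, SlashAction.slash_mul,
    ← SL_slash]
  refine Asymptotics.IsBigO.const_smul_left ?_ _
  have h1 : IsBoundedAtImInfty (fun τ : ℍ => (f ∣[k] γ') (triMat A D B • τ)) :=
    Asymptotics.IsBigO.comp_tendsto (hb γ') (tendsto_triMat_smul hA0 hD0 B)
  have h2 : (f ∣[k] γ') ∣[k] triMat A D B = (((A : ℂ) * D) ^ (k - 1) * (D : ℂ) ^ (-k)) •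
      (fun τ : ℍ => (f ∣[k] γ') (triMat A D B • τ)) := by
    funext τ
    rw [slash_triMat_apply k hA0 hD0]
    rfl
  rw [h2]
  exact h1.const_smul_left _

/-- conjugating an element of `Γ₀(N)` by `diag(N,1)` -/
theorem exists_conj {N : ℕ} (hN : N ≠ 0) {γ : SL(2, ℤ)} (hγ : γ ∈ Gamma0 N) :
    ∃ γ' : SL(2, ℤ), (N : ℤ) * γ' 1 0 = γ 1 0 ∧ γ' 1 1 = γ 1 1 ∧
      heckeDiagMatrix N * (γ : GL (Fin 2) ℝ) = (γ' : GL (Fin 2) ℝ) * heckeDiagMatrix N := by
  rw [Gamma0_mem, ZMod.intCast_zmod_eq_zero_iff_dvd] at hγ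
  obtain ⟨c, hc⟩ := hγ
  have hdet := γ.det_coe
  rw [Matrix.det_fin_two] at hdet
  obtain ⟨γ', e00, e01, e10, e11⟩ : ∃ γ' : SL(2, ℤ), γ' 0 0 = γ 0 0 ∧ γ' 0 1 = N * γ 0 1 ∧
      γ' 1 0 = c ∧ γ' 1 1 = γ 1 1 :=
    ⟨⟨!![γ 0 0, N * γ 0 1; c, γ 1 1], by
      rw [Matrix.det_fin_two_of]; rw [hc] at hdet; linear_combination hdet⟩, rfl, rfl, rfl, rfl⟩
  refine ⟨γ', by rw [e10, hc], e11, ?_⟩
  apply Units.ext
  rw [Units.val_mul, Units.val_mul, val_heckeDiagMatrix hN]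
  ext i j
  fin_cases i <;> fin_cases j
  · simp [Matrix.mul_apply, Fin.sum_univ_two, e00, mul_comm]
  · simp [Matrix.mul_apply, Fin.sum_univ_two, e01]
  · simp [Matrix.mul_apply, Fin.sum_univ_two, e10, hc, mul_comm]
  · simp [Matrix.mul_apply, Fin.sum_univ_two, e11]

theorem raise_E2_slash {N : ℕ} (hN : N ≠ 0) {γ : SL(2, ℤ)} (hγ : γ ∈ Gamma0 N) :
    (raise N E2) ∣[(2 : ℤ)] γ =
      raise N E2 - ((1 / (2 * riemannZeta 2)) * (N : ℂ)⁻¹) • D2 γ := by
  have hNC : (N : ℂ) ≠ 0 := by exact_mod_cast hN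
  obtain ⟨γ', h10, h11, h⟩ := exists_conj hN hγ
  have h1 : (raise N E2) ∣[(2 : ℤ)] γ = raise N (E2 ∣[(2 : ℤ)] γ') := by
    rw [raise_eq 2 hN, SL_smul_slash, SL_slash, ← SlashAction.slash_mul, h, SlashAction.slash_mul,
      ← SL_slash, ← raise_eq 2 hN]
  rw [h1, E2_slash_action]
  funext τ
  simp only [raise_apply, Pi.sub_apply, Pi.smul_apply, smul_eq_mul]
  congr 1
  rw [mul_assoc]
  congr 1
  simp only [D2, denom]
  have e1 : ((heckeDiagMatrix N • τ : ℍ) : ℂ) = N * τ := coe_heckeDiagMatrix_smul hN τ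
  rw [e1]
  have e10 : ((γ 1 0 : ℤ) : ℂ) = (N : ℂ) * ((γ' 1 0 : ℤ) : ℂ) := by rw [← h10]; push_cast; ring
  simp only [Matrix.SpecialLinearGroup.coe_GL_coe_matrix, Matrix.SpecialLinearGroup.map_apply_coe,
    RingHom.mapMatrix_apply, Int.coe_castRingHom, Matrix.map_apply, Complex.ofReal_intCast]
  rw [e10, h11]
  field_simp

end EIS

/-- the Eisenstein series `(p E₂(pτ) - E₂(τ)) / 24` -/
def eisF (p : ℕ) : ℍ → ℂ := (24 : ℂ)⁻¹ • ((p : ℂ) • raise p E2 - E2)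

theorem isMF_eisF (p : ℕ) (hp : p ≠ 0) : IsMF (Gamma0 p) 2 (eisF p) where
  holo := ((raise_mdiff hp E2_mdifferentiable).const_smul _ |>.sub E2_mdifferentiable).const_smul _
  inv γ hγ := by
    have hpC : (p : ℂ) ≠ 0 := by exact_mod_cast hp
    rw [eisF, SL_smul_slash, sub_eq_add_neg, SlashAction.add_slash, SlashAction.neg_slash,
      SL_smul_slash, EIS.raise_E2_slash hp hγ, E2_slash_action]
    congr 1
    rw [smul_sub, smul_smul, mul_comm (1 / (2 * riemannZeta 2)), ← mul_assoc,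
      mul_inv_cancel₀ hpC, one_mul]
    abel
  bdd γ := by
    rw [eisF, SL_smul_slash, sub_eq_add_neg, SlashAction.add_slash, SlashAction.neg_slash,
      SL_smul_slash]
    refine Asymptotics.IsBigO.const_smul_left ?_ _
    exact ((EIS.raise_slash_bdd' 2 hp EIS.bdd_E2_slash γ).const_smul_left _).add
      (EIS.bdd_E2_slash γ).neg_left

namespace EIS

open ArithmeticFunction

/-- `σ₁(k) = sig p k + p σ₁(k/p)` -/
theorem sigma_eq (p : ℕ) (hp : p ≠ 0) (k : ℕ) :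
    ((sigma 1 k : ℕ) : ℤ) = sig p k + if p ∣ k then (p : ℤ) * ((sigma 1 (k / p) : ℕ) : ℤ) else 0 := by
  rw [sigma_one_apply, sig]
  push_cast
  rw [← Finset.sum_filter_add_sum_filter_not k.divisors (fun d => ¬ p ∣ d)]
  congr 1
  simp only [not_not]
  split_ifs with h
  · obtain ⟨m, rfl⟩ := h
    rw [Nat.mul_div_cancel_left _ (Nat.pos_of_ne_zero hp), sigma_one_apply]
    push_cast
    rw [Finset.mul_sum]
    symm
    refine Finset.sum_nbij' (fun d => p * d) (fun d => d / p) ?_ ?_ ?_ ?_ ?_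
    · intro d hd
      rw [Nat.mem_divisors] at hd
      rw [Finset.mem_filter, Nat.mem_divisors]
      exact ⟨⟨Nat.mul_dvd_mul_left p hd.1, Nat.mul_ne_zero hp hd.2⟩, Dvd.intro _ rfl⟩
    · intro d hd
      rw [Finset.mem_filter, Nat.mem_divisors] at hd
      obtain ⟨⟨h1, h2⟩, ⟨e, rfl⟩⟩ := hd
      rw [Nat.mul_div_cancel_left _ (Nat.pos_of_ne_zero hp), Nat.mem_divisors]
      exact ⟨Nat.dvd_of_mul_dvd_mul_left (Nat.pos_of_ne_zero hp) h1,
        fun h0 => h2 (by rw [h0, mul_zero])⟩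
    · intro d _
      exact Nat.mul_div_cancel_left _ (Nat.pos_of_ne_zero hp)
    · intro d hd
      rw [Finset.mem_filter] at hd
      exact Nat.mul_div_cancel' hd.2
    · intro d _
      push_cast
      ring
  · refine Finset.sum_eq_zero fun d hd => ?_
    rw [Finset.mem_filter, Nat.mem_divisors] at hd
    exact absurd (hd.2.trans hd.1.1) h

/-- coefficients of `E₂` -/
def e2c (m : ℕ) : ℂ := if m = 0 then 1 else -24 * ((sigma 1 m : ℕ) : ℂ)

theorem hasSum_E2 (τ : ℍ) : HasSum (fun m : ℕ => e2c m • 𝕢 1 (τ : ℂ) ^ m) (E2 τ) := by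
  simpa only [Function.Periodic.qParam, Complex.ofReal_one, div_one, e2c] using
    hasSum_qExpansion_E2 (z := τ)

theorem hasSum_eisF (p : ℕ) (hp : p ≠ 0) (τ : ℍ) :
    HasSum (fun m : ℕ => ((24 : ℂ)⁻¹ * ((p : ℂ) * (if p ∣ m then e2c (m / p) else 0) - e2c m)) •
      𝕢 1 (τ : ℂ) ^ m) (eisF p τ) := by
  have h1 := raise_hasSum hp hasSum_E2 τ
  have h2 := ((h1.mul_left (p : ℂ)).sub (hasSum_E2 τ)).mul_left (24 : ℂ)⁻¹
  have e : (fun m : ℕ => ((24 : ℂ)⁻¹ * ((p : ℂ) * (if p ∣ m then e2c (m / p) else 0) - e2c m)) •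
      𝕢 1 (τ : ℂ) ^ m) = fun i => (24 : ℂ)⁻¹ * ((p : ℂ) * (if p ∣ i then e2c (i / p) else 0) •
        𝕢 1 (τ : ℂ) ^ i - e2c i • 𝕢 1 (τ : ℂ) ^ i) := by
    funext m
    simp only [smul_eq_mul]
    ring
  rw [e]
  exact h2

end EIS

theorem exists_eis (p : ℕ) [Fact p.Prime] :
    ∃ E : ℍ → ℂ, IsMF (CongruenceSubgroup.Gamma0 p) 2 E ∧
      ∀ k : ℕ, (qExpansion 1 E).coeff k = if k = 0 then ((p : ℂ) - 1) / 24 else (sig p k : ℂ) := by
  have hp : p ≠ 0 := (Fact.out : p.Prime).ne_zero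
  have hMF := isMF_eisF p hp
  have hc := fun m => QIAux.coeff_unique one_pos (IsQAux.analytic hMF) (EIS.hasSum_eisF p hp) m
  refine ⟨eisF p, hMF, fun k => ?_⟩
  by_cases hk0 : k = 0
  · subst hk0
    rw [if_pos rfl, ← hc 0]
    simp [EIS.e2c]
    ring
  · rw [if_neg hk0, ← hc k]
    have hs := EIS.sigma_eq p hp k
    have hs' : ((ArithmeticFunction.sigma 1 k : ℕ) : ℂ) = (sig p k : ℂ) +
        if p ∣ k then (p : ℂ) * ((ArithmeticFunction.sigma 1 (k / p) : ℕ) : ℂ) else 0 := by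
      have := congrArg (Int.cast : ℤ → ℂ) hs
      push_cast at this
      rw [this]
    by_cases h : p ∣ k
    · have hkp : k / p ≠ 0 := by
        obtain ⟨m, rfl⟩ := h
        rw [Nat.mul_div_cancel_left _ (Nat.pos_of_ne_zero hp)]
        rintro rfl
        simp at hk0
      rw [if_pos h] at hs' ⊢
      simp only [EIS.e2c, if_neg hk0, if_neg hkp]
      rw [hs']
      ring
    · rw [if_neg h] at hs' ⊢
      simp only [EIS.e2c, if_neg hk0]
      rw [hs']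
      ring

end

end Fermat.Agent.S16Lib
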