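import Fermat.Agent.S16.UpperBoundCore
import Fermat.Agent.S16.Eis

/-!
# S16, upper bound
-/

set_option autoImplicit false

namespace Fermat.Agent.S16Lib

/-- the upper bound: a cusp form congruent to the Eisenstein series mod `m` forces
`m ∣ (p - 1) / gcd (p - 1, 12)` -/
theorem dvd_of_congr (p : ℕ) [Fact p.Prime] (m : ℕ)
    (f : CuspForm (CongruenceSubgroup.Gamma0 p) 2) (a : ℕ → ℤ)
    (ha : ∀ k, ModularFormClass.qCoeff f k = (a k : ℂ))
    (hc : ∀ k, 1 ≤ k → (m : ℤ) ∣ a k - sig p k) : m ∣ ModularCurve.eisensteinNumerator p :=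
  dvd_of_congr_of_eis p (exists_eis p) m f a ha hc

end Fermat.Agent.S16Lib
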