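import Fermat.Agent.S16.Congr
import Fermat.Agent.S16.UpperBound

set_option autoImplicit false

namespace Fermat.Agent.S16Lib

open CuspForm ModularFormClass CongruenceSubgroup ModularCurve

/-- the upper bound in the form needed by `natCard_quotient_eq_of_exists` -/
theorem exists_upper (p : ℕ) [Fact p.Prime] :
    ∃ t : HeckeAlg, heckeEvalForms p 2 t = 0 ∧
      MvPolynomial.aeval (eisensteinSystem p) t = (eisensteinNumerator p : ℤ) := by
  set ev : HeckeAlg →+* ℤ := (MvPolynomial.aeval (R := ℤ) (eisensteinSystem p)).toRingHom with hev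
  have hevs : Function.Surjective ev := fun z => ⟨MvPolynomial.C z, by simp [hev]⟩
  set J : Ideal ℤ := Ideal.map ev (RingHom.ker (heckeEvalForms p 2)) with hJ
  obtain ⟨m', hm'⟩ : ∃ m' : ℤ, J = Ideal.span {m'} :=
    ⟨_, (Ideal.span_singleton_generator J).symm⟩
  set m : ℕ := m'.natAbs with hmdef
  have hJm : J = Ideal.span {(m : ℤ)} := by rw [hm', hmdef, Int.span_natAbs]
  have h1 : ∀ t : HeckeAlg, heckeEvalForms p 2 t = 0 →
      (m : ℤ) ∣ MvPolynomial.aeval (eisensteinSystem p) t := by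
    intro t ht
    have : ev t ∈ J := Ideal.mem_map_of_mem ev ht
    rw [hJm, Ideal.mem_span_singleton] at this
    exact this
  obtain ⟨f, a, ha, hc⟩ := exists_congr_form p m h1
  obtain ⟨c, hc'⟩ := dvd_of_congr p m f a ha hc
  have h2 : (m : ℤ) ∈ J := by rw [hJm]; exact Ideal.mem_span_singleton_self _
  rw [hJ, Ideal.mem_map_iff_of_surjective ev hevs] at h2
  obtain ⟨t₀, ht₀, ht₀m⟩ := h2
  refine ⟨MvPolynomial.C (c : ℤ) * t₀, ?_, ?_⟩
  · rw [map_mul, (RingHom.mem_ker).mp ht₀, mul_zero]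
  · have e : MvPolynomial.aeval (eisensteinSystem p) t₀ = (m : ℤ) := ht₀m
    rw [map_mul, e, hc']
    simp [mul_comm]

end Fermat.Agent.S16Lib
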