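import Fermat.Agent.S16.UBDefs
import Fermat.Agent.S28.Bridge

/-!
# S16, upper bound, leaf (LO): level one facts

`q`-expansions of `E₄`, `E₆`, the space of weight four, the integral Sturm bound in level one and
the congruence `E_{r-1} ≡ 1 mod r`.
-/

set_option autoImplicit false

open ModularCurve UpperHalfPlane ModularForm Matrix.SpecialLinearGroup CongruenceSubgroup
open Filter Topology
open scoped MatrixGroups Manifold
open Fermat.Agent.S20Lib Fermat.Agent.S28Lib Fermat.Agent.S28Lib.EsymmAux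

namespace Fermat.Agent.S16Lib

noncomputable section

local notation "Δ" => ModularForm.discriminant

theorem e4_eq : e4 = 1 + (240 : ℂ) • sigS 3 := by
  ext n
  rw [e4, EisensteinSeries.E_qExpansion_coeff _ ⟨2, rfl⟩, map_add, PowerSeries.coeff_smul, sigS,
    PowerSeries.coeff_mk, PowerSeries.coeff_one]
  split_ifs with h
  · simp
  · norm_num [show bernoulli 4 = -1 / 30 by decide +kernel]

theorem e6_eq : e6 = 1 - (504 : ℂ) • sigS 5 := by
  ext n
  rw [e6, EisensteinSeries.E_qExpansion_coeff _ ⟨3, rfl⟩, map_sub, PowerSeries.coeff_smul, sigS,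
    PowerSeries.coeff_mk, PowerSeries.coeff_one]
  split_ifs with h
  · simp
  · norm_num [show bernoulli 6 = 1 / 42 by decide +kernel]

theorem weight_four {T : ℍ → ℂ} (hT : IsMF ⊤ 4 T) :
    qExpansion 1 T = (qExpansion 1 T).coeff 0 • e4 := by
  set c : ℂ := (qExpansion 1 T).coeff 0 with hc
  set h : ℍ → ℂ := T + (-c) • E4 with hh
  have hhMF : IsMF ⊤ 4 h := hT.add (isMF_E4.smul _)
  have hh0 : Tendsto h atImInfty (𝓝 0) := by
    have h1 := tendsto_coeff_zero hT
    have h3 := h1.add (tendsto_E4.const_smul (-c))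
    have e : (qExpansion 1 T).coeff 0 + -c • (1 : ℂ) = 0 := by rw [← hc]; simp
    rw [e] at h3
    exact h3
  obtain ⟨r, hr, hhr⟩ := hhMF.exists_eq_Dl_mul hh0
  have hr0 : r = 0 := isMF_top_eq_zero_of_neg (by norm_num) hr
  have hT' : T = c • E4 := by
    have : h = 0 := by rw [hhr, hr0, mul_zero]
    ext τ
    have h2 := congrFun this τ
    simp only [hh, Pi.add_apply, Pi.smul_apply, smul_eq_mul, Pi.zero_apply] at h2
    simp only [Pi.smul_apply, smul_eq_mul]
    linear_combination h2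
  conv_lhs => rw [hT']
  rw [qExpansion_smul (analytic_of_isMF isMF_E4)]
  rfl

namespace LO

/-- `x ∈ ϖ O` -/
def Dv (O : Subring ℂ) (ϖ x : ℂ) : Prop := ∃ y ∈ O, x = ϖ * y

lemma Dv.add {O : Subring ℂ} {ϖ x y : ℂ} (hx : Dv O ϖ x) (hy : Dv O ϖ y) : Dv O ϖ (x + y) := by
  obtain ⟨a, ha, rfl⟩ := hx
  obtain ⟨b, hb, rfl⟩ := hy
  exact ⟨a + b, O.add_mem ha hb, by ring⟩

lemma Dv.zero {O : Subring ℂ} {ϖ : ℂ} : Dv O ϖ 0 := ⟨0, O.zero_mem, by simp⟩

lemma Dv.mul_left {O : Subring ℂ} {ϖ x y : ℂ} (hx : x ∈ O) (hy : Dv O ϖ y) : Dv O ϖ (x * y) := by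
  obtain ⟨b, hb, rfl⟩ := hy
  exact ⟨x * b, O.mul_mem hx hb, by ring⟩

lemma Dv.mul_right {O : Subring ℂ} {ϖ x y : ℂ} (hx : Dv O ϖ x) (hy : y ∈ O) : Dv O ϖ (x * y) := by
  obtain ⟨b, hb, rfl⟩ := hx
  exact ⟨b * y, O.mul_mem hb hy, by ring⟩

lemma Dv.neg {O : Subring ℂ} {ϖ x : ℂ} (hx : Dv O ϖ x) : Dv O ϖ (-x) := by
  obtain ⟨b, hb, rfl⟩ := hx
  exact ⟨-b, O.neg_mem hb, by ring⟩

lemma Dv.sum {O : Subring ℂ} {ϖ : ℂ} {ι : Type*} (s : Finset ι) {f : ι → ℂ}
    (h : ∀ i ∈ s, Dv O ϖ (f i)) : Dv O ϖ (∑ i ∈ s, f i) := by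
  classical
  induction s using Finset.induction_on with
  | empty => simpa using Dv.zero
  | insert a s ha ih =>
    rw [Finset.sum_insert ha]
    exact (h a (Finset.mem_insert_self _ _)).add
      (ih fun i hi => h i (Finset.mem_insert_of_mem hi))

/-- product of an integral series with a series divisible up to order `m` -/
lemma Dv.coeff_mul {O : Subring ℂ} {ϖ : ℂ} {s t : PowerSeries ℂ} (hs : s ∈ serO O) {m : ℕ}
    (ht : ∀ n ≤ m, Dv O ϖ (t.coeff n)) : ∀ n ≤ m, Dv O ϖ ((s * t).coeff n) := by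
  intro n hn
  rw [PowerSeries.coeff_mul]
  refine Dv.sum _ fun p hp => Dv.mul_left (hs _) (ht _ ?_)
  have := Finset.HasAntidiagonal.mem_antidiagonal.mp hp
  omega

lemma sturm_aux (O : Subring ℂ) {ϖ : ℂ} (m : ℕ) : ∀ {F : ℍ → ℂ},
    IsMF ⊤ (12 * m) F → qExpansion 1 F ∈ serO O →
    (∀ n ≤ m, Dv O ϖ ((qExpansion 1 F).coeff n)) → ∀ n, Dv O ϖ ((qExpansion 1 F).coeff n) := by
  induction m with
  | zero =>
    intro F hF hint h n
    have hf0 : IsMF ⊤ 0 F := by simpa using hF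
    obtain ⟨c, hc⟩ := isMF_top_zero_const hf0
    have hc1 : F = c • (1 : ℍ → ℂ) := by
      rw [hc]; ext τ; simp
    have han : AnalyticAt ℂ (cuspFunction 1 (1 : ℍ → ℂ)) 0 :=
      analytic_of_isMF (isMF_one : IsMF ⊤ 0 (1 : ℍ → ℂ))
    have hq : qExpansion 1 F = c • (1 : PowerSeries ℂ) := by
      rw [hc1, qExpansion_smul han, qExpansion_one]
    rcases Nat.eq_zero_or_pos n with rfl | hn
    · exact h 0 le_rfl
    · rw [hq, PowerSeries.coeff_smul, PowerSeries.coeff_one, if_neg hn.ne']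
      simpa using Dv.zero
  | succ m ih =>
    intro F hF hint h
    set a0 : ℂ := (qExpansion 1 F).coeff 0 with ha0
    have ha0D : Dv O ϖ a0 := h 0 (Nat.zero_le _)
    have hE : IsMF ⊤ (12 * ((m + 1 : ℕ) : ℤ)) ((E₄ : ℍ → ℂ) ^ (3 * (m + 1))) := by
      have := isMF_pow isMF_E4 (3 * (m + 1))
      have e : ((3 * (m + 1) : ℕ) : ℤ) * 4 = 12 * ((m + 1 : ℕ) : ℤ) := by push_cast; ring
      rwa [e] at this
    set g : ℍ → ℂ := F + (-a0) • ((E₄ : ℍ → ℂ) ^ (3 * (m + 1))) with hg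
    have hgMF : IsMF ⊤ (12 * ((m + 1 : ℕ) : ℤ)) g := hF.add (hE.smul _)
    have hg0 : Tendsto g atImInfty (𝓝 0) := by
      have h1 := tendsto_coeff_zero hF
      have h2 : Tendsto ((E₄ : ℍ → ℂ) ^ (3 * (m + 1))) atImInfty (𝓝 1) := by
        have := tendsto_E4.pow (3 * (m + 1))
        rw [one_pow] at this
        exact this
      have h3 := h1.add (h2.const_smul (-a0))
      have e : (qExpansion 1 F).coeff 0 + -a0 • (1 : ℂ) = 0 := by rw [← ha0]; simp
      rw [e] at h3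
      exact h3
    obtain ⟨r, hr, hgr⟩ := hgMF.exists_eq_Dl_mul hg0
    have hr' : IsMF ⊤ (12 * (m : ℤ)) r := by
      have e : 12 * ((m + 1 : ℕ) : ℤ) - 12 = 12 * (m : ℤ) := by push_cast; ring
      rwa [e] at hr
    have hEO : qExpansion 1 (E₄ : ℍ → ℂ) ^ (3 * (m + 1)) ∈ serO O := by
      refine (serO O).pow_mem ?_ _
      rw [qExpansion_E4]
      exact map_int_mem_serO O _
    have hqg : qExpansion 1 g = qExpansion 1 F + (-a0) • qExpansion 1 (E₄ : ℍ → ℂ) ^ (3 * (m + 1)) := by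
      rw [hg, qExpansion_add (analytic_of_isMF hF) (analytic_of_isMF (hE.smul _)),
        qExpansion_smul (analytic_of_isMF hE), qExpansion_pow_of_isMF isMF_E4]
    have hq : qExpansion 1 g ∈ serO O := by
      rw [hqg]
      exact (serO O).add_mem hint (smul_mem_serO (O.neg_mem (hint 0)) hEO)
    have hmul : qExpansion 1 g = qExpansion 1 (Δ : ℍ → ℂ) * qExpansion 1 r := by
      rw [← qExpansion_mul (analytic_of_isMF isMF_Dl) (analytic_of_isMF hr'), ← hgr]
    have hq2 : qExpansion 1 r ∈ serO O := by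
      apply mem_serO_of_Delta_mul
      rw [← hmul]
      exact hq
    -- low coefficients of `g`
    have hglow : ∀ n ≤ m + 1, Dv O ϖ ((qExpansion 1 g).coeff n) := by
      intro n hn
      rw [hqg, map_add, PowerSeries.coeff_smul]
      exact (h n hn).add (Dv.mul_right ha0D.neg (hEO n))
    -- low coefficients of `r`
    have hX : PowerSeries.X * qExpansion 1 r =
        dedekindEtaUnitInv.map (Int.castRingHom ℂ) * qExpansion 1 g := by
      rw [hmul, qExpansion_Delta]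
      have h3 : dedekindEtaUnitInv.map (Int.castRingHom ℂ) *
          (PowerSeries.X * dedekindEtaUnit).map (Int.castRingHom ℂ) = PowerSeries.X := by
        rw [← map_mul]
        have : dedekindEtaUnitInv * (PowerSeries.X * dedekindEtaUnit) = PowerSeries.X := by
          rw [mul_comm, mul_assoc, dedekindEtaUnit_mul_inv, mul_one]
        rw [this]
        simp
      rw [← mul_assoc, h3]
    have hrlow : ∀ n ≤ m, Dv O ϖ ((qExpansion 1 r).coeff n) := by
      intro n hn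
      have := Dv.coeff_mul (map_int_mem_serO O dedekindEtaUnitInv) hglow (n + 1) (by omega)
      rwa [← hX, PowerSeries.coeff_succ_X_mul] at this
    have hrall := ih hr' hq2 hrlow
    have hDO : qExpansion 1 (Δ : ℍ → ℂ) ∈ serO O := by
      rw [qExpansion_Delta]
      exact map_int_mem_serO O _
    intro n
    have hgn : Dv O ϖ ((qExpansion 1 g).coeff n) := by
      rw [hmul]
      exact Dv.coeff_mul hDO (m := n) (fun k _ => hrall k) n le_rfl
    have hF' : qExpansion 1 F = qExpansion 1 g + a0 • qExpansion 1 (E₄ : ℍ → ℂ) ^ (3 * (m + 1)) := by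
      rw [hqg]; simp
    rw [hF', map_add, PowerSeries.coeff_smul]
    exact hgn.add (Dv.mul_right ha0D (hEO n))

end LO

set_option linter.unusedVariables false in
/-- integral Sturm bound in level one, weight `12 m` -/
theorem sturm_int (O : Subring ℂ) {ϖ : ℂ} (hϖ : ϖ ∈ O) (m : ℕ) {F : ℍ → ℂ}
    (hF : IsMF ⊤ (12 * m) F) (hint : IntS O (qExpansion 1 F))
    (h : ∀ n ≤ m, ∃ x ∈ O, (qExpansion 1 F).coeff n = ϖ * x) :
    ∀ n, ∃ x ∈ O, (qExpansion 1 F).coeff n = ϖ * x :=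
  LO.sturm_aux O m hF hint h

namespace LO

lemma inv_natCast_mem_Zloc (r : ℕ) [Fact r.Prime] {q : ℕ} (hq : ¬ r ∣ q) :
    (1 : ℂ) / (q : ℂ) ∈ Zloc r :=
  ⟨1, q, fun h => hq (by exact_mod_cast h), by simp⟩

/-- `-1 + r t` is a unit of `ℤ_(r)` -/
lemma inv_mem_Zloc (r : ℕ) [Fact r.Prime] {t : ℂ} (ht : t ∈ Zloc r) :
    (-1 + (r : ℂ) * t)⁻¹ ∈ Zloc r := by
  obtain ⟨a, b, hb, rfl⟩ := ht
  have hb0 : (b : ℂ) ≠ 0 := by
    intro h; apply hb; have : b = 0 := by exact_mod_cast h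
    simp [this]
  refine ⟨b, r * a - b, fun h => hb ?_, ?_⟩
  · have h2 : (r : ℤ) ∣ r * a := Dvd.intro _ rfl
    have := (Int.dvd_sub h2 h)
    simpa using this
  · have e : (-1 + (r : ℂ) * ((a : ℂ) / b)) = ((r * a - b : ℤ) : ℂ) / b := by
      push_cast; field_simp; ring
    rw [e, inv_div]

/-- von Staudt for the prime `r` and the index `r - 1` -/
lemma bernoulli_eq (r : ℕ) [Fact r.Prime] (hr : 5 ≤ r) :
    ∃ t ∈ Zloc r, (r : ℂ) * ((bernoulli (r - 1) : ℚ) : ℂ) = -1 + (r : ℂ) * t := by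
  have hrp : r.Prime := Fact.out
  obtain ⟨k, hk⟩ : ∃ k, r - 1 = 2 * k := by
    rcases hrp.eq_two_or_odd' with h | h
    · omega
    · obtain ⟨k, hk⟩ := h
      exact ⟨k, by omega⟩
  obtain ⟨n, hn⟩ := Bernoulli.vonStaudt_clausen k
  set P : Finset ℕ := (Finset.range (2 * k + 2)).filter fun p => p.Prime ∧ (p - 1) ∣ 2 * k with hP
  have hrP : r ∈ P := by
    rw [hP, Finset.mem_filter, Finset.mem_range]
    exact ⟨by omega, hrp, by rw [hk]⟩
  rw [← Finset.add_sum_erase _ _ hrP] at hn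
  have hr0 : (r : ℂ) ≠ 0 := by exact_mod_cast hrp.ne_zero
  refine ⟨(n : ℂ) - ∑ q ∈ P.erase r, (1 : ℂ) / (q : ℂ), ?_, ?_⟩
  · refine (Zloc r).sub_mem (intCast_mem _ _) ((Zloc r).sum_mem fun q hq => ?_)
    refine inv_natCast_mem_Zloc r fun h => ?_
    rw [Finset.mem_erase, hP, Finset.mem_filter] at hq
    exact hq.1 (((Nat.prime_dvd_prime_iff_eq hrp hq.2.2.1).mp h).symm)
  · have h2 : ((bernoulli (2 * k) : ℚ) : ℂ) =
        (n : ℂ) - ((1 : ℂ) / r + ∑ q ∈ P.erase r, (1 : ℂ) / (q : ℂ)) := by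
      have h3 : bernoulli (2 * k) = (n : ℚ) - ((1 : ℚ) / r + ∑ q ∈ P.erase r, (1 : ℚ) / q) := by
        linarith
      rw [h3]
      push_cast
      ring
    rw [hk, h2]
    field_simp
    ring

end LO

/-- von Staudt: `E_{r-1} ≡ 1 mod r` -/
theorem exists_hasse (r : ℕ) [Fact r.Prime] (hr : 5 ≤ r) :
    ∃ (A : ℍ → ℂ) (ε : PowerSeries ℂ), IsMF ⊤ ((r - 1 : ℕ) : ℤ) A ∧ IntS (Zloc r) ε ∧
      qExpansion 1 A = 1 + (r : ℂ) • ε := by
  have hrp : r.Prime := Fact.out
  have hk3 : 3 ≤ r - 1 := by omega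
  have hk2 : Even (r - 1) := by
    rcases hrp.eq_two_or_odd' with h | h
    · omega
    · obtain ⟨k, hk⟩ := h
      exact ⟨k, by omega⟩
  obtain ⟨t, ht, hB⟩ := LO.bernoulli_eq r hr
  have hr0 : (r : ℂ) ≠ 0 := by exact_mod_cast hrp.ne_zero
  set u : ℂ := (-1 + (r : ℂ) * t)⁻¹ with hu
  have huZ : u ∈ Zloc r := LO.inv_mem_Zloc r ht
  set c : ℂ := -(2 * ((r - 1 : ℕ) : ℂ)) * u with hc
  have hcZ : c ∈ Zloc r :=
    (Zloc r).mul_mem ((Zloc r).neg_mem ((Zloc r).mul_mem
      (by simp) (natCast_mem _ _))) huZ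
  refine ⟨ModularForm.E hk3, c • sigS (r - 1 - 1), isMF_top_coe _, ?_, ?_⟩
  · intro n
    rw [PowerSeries.coeff_smul, sigS, PowerSeries.coeff_mk]
    refine (Zloc r).mul_mem hcZ ?_
    split_ifs
    · exact (Zloc r).zero_mem
    · exact natCast_mem _ _
  · ext n
    rw [EisensteinSeries.E_qExpansion_coeff hk3 hk2, map_add, PowerSeries.coeff_smul,
      PowerSeries.coeff_smul, sigS, PowerSeries.coeff_mk, PowerSeries.coeff_one]
    split_ifs with h
    · simp
    · have hB0 : ((bernoulli (r - 1) : ℚ) : ℂ) ≠ 0 := by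
        intro h0
        rw [h0, mul_zero] at hB
        have h1 : (-1 + (r : ℂ) * t) = 0 := hB.symm
        -- then `1 = r t`, impossible in `ℤ_(r)`
        obtain ⟨a, b, hb, rfl⟩ := ht
        have hb0 : (b : ℂ) ≠ 0 := by
          intro h; apply hb; have : b = 0 := by exact_mod_cast h
          simp [this]
        have h2 : ((r * a : ℤ) : ℂ) = (b : ℂ) := by
          push_cast
          field_simp at h1
          linear_combination h1
        have h3 : (r : ℤ) * a = b := by exact_mod_cast h2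
        exact hb ⟨a, h3.symm⟩
      have hu' : u = ((r : ℂ) * ((bernoulli (r - 1) : ℚ) : ℂ))⁻¹ := by rw [hu, hB]
      rw [hc, hu', zero_add, smul_eq_mul, smul_eq_mul]
      field_simp

end

end Fermat.Agent.S16Lib
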