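import Fermat.Agent.S16.FDApi
import Fermat.Agent.S16.LevelOneFacts

/-!
# S16 UB, leaf (C1): consequences of `Tr(G²) = (1 + 1/p) E₄`
-/

set_option autoImplicit false
set_option linter.unusedSectionVars false

open UpperHalfPlane ModularForm Matrix.SpecialLinearGroup CongruenceSubgroup
open scoped MatrixGroups Manifold
open Fermat.Agent.S20Lib Fermat.Agent.S28Lib

namespace Fermat.Agent.S16Lib

noncomputable section

variable (p : ℕ) [Fact p.Prime]

namespace C1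

lemma pC_ne_zero : (p : ℂ) ≠ 0 := by exact_mod_cast (Fact.out : p.Prime).ne_zero

lemma Up_add (φ χ : PowerSeries ℂ) : Up p (φ + χ) = Up p φ + Up p χ := by
  ext n; simp

lemma Up_smul (c : ℂ) (φ : PowerSeries ℂ) : Up p (c • φ) = c • Up p φ := by
  ext n; simp

lemma Up_one : Up p 1 = 1 := by
  ext n
  rw [coeff_Up, PowerSeries.coeff_one, PowerSeries.coeff_one]
  have hp := (Fact.out : p.Prime).ne_zero
  simp [hp]

lemma IntS.Up {O : Subring ℂ} {g : PowerSeries ℂ} (hg : IntS O g) : IntS O (Up p g) := fun n => by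
  rw [coeff_Up]; exact hg _

lemma IntS.pow {O : Subring ℂ} {g : PowerSeries ℂ} (hg : IntS O g) (n : ℕ) : IntS O (g ^ n) :=
  (EsymmAux.serO O).pow_mem hg n

/-- coefficients of a square -/
lemma sq_coeff {O : Subring ℂ} {g : PowerSeries ℂ} (hg : IntS O g) (n : ℕ) :
    ∃ x ∈ O, (g ^ 2).coeff n = 2 * x + (if Even n then g.coeff (n / 2) ^ 2 else 0) := by
  classical
  rw [sq, PowerSeries.coeff_mul]
  set F : ℕ × ℕ → ℂ := fun x => g.coeff x.1 * g.coeff x.2 with hF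
  have h1 := Finset.sum_filter_add_sum_filter_not (Finset.HasAntidiagonal.antidiagonal n) (fun x => x.1 < x.2) F
  have h2 := Finset.sum_filter_add_sum_filter_not
    ((Finset.HasAntidiagonal.antidiagonal n).filter (fun x => ¬ x.1 < x.2)) (fun x => x.2 < x.1) F
  have h3 : ∑ x ∈ ((Finset.HasAntidiagonal.antidiagonal n).filter (fun x => ¬ x.1 < x.2)).filter
      (fun x => x.2 < x.1), F x = ∑ x ∈ (Finset.HasAntidiagonal.antidiagonal n).filter (fun x => x.1 < x.2), F x := by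
    refine Finset.sum_bij (fun x _ => x.swap) ?_ ?_ ?_ ?_
    · intro x hx
      simp only [Finset.mem_filter, Finset.HasAntidiagonal.mem_antidiagonal] at hx ⊢
      simp only [Prod.fst_swap, Prod.snd_swap]
      omega
    · intro x _ y _ h
      exact Prod.swap_injective h
    · intro y hy
      simp only [Finset.mem_filter, Finset.HasAntidiagonal.mem_antidiagonal] at hy
      refine ⟨y.swap, ?_, by simp⟩
      simp only [Finset.mem_filter, Finset.HasAntidiagonal.mem_antidiagonal, Prod.fst_swap, Prod.snd_swap]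
      omega
    · intro x _
      simp [hF, mul_comm]
  have h4 : ∑ x ∈ ((Finset.HasAntidiagonal.antidiagonal n).filter (fun x => ¬ x.1 < x.2)).filter
      (fun x => ¬ x.2 < x.1), F x = if Even n then g.coeff (n / 2) ^ 2 else 0 := by
    split_ifs with hn
    · obtain ⟨m, rfl⟩ := hn
      have : ((Finset.HasAntidiagonal.antidiagonal (m + m)).filter (fun x => ¬ x.1 < x.2)).filter
          (fun x => ¬ x.2 < x.1) = {(m, m)} := by
        ext ⟨a, b⟩
        simp only [Finset.mem_filter, Finset.HasAntidiagonal.mem_antidiagonal, Finset.mem_singleton, Prod.mk.injEq]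
        omega
      rw [this, Finset.sum_singleton]
      have : (m + m) / 2 = m := by omega
      simp [hF, this, sq]
    · have : ((Finset.HasAntidiagonal.antidiagonal n).filter (fun x => ¬ x.1 < x.2)).filter
          (fun x => ¬ x.2 < x.1) = ∅ := by
        ext ⟨a, b⟩
        simp only [Finset.mem_filter, Finset.HasAntidiagonal.mem_antidiagonal, Finset.notMem_empty, iff_false]
        rintro ⟨⟨h, h1⟩, h2⟩
        apply hn
        exact ⟨a, by omega⟩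
      rw [this, Finset.sum_empty]
  refine ⟨∑ x ∈ (Finset.HasAntidiagonal.antidiagonal n).filter (fun x => x.1 < x.2), F x, ?_, ?_⟩
  · exact O.sum_mem fun x _ => O.mul_mem (hg _) (hg _)
  · rw [← h1, ← h2, h3, h4]; ring

end C1

open C1

theorem I2_identity {φ φs : PowerSeries ℂ} (h : FD p 2 φ φs) (h0 : φ.coeff 0 = 1) (n : ℕ) :
    (φ ^ 2).coeff n + (p : ℂ)⁻¹ * ((Up p φ) ^ 2).coeff (p * n) = (1 + (p : ℂ)⁻¹) * e4.coeff n := by
  have hp := pC_ne_zero p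
  obtain ⟨T, hT, hc⟩ := (h.pow 2).trace
  have hT4 : IsMF ⊤ 4 T := by
    have e : ((2 : ℕ) : ℤ) * 2 = 4 := by norm_num
    rwa [e] at hT
  have hs : φs ^ 2 = ((p : ℂ)⁻¹ ^ 2) • (Up p φ) ^ 2 := by
    rw [h.two, smul_pow]; congr 1; ring
  have key : ∀ m, (qExpansion 1 T).coeff m =
      (φ ^ 2).coeff m + (p : ℂ)⁻¹ * ((Up p φ) ^ 2).coeff (p * m) := by
    intro m
    rw [hc, hs, PowerSeries.coeff_smul, smul_eq_mul]
    field_simp
  have h00 : (qExpansion 1 T).coeff 0 = 1 + (p : ℂ)⁻¹ := by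
    rw [key 0]
    simp [sq, PowerSeries.coeff_mul, h0]
  rw [← key, weight_four hT4, h00, PowerSeries.coeff_smul, smul_eq_mul]

namespace C1

variable {p}

lemma UpUp {M : ℕ} (hM : 0 < M) {φ φs g : PowerSeries ℂ} (h : FD p 2 φ φs)
    (hφ : φ = 1 + (M : ℂ) • g) : Up p (Up p g) = g := by
  have h1 := h.two_Up.2
  rw [hφ, Up_add, Up_add, Up_one, Up_one, Up_smul, Up_smul] at h1
  have h2 := add_left_cancel h1
  have hM' : (M : ℂ) ≠ 0 := by exact_mod_cast hM.ne'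
  exact smul_right_injective _ hM' h2

lemma Up_phi {M : ℕ} {φ g : PowerSeries ℂ} (hφ : φ = 1 + (M : ℂ) • g) :
    Up p φ = 1 + (M : ℂ) • Up p g := by
  rw [hφ, Up_add, Up_one, Up_smul]

lemma coeff_sq_one_add {M : ℕ} (g : PowerSeries ℂ) {n : ℕ} (hn : 1 ≤ n) :
    ((1 + (M : ℂ) • g) ^ 2).coeff n = 2 * M * g.coeff n + (M : ℂ) ^ 2 * (g ^ 2).coeff n := by
  have e : (1 + (M : ℂ) • g) ^ 2 = 1 + ((M : ℂ) • g + (M : ℂ) • g) + ((M : ℂ) ^ 2) • g ^ 2 := by
    rw [← smul_pow]; ring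
  rw [e]
  have h1 : (1 : PowerSeries ℂ).coeff n = 0 := by
    rw [PowerSeries.coeff_one, if_neg (by omega)]
  simp only [map_add, PowerSeries.coeff_smul, smul_eq_mul, h1]
  ring

lemma e4_coeff {n : ℕ} (hn : 1 ≤ n) :
    e4.coeff n = 240 * ((ArithmeticFunction.sigma 3 n : ℕ) : ℂ) := by
  rw [e4_eq]
  have h1 : (1 : PowerSeries ℂ).coeff n = 0 := by
    rw [PowerSeries.coeff_one, if_neg (by omega)]
  simp only [map_add, PowerSeries.coeff_smul, smul_eq_mul, h1, sigS, PowerSeries.coeff_mk]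
  rw [if_neg (by omega)]
  ring

lemma key {M : ℕ} (hM : 0 < M) {φ φs g : PowerSeries ℂ} (h : FD p 2 φ φs)
    (hφ : φ = 1 + (M : ℂ) • g) (hg0 : g.coeff 0 = 0) {n : ℕ} (hn : 1 ≤ n) :
    2 * M * (1 + (p : ℂ)⁻¹) * g.coeff n +
      (M : ℂ) ^ 2 * ((g ^ 2).coeff n + (p : ℂ)⁻¹ * ((Up p g) ^ 2).coeff (p * n)) =
    (1 + (p : ℂ)⁻¹) * (240 * ((ArithmeticFunction.sigma 3 n : ℕ) : ℂ)) := by
  have h0 : φ.coeff 0 = 1 := by
    rw [hφ, map_add, PowerSeries.coeff_smul, hg0]; simp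
  have hI := I2_identity p h h0 n
  have hpn : 1 ≤ p * n := Nat.mul_pos (Fact.out : p.Prime).pos hn
  rw [Up_phi hφ, hφ, coeff_sq_one_add g hn, coeff_sq_one_add (Up p g) hpn, e4_coeff hn] at hI
  have h2 : (Up p g).coeff (p * n) = g.coeff n := by
    rw [← coeff_Up, UpUp hM h hφ]
  rw [h2] at hI
  rw [← hI]; ring

lemma sigma_three_prime : ((ArithmeticFunction.sigma 3 p : ℕ) : ℂ) = 1 + (p : ℂ) ^ 3 := by
  have hp := (Fact.out : p.Prime)
  rw [ArithmeticFunction.sigma_apply, hp.divisors,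
    Finset.sum_pair hp.one_lt.ne]
  push_cast; ring

/-- the basic relation `M² Y = 240 (p+1) p²` -/
lemma rel {M : ℕ} (hM : 0 < M) {φ φs g : PowerSeries ℂ} (h : FD p 2 φ φs)
    (hφ : φ = 1 + (M : ℂ) • g) (hg0 : g.coeff 0 = 0) :
    (M : ℂ) ^ 2 * ((g ^ 2).coeff p + (p : ℂ)⁻¹ * ((Up p g) ^ 2).coeff (p * p)
      - ((Up p g) ^ 2).coeff 1 - (p : ℂ)⁻¹ * (g ^ 2).coeff p) = 240 * (p + 1) * (p : ℂ) ^ 2 := by
  have hp := pC_ne_zero p
  have ha := key hM h hφ hg0 (n := p) (Fact.out : p.Prime).one_le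
  have hg0' : (Up p g).coeff 0 = 0 := by rw [coeff_Up]; simpa using hg0
  have hb := key hM h.two_Up.1 (Up_phi hφ) hg0' (n := 1) le_rfl
  rw [UpUp hM h hφ, mul_one] at hb
  have h1 : (Up p g).coeff 1 = g.coeff p := by rw [coeff_Up, mul_one]
  rw [h1] at hb
  rw [sigma_three_prime] at ha
  have hs1 : ((ArithmeticFunction.sigma 3 1 : ℕ) : ℂ) = 1 := by simp
  rw [hs1] at hb
  have : (1 + (p : ℂ)⁻¹) * (240 * (1 + (p : ℂ) ^ 3)) - (1 + (p : ℂ)⁻¹) * (240 * 1)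
      = 240 * (p + 1) * (p : ℂ) ^ 2 := by field_simp; ring
  rw [← this, ← ha, ← hb]; ring

lemma inv_p_mem (r : ℕ) [Fact r.Prime] (hrp : r ≠ p) : (p : ℂ)⁻¹ ∈ Zloc r := by
  refine ⟨1, p, ?_, by simp⟩
  intro h
  have h' : r ∣ p := by exact_mod_cast h
  exact hrp ((Nat.prime_dvd_prime_iff_eq Fact.out Fact.out).mp h')

end C1

theorem nc_I2 (r : ℕ) [Fact r.Prime] (hrp : r ≠ p) (M : ℕ) (hM : 0 < M) (h : NCHyp p r M) :
    (240 * (p + 1) : ℂ) / M ^ 2 ∈ Zloc r := by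
  obtain ⟨φ, φs, g, hFD, hg, hg0, hφ⟩ := h
  have hp := pC_ne_zero p
  have hM' : (M : ℂ) ≠ 0 := by exact_mod_cast hM.ne'
  have hrel := rel hM hFD hφ hg0
  have hpi := inv_p_mem (p := p) r hrp
  set Y := (g ^ 2).coeff p + (p : ℂ)⁻¹ * ((Up p g) ^ 2).coeff (p * p)
      - ((Up p g) ^ 2).coeff 1 - (p : ℂ)⁻¹ * (g ^ 2).coeff p with hY
  have hYm : Y ∈ Zloc r :=
    (Zloc r).sub_mem ((Zloc r).sub_mem ((Zloc r).add_mem (IntS.pow hg 2 _)
      ((Zloc r).mul_mem hpi (IntS.pow (IntS.Up p hg) 2 _))) (IntS.pow (IntS.Up p hg) 2 _))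
      ((Zloc r).mul_mem hpi (IntS.pow hg 2 _))
  have e : (240 * (p + 1) : ℂ) / M ^ 2 = Y * ((p : ℂ)⁻¹ * (p : ℂ)⁻¹) := by
    field_simp
    linear_combination -hrel
  rw [e]
  exact (Zloc r).mul_mem hYm ((Zloc r).mul_mem hpi hpi)

namespace C1

lemma sq_coeff_odd {O : Subring ℂ} {g : PowerSeries ℂ} (hg : IntS O g) {n : ℕ} (hn : ¬ Even n) :
    ∃ x ∈ O, (g ^ 2).coeff n = 2 * x := by
  obtain ⟨x, hx, h⟩ := sq_coeff hg n
  exact ⟨x, hx, by rw [h, if_neg hn, add_zero]⟩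

end C1

theorem nc_I2_two (hp2 : p ≠ 2) (M : ℕ) (hM : 0 < M) (h : NCHyp p 2 M) :
    (240 * (p + 1) : ℂ) / (2 * M ^ 2) ∈ Zloc 2 := by
  obtain ⟨φ, φs, g, hFD, hg, hg0, hφ⟩ := h
  have hp := pC_ne_zero p
  have hM' : (M : ℂ) ≠ 0 := by exact_mod_cast hM.ne'
  have hrel := rel hM hFD hφ hg0
  have hpi := inv_p_mem (p := p) 2 (Ne.symm hp2)
  have hodd : ¬ Even p := by
    intro he
    exact hp2 (((Fact.out : p.Prime).even_iff).mp he)
  have hodd2 : ¬ Even (p * p) := by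
    rw [Nat.even_mul]; tauto
  obtain ⟨x1, hx1, e1⟩ := sq_coeff_odd hg hodd
  obtain ⟨x2, hx2, e2⟩ := sq_coeff_odd (IntS.Up p hg) hodd2
  obtain ⟨x3, hx3, e3⟩ := sq_coeff_odd (IntS.Up p hg) (n := 1) (by decide)
  rw [e1, e2, e3] at hrel
  have hYm : x1 + (p : ℂ)⁻¹ * x2 - x3 - (p : ℂ)⁻¹ * x1 ∈ Zloc 2 :=
    (Zloc 2).sub_mem ((Zloc 2).sub_mem ((Zloc 2).add_mem hx1
      ((Zloc 2).mul_mem hpi hx2)) hx3) ((Zloc 2).mul_mem hpi hx1)
  have e : (240 * (p + 1) : ℂ) / (2 * M ^ 2) =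
      (x1 + (p : ℂ)⁻¹ * x2 - x3 - (p : ℂ)⁻¹ * x1) * ((p : ℂ)⁻¹ * (p : ℂ)⁻¹) := by
    field_simp
    field_simp at hrel
    linear_combination -hrel
  rw [e]
  exact (Zloc 2).mul_mem hYm ((Zloc 2).mul_mem hpi hpi)

theorem nc_I2_improve (hp : p % 4 = 1) (h : NCHyp p 2 4) : NCHyp p 2 8 := by
  obtain ⟨φ, φs, g, hFD, hg, hg0, hφ⟩ := h
  have hpC := pC_ne_zero p
  have hp2 : p ≠ 2 := by rintro rfl; omega
  have hpi := inv_p_mem (p := p) 2 (Ne.symm hp2)
  obtain ⟨u, hu⟩ : ∃ u : ℕ, p + 1 = 2 * u := ⟨(p + 1) / 2, by omega⟩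
  have huodd : u % 2 = 1 := by omega
  have huC : (u : ℂ) ≠ 0 := by
    have : u ≠ 0 := by omega
    exact_mod_cast this
  have hui : (u : ℂ)⁻¹ ∈ Zloc 2 := by
    refine ⟨1, u, ?_, by simp⟩
    intro hd
    have : (2 : ℕ) ∣ u := by exact_mod_cast hd
    omega
  have hpu : (p : ℂ) + 1 = 2 * u := by exact_mod_cast hu
  have hpm : (p : ℂ) ∈ Zloc 2 := natCast_mem _ p
  have hum : (u : ℂ) ∈ Zloc 2 := natCast_mem _ u
  have hmain : ∀ n, ∃ x ∈ Zloc 2, g.coeff n = 2 * x := by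
    intro n
    rcases Nat.eq_zero_or_pos n with rfl | hn
    · exact ⟨0, (Zloc 2).zero_mem, by rw [hg0]; simp⟩
    have hk := key (M := 4) (by norm_num) hFD hφ hg0 hn
    obtain ⟨x, hx, ex⟩ := sq_coeff hg n
    obtain ⟨y, hy, ey⟩ := sq_coeff (IntS.Up p hg) (p * n)
    have hev : Even (p * n) ↔ Even n := by
      rw [Nat.even_mul]
      have : ¬ Even p := by
        intro he; exact hp2 (((Fact.out : p.Prime).even_iff).mp he)
      tauto
    have hh : Even n → (Up p g).coeff (p * n / 2) = g.coeff (n / 2) := by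
      rintro ⟨m, rfl⟩
      have e1 : p * (m + m) / 2 = p * m := by
        have : p * (m + m) = 2 * (p * m) := by ring
        rw [this]; omega
      have e2 : (m + m) / 2 = m := by omega
      rw [e1, e2, ← coeff_Up, UpUp (M := 4) (by norm_num) hFD hφ]
    rw [ex, ey] at hk
    by_cases hne : Even n
    · rw [if_pos hne, if_pos (hev.mpr hne), hh hne] at hk
      refine ⟨15 * ((ArithmeticFunction.sigma 3 n : ℕ) : ℂ) -
        (p : ℂ) * (u : ℂ)⁻¹ * (x + (p : ℂ)⁻¹ * y + (u : ℂ) * (p : ℂ)⁻¹ * g.coeff (n / 2) ^ 2), ?_, ?_⟩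
      · refine (Zloc 2).sub_mem ((Zloc 2).mul_mem ?_ (natCast_mem _ _)) ((Zloc 2).mul_mem
          ((Zloc 2).mul_mem hpm hui) ((Zloc 2).add_mem ((Zloc 2).add_mem hx ((Zloc 2).mul_mem hpi hy))
          ((Zloc 2).mul_mem ((Zloc 2).mul_mem hum hpi) ((Zloc 2).pow_mem (hg _) 2))))
        exact_mod_cast natCast_mem (Zloc 2) 15
      · have h1 : (1 : ℂ) + (p : ℂ)⁻¹ = 2 * u * (p : ℂ)⁻¹ := by
          field_simp; exact hpu
        rw [h1] at hk
        push_cast at hk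
        field_simp at hk ⊢
        linear_combination (1 / 16 : ℂ) * hk - g.coeff (n / 2) ^ 2 * hpu
    · rw [if_neg hne, if_neg (fun h => hne (hev.mp h))] at hk
      refine ⟨15 * ((ArithmeticFunction.sigma 3 n : ℕ) : ℂ) -
        (p : ℂ) * (u : ℂ)⁻¹ * (x + (p : ℂ)⁻¹ * y), ?_, ?_⟩
      · refine (Zloc 2).sub_mem ((Zloc 2).mul_mem ?_ (natCast_mem _ _)) ((Zloc 2).mul_mem
          ((Zloc 2).mul_mem hpm hui) ((Zloc 2).add_mem hx ((Zloc 2).mul_mem hpi hy)))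
        exact_mod_cast natCast_mem (Zloc 2) 15
      · have h1 : (1 : ℂ) + (p : ℂ)⁻¹ = 2 * u * (p : ℂ)⁻¹ := by
          field_simp; exact hpu
        rw [h1] at hk
        push_cast at hk
        field_simp at hk ⊢
        linear_combination (1 / 16 : ℂ) * hk
  choose x hx ex using hmain
  refine ⟨φ, φs, PowerSeries.mk x, hFD, fun n => by rw [PowerSeries.coeff_mk]; exact hx n, ?_, ?_⟩
  · rw [PowerSeries.coeff_mk]
    have := ex 0
    rw [hg0] at this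
    simpa using this.symm
  · rw [hφ]
    congr 1
    ext n
    simp only [PowerSeries.coeff_smul, PowerSeries.coeff_mk, smul_eq_mul, ex n]
    push_cast
    ring


end

end Fermat.Agent.S16Lib
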