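import Fermat.Agent.S16.LevelOneFacts
import Fermat.Agent.S24.JLocal

/-!
# S16, upper bound, leaf (L1): no level one form of weight `2 r^s` is a unit constant mod `r`
-/

set_option autoImplicit false

open UpperHalfPlane ModularForm Matrix.SpecialLinearGroup CongruenceSubgroup
open scoped MatrixGroups Manifold
open Fermat.Agent.S20Lib Fermat.Agent.S28Lib Fermat.Agent.S24Lib

namespace Fermat.Agent.S16Lib

noncomputable section

/-! ### arithmetic of `Zloc r` -/

theorem L1.dvd_iff (r : ℕ) [Fact r.Prime] (x : Zloc r) (a b : ℤ) (hb : ¬ (r : ℤ) ∣ b)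
    (hx : (x : ℂ) = (a : ℂ) / b) : ((r : ℕ) : Zloc r) ∣ x ↔ (r : ℤ) ∣ a := by
  have hrp : Prime (r : ℤ) := Nat.prime_iff_prime_int.mp (Fact.out : r.Prime)
  have hb0 : (b : ℂ) ≠ 0 := by
    intro h; apply hb; have : b = 0 := by exact_mod_cast h
    simp [this]
  constructor
  · rintro ⟨y, hy⟩
    obtain ⟨c, d, hd, hyc⟩ := y.2
    have hd0 : (d : ℂ) ≠ 0 := by
      intro h; apply hd; have : d = 0 := by exact_mod_cast h
      simp [this]
    have h1 : (x : ℂ) = (r : ℂ) * (y : ℂ) := by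
      rw [hy]; simp
    rw [hx, hyc] at h1
    have h2 : (a : ℂ) * d = r * c * b := by
      field_simp at h1
      linear_combination h1
    have h3 : a * d = r * c * b := by exact_mod_cast h2
    have h4 : (r : ℤ) ∣ a * d := ⟨c * b, by rw [h3]; ring⟩
    rcases hrp.dvd_or_dvd h4 with h | h
    · exact h
    · exact absurd h hd
  · rintro ⟨a', rfl⟩
    refine ⟨⟨(a' : ℂ) / b, a', b, hb, rfl⟩, ?_⟩
    apply Subtype.ext
    rw [hx]
    push_cast
    ring

theorem L1.prime (r : ℕ) [Fact r.Prime] : Prime ((r : ℕ) : Zloc r) := by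
  have hrp : Prime (r : ℤ) := Nat.prime_iff_prime_int.mp (Fact.out : r.Prime)
  have hone : ¬ (r : ℤ) ∣ 1 := fun h => hrp.not_isUnit (isUnit_of_dvd_one h)
  refine ⟨?_, ?_, ?_⟩
  · intro h
    have := congrArg (Subtype.val) h
    have h2 : (r : ℂ) = 0 := by simpa using this
    exact (Fact.out : r.Prime).ne_zero (by exact_mod_cast h2)
  · intro h
    have h1 : ((r : ℕ) : Zloc r) ∣ 1 := h.dvd
    rw [L1.dvd_iff r 1 1 1 hone (by simp)] at h1
    exact hone h1
  · intro x y hxy
    obtain ⟨a, b, hb, hx⟩ := x.2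
    obtain ⟨c, d, hd, hy⟩ := y.2
    have hbd : ¬ (r : ℤ) ∣ b * d := fun h => (hrp.dvd_or_dvd h).elim hb hd
    rw [L1.dvd_iff r (x * y) (a * c) (b * d) hbd (by
      rw [Subring.coe_mul, hx, hy]; push_cast; ring)] at hxy
    rcases hrp.dvd_or_dvd hxy with h | h
    · exact Or.inl ((L1.dvd_iff r x a b hb hx).2 h)
    · exact Or.inr ((L1.dvd_iff r y c d hd hy).2 h)

/-- the ideal `(r)` of `Zloc r` -/
def L1.idl (r : ℕ) [Fact r.Prime] : Ideal (Zloc r) := Ideal.span {((r : ℕ) : Zloc r)}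

instance L1.idl_isPrime (r : ℕ) [Fact r.Prime] : (L1.idl r).IsPrime :=
  (Ideal.span_singleton_prime (L1.prime r).ne_zero).2 (L1.prime r)

/-- the residue ring -/
abbrev L1.K (r : ℕ) [Fact r.Prime] : Type := Zloc r ⧸ L1.idl r

/-- reduction mod `r` -/
abbrev L1.red (r : ℕ) [Fact r.Prime] : Zloc r →+* L1.K r := Ideal.Quotient.mk (L1.idl r)

theorem L1.red_r (r : ℕ) [Fact r.Prime] : L1.red r ((r : ℕ) : Zloc r) = 0 :=
  Ideal.Quotient.eq_zero_iff_mem.2 (Ideal.mem_span_singleton_self _)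

theorem L1.red_natCast_ne_zero (r : ℕ) [Fact r.Prime] (n : ℕ) (hn : ¬ r ∣ n) :
    ((n : ℕ) : L1.K r) ≠ 0 := by
  intro h
  have h1 : L1.red r ((n : ℕ) : Zloc r) = 0 := by rw [map_natCast]; exact h
  rw [Ideal.Quotient.eq_zero_iff_mem, L1.idl, Ideal.mem_span_singleton] at h1
  have hrp : Prime (r : ℤ) := Nat.prime_iff_prime_int.mp (Fact.out : r.Prime)
  have hone : ¬ (r : ℤ) ∣ 1 := fun h => hrp.not_isUnit (isUnit_of_dvd_one h)
  rw [L1.dvd_iff r _ n 1 hone (by simp)] at h1
  exact hn (by exact_mod_cast h1)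

/-! ### level one forms of weight `12 m` as polynomials in `j` -/

theorem L1.exists_poly (O : Subring ℂ) (m : ℕ) {f : ℍ → ℂ} (hf : IsMF ⊤ (12 * m) f)
    (hint : IntS O (qExpansion 1 f)) :
    ∃ P : Polynomial O, P.natDegree ≤ m ∧ ((P.coeff m : O) : ℂ) = (qExpansion 1 f).coeff 0 ∧
      ∀ τ, f τ = Dl τ ^ m * Polynomial.aeval (jan τ) P := by
  obtain ⟨c, hc⟩ := levelOne_structure O m f hf hint
  refine ⟨∑ a ∈ Finset.range (m + 1), Polynomial.C (c a) * Polynomial.X ^ (m - a), ?_, ?_, ?_⟩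
  · refine Polynomial.natDegree_sum_le_of_forall_le _ _ fun a _ => ?_
    exact (Polynomial.natDegree_C_mul_X_pow_le _ _).trans (Nat.sub_le _ _)
  · have h1 : (∑ a ∈ Finset.range (m + 1),
        Polynomial.C (c a) * Polynomial.X ^ (m - a) : Polynomial O).coeff m = c 0 := by
      rw [Polynomial.finsetSum_coeff, Finset.sum_eq_single 0]
      · simp
      · intro a ha ha0
        rw [Polynomial.coeff_C_mul_X_pow, if_neg]
        have := Finset.mem_range.mp ha
        omega
      · intro h; exact absurd (Finset.mem_range.mpr (Nat.succ_pos m)) h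
    rw [h1]
    have t1 := EsymmAux.tendsto_coeff_zero hf
    have t2 : Filter.Tendsto f atImInfty (nhds (c 0 : ℂ)) := by
      rw [hc]
      have : Filter.Tendsto (fun τ => ∑ a ∈ Finset.range (m + 1),
          (c a : ℂ) * (Dl τ ^ a * E4 τ ^ (3 * (m - a)))) atImInfty
          (nhds (∑ a ∈ Finset.range (m + 1), if a = 0 then (c 0 : ℂ) else 0)) := by
        refine tendsto_finsetSum _ fun a _ => ?_
        have hE : Filter.Tendsto (fun τ => E4 τ ^ (3 * (m - a))) atImInfty (nhds 1) := by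
          simpa using tendsto_E4.pow (3 * (m - a))
        by_cases ha : a = 0
        · subst ha
          simpa using hE.const_mul (c 0 : ℂ)
        · rw [if_neg ha]
          have hD : Filter.Tendsto (fun τ => Dl τ ^ a) atImInfty (nhds 0) := by
            simpa [ha] using jlocal_tendsto_Dl.pow a
          simpa using (hD.mul hE).const_mul (c a : ℂ)
      rw [Finset.sum_ite_eq' ] at this
      simp only [Finset.mem_range, Nat.succ_pos, if_true] at this
      convert this using 1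
      ext τ
      simp [Finset.sum_apply]
    exact tendsto_nhds_unique t2 t1
  · intro τ
    have hD := Dl_ne_zero τ
    rw [hc, map_sum, Finset.mul_sum]
    simp only [Finset.sum_apply, Pi.smul_apply, Pi.mul_apply, Pi.pow_apply, smul_eq_mul]
    refine Finset.sum_congr rfl fun a ha => ?_
    have ha' : a ≤ m := Nat.lt_succ_iff.mp (Finset.mem_range.mp ha)
    rw [map_mul, Polynomial.aeval_C, map_pow, Polynomial.aeval_X]
    have e1 : Dl τ ^ m = Dl τ ^ a * Dl τ ^ (m - a) := by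
      rw [← pow_add]; congr 1; omega
    have e2 : jan τ ^ (m - a) * Dl τ ^ (m - a) = E4 τ ^ (3 * (m - a)) := by
      rw [← mul_pow, pow_mul]
      congr 1
      unfold jan
      field_simp
    rw [e1, ← e2]
    show (c a : ℂ) * _ = _ * ((c a : ℂ) * _)
    ring

/-! ### vanishing at the elliptic points -/

theorem L1.vanish_I {n : ℕ} (hn : Odd n) {F : ℍ → ℂ} (hF : IsMF ⊤ ((2 * n : ℕ) : ℤ) F) :
    F I = 0 := by
  by_contra h0
  have h := congrFun (hF.top_slash ModularGroup.S) I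
  rw [ModularForm.SL_slash_apply, S24Lib.S_smul_I] at h
  have h1 : (denom ModularGroup.S I) ^ (-((2 * n : ℕ) : ℤ)) = 1 := by
    have : F I * (denom ModularGroup.S I) ^ (-((2 * n : ℕ) : ℤ)) = F I * 1 := by rw [mul_one]; exact h
    exact mul_left_cancel₀ h0 this
  have h2 : (denom ModularGroup.S I ^ 2) ^ (-(n : ℤ)) = 1 := by
    rw [← h1, ← zpow_natCast, ← zpow_mul]
    congr 1
    push_cast
    ring
  have h3 := two_dvd_of_zpow_eq_one _ h2
  rw [Int.dvd_neg] at h3
  have h4 : 2 ∣ n := by exact_mod_cast h3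
  exact (Nat.not_even_iff_odd.mpr hn) (even_iff_two_dvd.mpr h4)

theorem L1.vanish_rho {n : ℕ} (hn : ¬ 3 ∣ n) {F : ℍ → ℂ} (hF : IsMF ⊤ ((2 * n : ℕ) : ℤ) F) :
    F rhoH = 0 := by
  by_contra h0
  have h := congrFun (hF.top_slash (ModularGroup.S * ModularGroup.T)) rhoH
  rw [ModularForm.SL_slash_apply, ST_smul_rhoH, jlocal_denom_ST_rhoH', ← jlocal_denom_ST_rhoH] at h
  have h1 : (denom (ModularGroup.S * ModularGroup.T) rhoH) ^ (-((2 * n : ℕ) : ℤ)) = 1 := by
    have : F rhoH * (denom (ModularGroup.S * ModularGroup.T) rhoH) ^ (-((2 * n : ℕ) : ℤ))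
        = F rhoH * 1 := by rw [mul_one]; exact h
    exact mul_left_cancel₀ h0 this
  have h2 : (denom (ModularGroup.S * ModularGroup.T) rhoH ^ 2) ^ (-(n : ℤ)) = 1 := by
    rw [← h1, ← zpow_natCast, ← zpow_mul]
    congr 1
    push_cast
    ring
  have h3 := three_dvd_of_zpow_eq_one _ h2
  rw [Int.dvd_neg] at h3
  exact hn (by exact_mod_cast h3)

/-! ### congruences of powers -/

theorem L1.pow_congr {O : Subring ℂ} {c : ℂ} {x y z : PowerSeries ℂ} (hx : IntS O x) (hy : IntS O y)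
    (hz : IntS O z) (h : x = y + c • z) (n : ℕ) :
    ∃ w : PowerSeries ℂ, IntS O w ∧ x ^ n = y ^ n + c • w := by
  refine ⟨z * ∑ i ∈ Finset.range n, x ^ i * y ^ (n - 1 - i), ?_, ?_⟩
  · refine (EsymmAux.serO O).mul_mem hz ((EsymmAux.serO O).sum_mem fun i _ => ?_)
    exact (EsymmAux.serO O).mul_mem ((EsymmAux.serO O).pow_mem hx _)
      ((EsymmAux.serO O).pow_mem hy _)
  · have h1 := Commute.mul_geom_sum₂ (Commute.all x y) n
    have h2 : x - y = c • z := by rw [h]; ring
    rw [h2] at h1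
    rw [← smul_mul_assoc, h1]
    ring

/-! ### the polynomial argument -/

theorem L1.poly_contra {K : Type} [CommRing K] [IsDomain K] (n t : ℕ) (hn : 0 < n)
    (hcop : Nat.Coprime n t) (P Q : Polynomial K) (c : K) (hc : c ≠ 0) (hP0 : P ≠ 0)
    (hdeg : P.natDegree ≤ n) (h : P ^ t = Polynomial.C c * Q ^ n) (a b : K) (hab : a ≠ b)
    (ha : P.IsRoot a) (hb : P.IsRoot b) : False := by
  classical
  have hr : t • P.roots = n • Q.roots := by
    rw [← Polynomial.roots_pow, ← Polynomial.roots_pow, h, Polynomial.roots_C_mul _ hc]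
  have key : ∀ x, P.IsRoot x → n ≤ P.roots.count x := by
    intro x hx
    have h1 := congrArg (Multiset.count x) hr
    rw [Multiset.count_nsmul, Multiset.count_nsmul] at h1
    have h2 : n ∣ t * P.roots.count x := ⟨_, h1⟩
    have h3 : n ∣ P.roots.count x := hcop.dvd_of_dvd_mul_left h2
    have h4 : 0 < P.roots.count x := Multiset.count_pos.mpr ((Polynomial.mem_roots hP0).mpr hx)
    exact Nat.le_of_dvd h4 h3
  have h1 : Multiset.replicate n a + Multiset.replicate n b ≤ P.roots := by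
    rw [Multiset.le_iff_count]
    intro x
    rw [Multiset.count_add, Multiset.count_replicate, Multiset.count_replicate]
    by_cases hxa : a = x
    · subst hxa
      rw [if_pos rfl, if_neg (Ne.symm hab)]
      exact key a ha
    · rw [if_neg hxa]
      by_cases hxb : b = x
      · subst hxb
        rw [if_pos rfl]
        simpa using key b hb
      · rw [if_neg hxb]
        simp
  have h2 := Multiset.card_le_card h1
  rw [Multiset.card_add, Multiset.card_replicate, Multiset.card_replicate] at h2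
  have h3 := Polynomial.card_roots' P
  omega

/-! ### the theorem -/

/-- no level one form of weight `2 r^s` is congruent to a unit constant mod `r` -/
theorem no_levelOne_unit (r : ℕ) [Fact r.Prime] (hr : 5 ≤ r) (s : ℕ) (hs : 1 ≤ s) {F : ℍ → ℂ}
    (hF : IsMF ⊤ ((2 * r ^ s : ℕ) : ℤ) F) {u : ℂ} (hu : u ∈ Zloc r) (hu' : u⁻¹ ∈ Zloc r)
    (hu0 : u ≠ 0) {g : PowerSeries ℂ} (hg : IntS (Zloc r) g)
    (hq : qExpansion 1 F = PowerSeries.C u + (r : ℂ) • g) : False := by
  have hrp : r.Prime := Fact.out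
  obtain ⟨A, ε, hA, hε, hqA⟩ := exists_hasse r hr
  set n : ℕ := r ^ s with hn
  set t : ℕ := r - 1 with ht
  have hn0 : 0 < n := pow_pos hrp.pos s
  have hr0 : (r : ℂ) ≠ 0 := by exact_mod_cast hrp.ne_zero
  -- integrality of the basic series
  have hCu : IntS (Zloc r) (PowerSeries.C u) := by
    intro k
    rw [PowerSeries.coeff_C]
    split_ifs
    exacts [hu, (Zloc r).zero_mem]
  have hone : IntS (Zloc r) (1 : PowerSeries ℂ) := (EsymmAux.serO (Zloc r)).one_mem
  have hrZ : (r : ℂ) ∈ Zloc r := natCast_mem _ r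
  have hφ : IntS (Zloc r) (qExpansion 1 F) := by
    rw [hq]; exact (EsymmAux.serO _).add_mem hCu (EsymmAux.smul_mem_serO hrZ hg)
  have hα : IntS (Zloc r) (qExpansion 1 A) := by
    rw [hqA]; exact (EsymmAux.serO _).add_mem hone (EsymmAux.smul_mem_serO hrZ hε)
  -- `F ^ 6`
  have hF6 : IsMF ⊤ (12 * (n : ℤ)) (F ^ 6) := by
    have := EsymmAux.isMF_pow hF 6
    have e : ((6 : ℕ) : ℤ) * ((2 * n : ℕ) : ℤ) = 12 * (n : ℤ) := by push_cast; ring
    rwa [e] at this
  have hqF6 : qExpansion 1 (F ^ 6) = qExpansion 1 F ^ 6 := EsymmAux.qExpansion_pow_of_isMF hF 6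
  obtain ⟨P6, hP6d, hP6c, hP6e⟩ := L1.exists_poly (Zloc r) n hF6
    (by rw [hqF6]; exact (EsymmAux.serO _).pow_mem hφ 6)
  -- `A ^ 12`
  have hA12 : IsMF ⊤ (12 * (t : ℤ)) (A ^ 12) := by
    have := EsymmAux.isMF_pow hA 12
    have e : ((12 : ℕ) : ℤ) * ((r - 1 : ℕ) : ℤ) = 12 * (t : ℤ) := by push_cast; ring
    rwa [e] at this
  have hqA12 : qExpansion 1 (A ^ 12) = qExpansion 1 A ^ 12 := EsymmAux.qExpansion_pow_of_isMF hA 12
  obtain ⟨PA, -, -, hPAe⟩ := L1.exists_poly (Zloc r) t hA12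
    (by rw [hqA12]; exact (EsymmAux.serO _).pow_mem hα 12)
  -- the difference quotient `Y`
  have hFN : IsMF ⊤ (12 * ((n * t : ℕ) : ℤ)) (F ^ (6 * t)) := by
    have := EsymmAux.isMF_pow hF (6 * t)
    have e : ((6 * t : ℕ) : ℤ) * ((2 * n : ℕ) : ℤ) = 12 * ((n * t : ℕ) : ℤ) := by push_cast; ring
    rwa [e] at this
  have hAN : IsMF ⊤ (12 * ((n * t : ℕ) : ℤ)) (A ^ (12 * n)) := by
    have := EsymmAux.isMF_pow hA (12 * n)
    have e : ((12 * n : ℕ) : ℤ) * ((r - 1 : ℕ) : ℤ) = 12 * ((n * t : ℕ) : ℤ) := by push_cast; ring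
    rwa [e] at this
  obtain ⟨W1, hW1, hW1e⟩ := L1.pow_congr hφ hCu hg hq (6 * t)
  obtain ⟨W2, hW2, hW2e⟩ := L1.pow_congr hα hone hε hqA (12 * n)
  set Y : ℍ → ℂ := (r : ℂ)⁻¹ • (F ^ (6 * t) + (-(u ^ (6 * t))) • A ^ (12 * n)) with hYdef
  have hY : IsMF ⊤ (12 * ((n * t : ℕ) : ℤ)) Y := (hFN.add (hAN.smul _)).smul _
  have hqY : qExpansion 1 Y = W1 - (u ^ (6 * t)) • W2 := by
    rw [hYdef, qExpansion_smul (EsymmAux.analytic_of_isMF (hFN.add (hAN.smul _))),
      qExpansion_add (EsymmAux.analytic_of_isMF hFN) (EsymmAux.analytic_of_isMF (hAN.smul _)),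
      qExpansion_smul (EsymmAux.analytic_of_isMF hAN), EsymmAux.qExpansion_pow_of_isMF hF,
      EsymmAux.qExpansion_pow_of_isMF hA, hW1e, hW2e]
    have hC : PowerSeries.C (r : ℂ)⁻¹ * PowerSeries.C (r : ℂ) = 1 := by
      rw [← map_mul, inv_mul_cancel₀ hr0, map_one]
    simp only [PowerSeries.smul_eq_C_mul, map_neg, map_pow, one_pow]
    linear_combination (W1 - PowerSeries.C u ^ (6 * t) * W2) * hC
  obtain ⟨PY, -, -, hPYe⟩ := L1.exists_poly (Zloc r) (n * t) hY (by
    rw [hqY]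
    exact (EsymmAux.serO _).sub_mem hW1 (EsymmAux.smul_mem_serO ((Zloc r).pow_mem hu _) hW2))
  -- the polynomial identity
  set uz : Zloc r := ⟨u, hu⟩ with huz
  have hpoly : P6 ^ t = Polynomial.C (uz ^ (6 * t)) * PA ^ n +
      Polynomial.C ((r : ℕ) : Zloc r) * PY := by
    apply Polynomial.map_injective (algebraMap (Zloc r) ℂ) Subtype.val_injective
    apply Polynomial.funext
    intro z
    obtain ⟨τ, rfl⟩ := jan_surjective z
    rw [Polynomial.eval_map_algebraMap, Polynomial.eval_map_algebraMap]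
    simp only [map_add, map_mul, map_pow, Polynomial.aeval_C]
    have hD := Dl_ne_zero τ
    have e1 : F τ ^ 6 = Dl τ ^ n * Polynomial.aeval (jan τ) P6 := hP6e τ
    have e2 : A τ ^ 12 = Dl τ ^ t * Polynomial.aeval (jan τ) PA := hPAe τ
    have e3 : Y τ = Dl τ ^ (n * t) * Polynomial.aeval (jan τ) PY := hPYe τ
    have e4 : (r : ℂ) * Y τ = (F τ ^ 6) ^ t - u ^ (6 * t) * (A τ ^ 12) ^ n := by
      simp only [hYdef, Pi.smul_apply, Pi.add_apply, Pi.pow_apply, smul_eq_mul, ← pow_mul]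
      field_simp
      ring
    have e5 : algebraMap (Zloc r) ℂ uz = u := rfl
    have e6 : algebraMap (Zloc r) ℂ ((r : ℕ) : Zloc r) = (r : ℂ) := by simp
    rw [e5, e6]
    apply mul_left_cancel₀ (pow_ne_zero (n * t) hD)
    rw [e1, e2, e3] at e4
    have e7 : Dl τ ^ (n * t) = (Dl τ ^ n) ^ t := pow_mul _ _ _
    have e8 : Dl τ ^ (n * t) = (Dl τ ^ t) ^ n := by rw [mul_comm, pow_mul]
    rw [mul_pow, mul_pow, ← e7, ← e8] at e4
    linear_combination -e4
  -- reduction mod `r`
  have hred := congrArg (Polynomial.map (L1.red r)) hpoly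
  simp only [Polynomial.map_add, Polynomial.map_mul, Polynomial.map_pow, Polynomial.map_C,
    L1.red_r, map_zero, zero_mul, add_zero] at hred
  have huz0 : L1.red r uz ≠ 0 := by
    intro h
    have h1 : L1.red r (uz * ⟨u⁻¹, hu'⟩) = 1 := by
      have : uz * ⟨u⁻¹, hu'⟩ = 1 := Subtype.ext (mul_inv_cancel₀ hu0)
      rw [this, map_one]
    rw [map_mul, h, zero_mul] at h1
    exact zero_ne_one h1
  have hc6 : P6.coeff n = (uz + ((r : ℕ) : Zloc r) * ⟨g.coeff 0, hg 0⟩) ^ 6 := by
    apply Subtype.ext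
    rw [hP6c, hqF6, hq]
    simp [PowerSeries.coeff_zero_eq_constantCoeff, huz]
  have hP0 : P6.map (L1.red r) ≠ 0 := by
    intro h
    have h1 := congrArg (fun P => Polynomial.coeff P n) h
    simp only [Polynomial.coeff_map, Polynomial.coeff_zero] at h1
    rw [hc6, map_pow, map_add, map_mul, L1.red_r, zero_mul, add_zero] at h1
    exact pow_ne_zero 6 huz0 h1
  -- the two roots
  have hodd : Odd n := (hrp.odd_of_ne_two (by omega)).pow
  have h3n : ¬ 3 ∣ n := by
    intro h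
    have h1 := Nat.prime_three.dvd_of_dvd_pow h
    have h2 := (Nat.prime_dvd_prime_iff_eq Nat.prime_three hrp).1 h1
    omega
  have hroot0 : P6.IsRoot 0 := by
    have e := hP6e rhoH
    rw [Pi.pow_apply, L1.vanish_rho h3n hF, jan_rhoH] at e
    have e1 : Polynomial.aeval (0 : ℂ) P6 = 0 := by
      rcases mul_eq_zero.mp (by simpa using e.symm :
        Dl rhoH ^ n * Polynomial.aeval (0 : ℂ) P6 = 0) with h | h
      · exact absurd h (pow_ne_zero _ (Dl_ne_zero _))
      · exact h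
    have e2 := Polynomial.aeval_algebraMap_apply_eq_algebraMap_eval (A := ℂ) (0 : Zloc r) P6
    rw [map_zero, e1] at e2
    exact Subtype.val_injective e2.symm
  have hroot1 : P6.IsRoot ((1728 : ℕ) : Zloc r) := by
    have e := hP6e I
    rw [Pi.pow_apply, L1.vanish_I hodd hF, jan_I] at e
    have e1 : Polynomial.aeval (1728 : ℂ) P6 = 0 := by
      rcases mul_eq_zero.mp (by simpa using e.symm :
        Dl I ^ n * Polynomial.aeval (1728 : ℂ) P6 = 0) with h | h
      · exact absurd h (pow_ne_zero _ (Dl_ne_zero _))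
      · exact h
    have e2 := Polynomial.aeval_algebraMap_apply_eq_algebraMap_eval (A := ℂ)
      ((1728 : ℕ) : Zloc r) P6
    rw [map_natCast, show ((1728 : ℕ) : ℂ) = 1728 by norm_num, e1] at e2
    exact Subtype.val_injective e2.symm
  have h1728 : ((1728 : ℕ) : L1.K r) ≠ 0 := by
    apply L1.red_natCast_ne_zero
    intro h
    have h1 : r ∣ 2 ^ 6 * 3 ^ 3 := by norm_num; exact h
    rcases (Nat.Prime.dvd_mul hrp).1 h1 with h2 | h2
    · have := Nat.le_of_dvd (by norm_num) (hrp.dvd_of_dvd_pow h2)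
      omega
    · have := Nat.le_of_dvd (by norm_num) (hrp.dvd_of_dvd_pow h2)
      omega
  have hcop : Nat.Coprime n t :=
    Nat.Coprime.pow_left s ((Nat.Prime.coprime_iff_not_dvd hrp).2
      (Nat.not_dvd_of_pos_of_lt (by omega) (by omega)))
  have hr0' := hroot0.map (f := L1.red r)
  have hr1' := hroot1.map (f := L1.red r)
  rw [map_zero] at hr0'
  rw [map_natCast] at hr1'
  exact L1.poly_contra n t hn0 hcop (P6.map (L1.red r)) (PA.map (L1.red r)) _
    (pow_ne_zero (6 * t) huz0) hP0 (Polynomial.natDegree_map_le.trans hP6d) hred 0 _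
    (Ne.symm h1728) hr0' hr1'

end

end Fermat.Agent.S16Lib
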