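import Fermat.Agent.S16.FDApi
import Fermat.Agent.S16.LevelOneMod

/-!
# S16, upper bound, leaf (C4): primes `r ≥ 5`, `r ≠ p`, `r ∣ p + 1`
-/

set_option autoImplicit false

open UpperHalfPlane ModularForm Matrix.SpecialLinearGroup CongruenceSubgroup
open scoped MatrixGroups Manifold
open Fermat.Agent.S20Lib Fermat.Agent.S28Lib

namespace Fermat.Agent.S16Lib

noncomputable section

theorem C4.pow_congr {O : Subring ℂ} (r : ℕ) {x y z : PowerSeries ℂ} (hx : IntS O x)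
    (hy : IntS O y) (hz : IntS O z) (h : x = y + (r : ℂ) • z) (s : ℕ) :
    ∃ w : PowerSeries ℂ, IntS O w ∧ x ^ (r ^ s) = y ^ (r ^ s) + ((r : ℂ) ^ (s + 1)) • w := by
  have h1 : ((r : ℕ) : EsymmAux.serO O) ∣
      (⟨x, hx⟩ : EsymmAux.serO O) - (⟨y, hy⟩ : EsymmAux.serO O) := by
    refine ⟨⟨z, hz⟩, ?_⟩
    apply Subtype.ext
    show x - y = ((r : ℕ) : PowerSeries ℂ) * z
    rw [h, PowerSeries.smul_eq_C_mul, map_natCast]
    ring
  obtain ⟨W, hW⟩ := dvd_sub_pow_of_dvd_sub h1 s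
  refine ⟨W, W.2, ?_⟩
  have h2 : x ^ (r ^ s) - y ^ (r ^ s) = ((r : ℕ) : PowerSeries ℂ) ^ (s + 1) * (W : PowerSeries ℂ) :=
    congrArg Subtype.val hW
  rw [PowerSeries.smul_eq_C_mul, map_pow, map_natCast]
  linear_combination h2

theorem C4.one_add_pow (x : ℤ) (M : ℕ) : ∃ k : ℤ, (1 + x) ^ M = 1 + M * x + x ^ 2 * k := by
  induction M with
  | zero => exact ⟨0, by simp⟩
  | succ M ih =>
    obtain ⟨k, hk⟩ := ih
    refine ⟨M + k + k * x, ?_⟩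
    rw [pow_succ, hk]
    push_cast
    ring

theorem C4.arith (p r s t : ℕ) (hr : r.Prime) (hr2 : r ≠ 2) (hs : 1 ≤ s) (ht : ¬ r ∣ t)
    (h : p + 1 = r ^ s * t) :
    ∃ m : ℤ, ¬ (r : ℤ) ∣ m ∧ (p : ℤ) ^ (r ^ s - 1) - 1 = (r : ℤ) ^ s * m := by
  have hodd : Odd (r ^ s) := (hr.odd_of_ne_two hr2).pow
  have hpos : 0 < r ^ s := pow_pos hr.pos s
  have heven : Even (r ^ s - 1) := by
    obtain ⟨e, he⟩ := hodd
    exact ⟨e, by omega⟩
  obtain ⟨k, hk⟩ := C4.one_add_pow (-((r : ℤ) ^ s * t)) (r ^ s - 1)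
  have hp : (p : ℤ) = -(1 + -((r : ℤ) ^ s * t)) := by
    have : ((p + 1 : ℕ) : ℤ) = ((r ^ s * t : ℕ) : ℤ) := by rw [h]
    push_cast at this
    linear_combination this
  have hcast : ((r ^ s - 1 : ℕ) : ℤ) = (r : ℤ) ^ s - 1 := by
    rw [Nat.cast_sub hpos]; push_cast; ring
  refine ⟨t + (r : ℤ) ^ s * (t ^ 2 * k - t), ?_, ?_⟩
  · intro hd
    have h1 : (r : ℤ) ∣ (r : ℤ) ^ s * (t ^ 2 * k - t) :=
      Dvd.dvd.mul_right (dvd_pow_self _ (by omega)) _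
    have h2 : (r : ℤ) ∣ (t : ℤ) := (Int.dvd_add_left h1).mp hd
    exact ht (by exact_mod_cast h2)
  · rw [hp, heven.neg_pow, hk, hcast]
    ring

theorem C4.Up_one_add (p : ℕ) (hp : p ≠ 0) (c : ℂ) (g : PowerSeries ℂ) :
    Up p (1 + c • g) = 1 + c • Up p g := by
  ext n
  simp only [coeff_Up, map_add, PowerSeries.coeff_one, PowerSeries.coeff_smul, mul_eq_zero, hp,
    false_or]

theorem C4.IntS_Up {O : Subring ℂ} (p : ℕ) {g : PowerSeries ℂ} (hg : IntS O g) :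
    IntS O (Up p g) := by
  intro n
  rw [coeff_Up]
  exact hg _

variable (p : ℕ) [Fact p.Prime]

theorem nc_large (r : ℕ) [Fact r.Prime] (hr : 5 ≤ r) (hrp : r ≠ p) (h : r ∣ p + 1) :
    ¬ NCHyp p r r := by
  rintro ⟨φ, φs, g, hFD, hg, -, hφ⟩
  have hrP : r.Prime := Fact.out
  have hpP : p.Prime := Fact.out
  obtain ⟨s, t, ht, hst⟩ := Nat.exists_eq_pow_mul_and_not_dvd (n := p + 1) (by omega) r hrP.ne_one
  have hs : 1 ≤ s := by
    rcases Nat.eq_zero_or_pos s with h0 | h0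
    · subst h0
      simp only [pow_zero, one_mul] at hst
      rw [hst] at h
      exact absurd h ht
    · exact h0
  obtain ⟨m, hm, hmN⟩ := C4.arith p r s t hrP (by omega) hs ht hst
  have hNpos : 0 < r ^ s := pow_pos hrP.pos s
  have hNodd : Odd (r ^ s) := (hrP.odd_of_ne_two (by omega)).pow
  have hr0 : (r : ℂ) ≠ 0 := by exact_mod_cast hrP.ne_zero
  have hp0 : (p : ℂ) ≠ 0 := by exact_mod_cast hpP.ne_zero
  have hrp' : ¬ (r : ℤ) ∣ (p : ℤ) := by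
    intro hd
    have h1 : r ∣ p := by exact_mod_cast hd
    exact hrp ((Nat.prime_dvd_prime_iff_eq hrP hpP).1 h1)
  have hrpN : ¬ (r : ℤ) ∣ (p : ℤ) ^ (r ^ s - 1) := fun hd =>
    hrp' ((Nat.prime_iff_prime_int.mp hrP).dvd_of_dvd_pow hd)
  -- integrality
  have hone : IntS (Zloc r) (1 : PowerSeries ℂ) := (EsymmAux.serO (Zloc r)).one_mem
  have hrZ : (r : ℂ) ∈ Zloc r := natCast_mem _ r
  have hφI : IntS (Zloc r) φ := by
    rw [hφ]; exact (EsymmAux.serO _).add_mem hone (EsymmAux.smul_mem_serO hrZ hg)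
  have hψ : Up p φ = 1 + (r : ℂ) • Up p g := by rw [hφ]; exact C4.Up_one_add p hpP.ne_zero _ _
  obtain ⟨w1, hw1, hw1e⟩ := C4.pow_congr r hφI hone hg hφ s
  obtain ⟨w2, hw2, hw2e⟩ := C4.pow_congr r (C4.IntS_Up p hφI) hone (C4.IntS_Up p hg) hψ s
  rw [one_pow] at hw1e hw2e
  have hφs := FD.two hFD
  obtain ⟨T, hT, hTc⟩ := FD.trace (FD.pow hFD (r ^ s))
  set c : ℂ := ((p : ℂ) ^ (r ^ s - 1))⁻¹ with hc
  have hcZ : c ∈ Zloc r := ⟨1, (p : ℤ) ^ (r ^ s - 1), hrpN, by rw [hc]; push_cast; simp⟩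
  have hpN0 : (p : ℂ) ^ (r ^ s - 1) ≠ 0 := pow_ne_zero _ hp0
  have hm0 : (m : ℂ) ≠ 0 := by
    intro h0
    have : m = 0 := by exact_mod_cast h0
    exact hm (by simp [this])
  have hmN' : (p : ℂ) ^ (r ^ s - 1) - 1 = (r : ℂ) ^ s * m := by exact_mod_cast hmN
  have hu1 : 1 - c = (r : ℂ) ^ s * ((m : ℂ) * c) := by
    rw [hc]
    field_simp
    linear_combination hmN'
  -- coefficient of the dual side
  have hdual : ∀ n, (p : ℂ) * (φs ^ (r ^ s)).coeff (p * n) = -c * ((Up p φ) ^ (r ^ s)).coeff (p * n) := by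
    intro n
    rw [hφs, smul_pow, PowerSeries.coeff_smul, hNodd.neg_pow, hc, smul_eq_mul]
    have e : (p : ℂ)⁻¹ ^ (r ^ s) = (p : ℂ)⁻¹ * ((p : ℂ) ^ (r ^ s - 1))⁻¹ := by
      rw [← inv_pow, ← pow_succ']
      congr 1
      omega
    rw [e]
    field_simp
  have hF : IsMF ⊤ ((2 * r ^ s : ℕ) : ℤ) (((r : ℂ) ^ s)⁻¹ • T) := by
    have e : ((r ^ s : ℕ) : ℤ) * 2 = ((2 * r ^ s : ℕ) : ℤ) := by push_cast; ring
    rw [e] at hT
    exact hT.smul _
  have hTan : AnalyticAt ℂ (cuspFunction 1 T) 0 := EsymmAux.analytic_of_isMF hT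
  refine no_levelOne_unit r hr s hs hF (u := (m : ℂ) * c) (g := w1 - c • Up p w2)
    ((Zloc r).mul_mem (intCast_mem _ m) hcZ) ?_ (mul_ne_zero hm0 (inv_ne_zero hpN0)) ?_ ?_
  · refine ⟨(p : ℤ) ^ (r ^ s - 1), m, hm, ?_⟩
    rw [hc]
    push_cast
    field_simp
  · exact (EsymmAux.serO _).sub_mem hw1 (EsymmAux.smul_mem_serO hcZ (C4.IntS_Up p hw2))
  · rw [qExpansion_smul hTan]
    ext n
    rw [PowerSeries.coeff_smul, hTc, hdual, hw1e, hw2e]
    simp only [map_add, map_sub, PowerSeries.coeff_smul, PowerSeries.coeff_one, PowerSeries.coeff_C,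
      coeff_Up, mul_eq_zero, hpP.ne_zero, false_or, smul_eq_mul]
    have hrs : (r : ℂ) ^ s ≠ 0 := pow_ne_zero _ hr0
    rw [inv_mul_eq_iff_eq_mul₀ hrs, pow_succ]
    by_cases hn : n = 0
    · simp only [hn, if_true]
      linear_combination hu1
    · simp only [hn, if_false]
      ring

end

end Fermat.Agent.S16Lib
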