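import Fermat.Agent.S16.FDApi
import Fermat.Agent.S16.LevelOneMod

/-!
# S16, upper bound, leaf (C5): the case `r = p`
-/

set_option autoImplicit false

open UpperHalfPlane ModularForm Matrix.SpecialLinearGroup CongruenceSubgroup
open scoped MatrixGroups Manifold
open Fermat.Agent.S20Lib Fermat.Agent.S28Lib Fermat.Agent.S28Lib.EsymmAux

namespace Fermat.Agent.S16Lib

noncomputable section

variable (p : ℕ) [Fact p.Prime]

theorem C5.expand_mem {O : Subring ℂ} {s : PowerSeries ℂ} (hs : s ∈ serO O) {d : ℕ} (hd : d ≠ 0) :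
    PowerSeries.expand d hd s ∈ serO O := by
  intro n
  rw [PowerSeries.coeff_expand]
  split_ifs
  exacts [hs _, O.zero_mem]

theorem C5.Up_mem {O : Subring ℂ} {s : PowerSeries ℂ} (hs : s ∈ serO O) (d : ℕ) :
    Up d s ∈ serO O := by
  intro n
  rw [coeff_Up]
  exact hs _

theorem nc_self (hp : 5 ≤ p) : ¬ NCHyp p p p := by
  rintro ⟨φ, φs, g, hFD, hg, -, hφ⟩
  have hp0 : p ≠ 0 := (Fact.out : p.Prime).ne_zero
  have hpC : (p : ℂ) ≠ 0 := by exact_mod_cast hp0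
  set O := Zloc p with hO
  have hpO : (p : ℂ) ∈ O := natCast_mem O p
  obtain ⟨A, ε, hA, hε, hAq⟩ := exists_hasse p hp
  set a := qExpansion 1 A with ha
  set k : ℤ := ((p - 1 : ℕ) : ℤ) with hk
  have hkeven : Even k := by
    have hodd : Odd p := (Fact.out : p.Prime).odd_of_ne_two (by omega)
    obtain ⟨m, hm⟩ := hodd
    refine ⟨m, ?_⟩
    rw [hk, hm]
    push_cast [Nat.add_sub_cancel]
    ring
  set V : PowerSeries ℂ →ₐ[ℂ] PowerSeries ℂ := PowerSeries.expand p hp0 with hV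
  -- the form `B`
  have h1 : FD p k a (V a) := FD.levelOne hA
  have h2 : FD p k (V a) (((p : ℂ) ^ (-k)) • a) := h1.swap hkeven
  have h3 : FD p k (a + (-(p : ℂ) ^ k) • V a) (V a + (-(p : ℂ) ^ k) • (((p : ℂ) ^ (-k)) • a)) :=
    h1.add (h2.smul _)
  have e3 : V a + (-(p : ℂ) ^ k) • (((p : ℂ) ^ (-k)) • a) = (p : ℂ) • (V ε - ε) := by
    rw [smul_smul, neg_mul, ← zpow_add₀ hpC, add_neg_cancel, zpow_zero, hAq, map_add, map_one,
      map_smul, smul_sub, _root_.neg_smul, one_smul]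
    ring
  rw [e3] at h3
  -- integrality
  have hεO : ε ∈ serO O := hε
  have hgO : g ∈ serO O := hg
  have haO : a ∈ serO O := by
    rw [hAq]
    exact (serO O).add_mem (serO O).one_mem (smul_mem_serO hpO hεO)
  have hk1 : (p : ℂ) ^ k = (p : ℂ) * (p : ℂ) ^ (p - 2) := by
    rw [hk, zpow_natCast, ← pow_succ']
    congr 1
    omega
  set b := a + (-(p : ℂ) ^ k) • V a with hb
  obtain ⟨β, hβO, hbβ⟩ : ∃ β ∈ serO O, b = 1 + (p : ℂ) • β := by
    refine ⟨ε - ((p : ℂ) ^ (p - 2)) • V a, (serO O).sub_mem hεO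
      (smul_mem_serO (O.pow_mem hpO _) (C5.expand_mem haO hp0)), ?_⟩
    rw [hb, hk1, smul_sub, smul_smul, _root_.neg_smul]
    nth_rewrite 1 [hAq]
    ring
  -- the product
  have h4 : FD p (2 + ((2 : ℕ) : ℤ) * k) (φ * b ^ 2) (φs * ((p : ℂ) • (V ε - ε)) ^ 2) :=
    hFD.mul (h3.pow 2)
  obtain ⟨T, hT, hTc⟩ := h4.trace
  have hw : (2 : ℤ) + ((2 : ℕ) : ℤ) * k = ((2 * p ^ 1 : ℕ) : ℤ) := by
    rw [hk, Nat.cast_sub (by omega)]
    push_cast
    ring
  rw [hw] at hT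
  set Y := Up p φ * (V ε - ε) ^ 2 with hY
  have hφO : φ ∈ serO O := by
    rw [hφ]
    exact (serO O).add_mem (serO O).one_mem (smul_mem_serO hpO hgO)
  have hYO : Y ∈ serO O :=
    (serO O).mul_mem (C5.Up_mem hφO p)
      ((serO O).pow_mem ((serO O).sub_mem (C5.expand_mem hεO hp0) hεO) 2)
  have e4 : φs * ((p : ℂ) • (V ε - ε)) ^ 2 = (-(p : ℂ)) • Y := by
    rw [hFD.two, hY, smul_pow, smul_mul_smul_comm]
    congr 1
    field_simp
  obtain ⟨γ, hγO, hγ⟩ : ∃ γ ∈ serO O, φ * b ^ 2 = 1 + (p : ℂ) • γ := by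
    refine ⟨g + 2 • β + (p : ℂ) • (β ^ 2 + 2 • (g * β) + (p : ℂ) • (g * β ^ 2)), ?_, ?_⟩
    · refine (serO O).add_mem ((serO O).add_mem hgO ((serO O).nsmul_mem hβO 2))
        (smul_mem_serO hpO ((serO O).add_mem ((serO O).add_mem ((serO O).pow_mem hβO 2)
          ((serO O).nsmul_mem ((serO O).mul_mem hgO hβO) 2))
          (smul_mem_serO hpO ((serO O).mul_mem hgO ((serO O).pow_mem hβO 2)))))
    · rw [hφ, hbβ]
      simp only [Algebra.smul_def]
      ring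
  refine no_levelOne_unit p hp 1 le_rfl hT (u := 1) O.one_mem (by simp)
    one_ne_zero (g := γ - (p : ℂ) • Up p Y)
    ((serO O).sub_mem hγO (smul_mem_serO hpO (C5.Up_mem hYO p))) ?_
  ext n
  rw [hTc n, e4, hγ]
  simp only [map_add, map_sub, PowerSeries.coeff_smul, coeff_Up, smul_eq_mul, map_one]
  ring

end

end Fermat.Agent.S16Lib
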