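import Fermat.Agent.S16.FDApi
import Fermat.Agent.S16.LevelOneFacts

/-!
# S16, upper bound, leaf (C3): no form `≡ 1 mod 9` when `9 ∣ p + 1`
-/

set_option autoImplicit false

open UpperHalfPlane ModularForm Matrix.SpecialLinearGroup CongruenceSubgroup
open scoped MatrixGroups Manifold
open Fermat.Agent.S20Lib Fermat.Agent.S28Lib

namespace Fermat.Agent.S16Lib

noncomputable section

namespace C3

open PowerSeries EsymmAux

/-! ### generalities on `Zloc` and integral power series -/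

lemma inv_mem_Zloc {r : ℕ} [Fact r.Prime] {a : ℕ} (h : ¬ r ∣ a) : ((a : ℂ))⁻¹ ∈ Zloc r :=
  ⟨1, a, by exact_mod_cast h, by simp⟩

lemma dvd_of_eq_mul {r : ℕ} [Fact r.Prime] {a : ℤ} {x : ℂ} (hx : x ∈ Zloc r)
    (h : (a : ℂ) = r * x) : (r : ℤ) ∣ a := by
  obtain ⟨c, b, hb, rfl⟩ := hx
  have hb0 : (b : ℂ) ≠ 0 := by
    intro h0; apply hb; have : b = 0 := by exact_mod_cast h0
    simp [this]
  have h1 : (a : ℂ) * b = r * c := by rw [h]; field_simp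
  have h2 : a * b = r * c := by exact_mod_cast h1
  have h3 : (r : ℤ) ∣ a * b := ⟨c, h2⟩
  exact ((Nat.prime_iff_prime_int.mp (Fact.out : r.Prime)).dvd_or_dvd h3).resolve_right hb

lemma C_mem_serO {O : Subring ℂ} {c : ℂ} (hc : c ∈ O) : (C c : PowerSeries ℂ) ∈ serO O := by
  intro n
  rw [coeff_C]
  split_ifs
  · exact hc
  · exact O.zero_mem

lemma Up_mem_serO {O : Subring ℂ} (p : ℕ) {g : PowerSeries ℂ} (hg : g ∈ serO O) :
    Up p g ∈ serO O := fun n => by rw [coeff_Up]; exact hg _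

lemma Up_add (p : ℕ) (a b : PowerSeries ℂ) : Up p (a + b) = Up p a + Up p b := by
  ext n; simp

lemma Up_C_mul (p : ℕ) (c : ℂ) (a : PowerSeries ℂ) : Up p (C c * a) = C c * Up p a := by
  ext n; simp

lemma Up_one {p : ℕ} (hp : p ≠ 0) : Up p 1 = 1 := by
  ext n
  rw [coeff_Up, coeff_one, coeff_one]
  simp [hp]

lemma sigS_mem_serO (O : Subring ℂ) (j : ℕ) : sigS j ∈ serO O := by
  intro n
  rw [sigS, coeff_mk]
  split_ifs
  · exact O.zero_mem
  · exact natCast_mem O _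

lemma expand_mem_serO {O : Subring ℂ} {p : ℕ} (hp : p ≠ 0) {g : PowerSeries ℂ} (hg : g ∈ serO O) :
    expand p hp g ∈ serO O := by
  intro n
  by_cases h : p ∣ n
  · obtain ⟨m, rfl⟩ := h
    rw [coeff_expand_mul]; exact hg m
  · rw [coeff_expand_of_not_dvd p hp g h]; exact O.zero_mem

/-- `a ≡ b mod 3` implies `a ^ 3 ^ w ≡ b ^ 3 ^ w mod 3 ^ (w + 1)`. -/
lemma cong_pow {O : Subring ℂ} {a b c : PowerSeries ℂ} (ha : a ∈ serO O) (hb : b ∈ serO O)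
    (hc : c ∈ serO O) (h : a - b = 3 * c) (w : ℕ) :
    ∃ d ∈ serO O, a ^ 3 ^ w - b ^ 3 ^ w = 3 ^ (w + 1) * d := by
  have e3 : (((3 : ℕ) : serO O) : PowerSeries ℂ) = 3 := by
    rw [SubringClass.coe_natCast, Nat.cast_ofNat]
  have h1 : ((3 : ℕ) : serO O) ∣ (⟨a, ha⟩ : serO O) - ⟨b, hb⟩ :=
    ⟨⟨c, hc⟩, Subtype.ext (by
      rw [Subring.coe_mul, e3]
      exact h)⟩
  obtain ⟨d, hd⟩ := dvd_sub_pow_of_dvd_sub h1 w
  refine ⟨d, d.2, ?_⟩
  have := congrArg Subtype.val hd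
  rw [Subring.coe_mul, SubmonoidClass.coe_pow, e3] at this
  exact this

/-- `σ₅`-series divided by `q` -/
def s5' : PowerSeries ℂ := mk fun n => ((ArithmeticFunction.sigma 5 (n + 1) : ℕ) : ℂ)

lemma sigS_five : sigS 5 = X * s5' := by
  ext n
  cases n with
  | zero => simp [sigS]
  | succ n => rw [coeff_succ_X_mul]; simp [sigS, s5']

lemma s5'_zero : constantCoeff s5' = 1 := by
  rw [← coeff_zero_eq_constantCoeff_apply]
  simp [s5']

lemma e6_mem_serO (O : Subring ℂ) : e6 ∈ serO O := by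
  rw [e6_eq]
  exact (serO O).sub_mem (serO O).one_mem (smul_mem_serO (by exact_mod_cast natCast_mem O 504)
    (sigS_mem_serO O 5))

lemma e6_zero : constantCoeff e6 = 1 := by
  rw [e6_eq, sigS_five]
  simp

lemma ofNat_mem_serO (O : Subring ℂ) (n : ℕ) : ((n : ℕ) : PowerSeries ℂ) ∈ serO O :=
  natCast_mem _ n

/-- the pure power series part of the argument -/
lemma series_part {p : ℕ} (hp0 : p ≠ 0) (h3p : ¬ 3 ∣ p) (h27 : 27 ∣ p ^ 3 + 1)
    {φ φs g : PowerSeries ℂ} (hg : g ∈ serO (Zloc 3)) (hφ : φ = 1 + ((9 : ℕ) : ℂ) • g)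
    (hφs : φs = (-(p : ℂ)⁻¹) • Up p φ) :
    ∃ c c' : PowerSeries ℂ, c ∈ serO (Zloc 3) ∧ c' ∈ serO (Zloc 3) ∧
      (9 : ℂ)⁻¹ • (φ ^ 3 + (-1 : ℂ) • e6) = 56 * sigS 5 + 3 * c ∧
      (9 : ℂ)⁻¹ • (φs ^ 3 + (-1 : ℂ) • expand p hp0 e6) = 56 * expand p hp0 (sigS 5) + 3 * c' := by
  have hpC : (p : ℂ) ≠ 0 := by exact_mod_cast hp0
  set S := serO (Zloc 3) with hS
  set h := Up p g with hh
  have hhS : h ∈ S := Up_mem_serO p hg
  set P : PowerSeries ℂ := C ((p : ℂ)⁻¹) with hP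
  set I9 : PowerSeries ℂ := C ((9 : ℂ)⁻¹) with hI9
  obtain ⟨t, ht⟩ := h27
  set κ : ℂ := -(t : ℂ) * ((p : ℂ)⁻¹) ^ 3 with hκ
  have hpinv : ((p : ℂ))⁻¹ ∈ Zloc 3 := inv_mem_Zloc h3p
  have hκO : κ ∈ Zloc 3 :=
    (Zloc 3).mul_mem ((Zloc 3).neg_mem (natCast_mem _ t)) ((Zloc 3).pow_mem hpinv 3)
  have hPS : P ∈ S := C_mem_serO hpinv
  have e9 : I9 * 9 = 1 := by
    rw [hI9, ← map_ofNat (C (R := ℂ)) 9, ← map_mul]
    norm_num
  have htC : ((p : ℂ)) ^ 3 + 1 = 27 * t := by exact_mod_cast ht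
  have eK : I9 * (-P ^ 3 - 1) = 3 * C κ := by
    rw [hI9, hP, ← map_ofNat (C (R := ℂ)) 3, ← map_pow, ← map_neg, ← map_one (C (R := ℂ)),
      ← map_sub, ← map_mul, ← map_mul]
    congr 1
    rw [hκ]
    field_simp
    linear_combination (-1 : ℂ) * htC
  have hφ' : φ = 1 + 9 * g := by
    rw [hφ, smul_eq_C_mul, Nat.cast_ofNat, map_ofNat]
  have hψ : Up p φ = 1 + 9 * h := by
    rw [hφ', Up_add, Up_one hp0, ← map_ofNat (C (R := ℂ)) 9, Up_C_mul]
  have hφs' : φs = -P * (1 + 9 * h) := by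
    rw [hφs, smul_eq_C_mul, hψ, map_neg]
  have he6 : e6 = 1 - 504 * sigS 5 := by
    rw [e6_eq, smul_eq_C_mul, map_ofNat]
  have hn : ∀ n : ℕ, ((n : ℕ) : PowerSeries ℂ) ∈ S := fun n => natCast_mem _ n
  have h9S : (9 : PowerSeries ℂ) ∈ S := by exact_mod_cast hn 9
  have h27S : (27 : PowerSeries ℂ) ∈ S := by exact_mod_cast hn 27
  refine ⟨g + 9 * g ^ 2 + 27 * g ^ 3, C κ - P ^ 3 * (h + 9 * h ^ 2 + 27 * h ^ 3), ?_, ?_, ?_, ?_⟩
  · exact S.add_mem (S.add_mem hg (S.mul_mem h9S (S.pow_mem hg 2)))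
      (S.mul_mem h27S (S.pow_mem hg 3))
  · exact S.sub_mem (C_mem_serO hκO) (S.mul_mem (S.pow_mem hPS 3)
      (S.add_mem (S.add_mem hhS (S.mul_mem h9S (S.pow_mem hhS 2)))
      (S.mul_mem h27S (S.pow_mem hhS 3))))
  · rw [smul_eq_C_mul, smul_eq_C_mul, map_neg, map_one, ← hI9, hφ', he6]
    linear_combination (3 * g + 27 * g ^ 2 + 81 * g ^ 3 + 56 * sigS 5) * e9
  · rw [smul_eq_C_mul, smul_eq_C_mul, map_neg, map_one, ← hI9, hφs', he6, map_sub, map_one,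
      map_mul, map_ofNat]
    linear_combination eK + (-P ^ 3 * (3 * h + 27 * h ^ 2 + 81 * h ^ 3)
      + 56 * expand p hp0 (sigS 5)) * e9

end C3

open PowerSeries EsymmAux in
theorem nc_three (p : ℕ) [Fact p.Prime] (hp : 9 ∣ p + 1) : ¬ NCHyp p 3 9 := by
  rintro ⟨φ, φs, g, hFD, hg, -, hφ⟩
  have hpp : p.Prime := Fact.out
  have hp0 : p ≠ 0 := hpp.ne_zero
  have h3p : ¬ 3 ∣ p := by omega
  have h27 : 27 ∣ p ^ 3 + 1 := by
    obtain ⟨t, ht⟩ := hp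
    have h1 : (p : ℤ) = 9 * t - 1 := by omega
    have h2 : (27 : ℤ) ∣ (p : ℤ) ^ 3 + 1 := ⟨27 * t ^ 3 - 9 * t ^ 2 + t, by rw [h1]; ring⟩
    exact_mod_cast h2
  obtain ⟨c, c', hc, hc', hX, hXs⟩ := C3.series_part hp0 h3p h27 hg hφ hFD.two
  have f1 : FD p 6 (φ ^ 3) (φs ^ 3) := by
    have := hFD.pow 3
    norm_num at this
    exact this
  have f2 : FD p 6 e6 (expand p hp0 e6) := FD.levelOne isMF_E6
  have f3 := (f1.add (f2.smul (-1))).smul (9 : ℂ)⁻¹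
  rw [hX, hXs] at f3
  -- the valuation of `p + 1`
  obtain ⟨w, u, hu, hwu⟩ := Nat.exists_eq_pow_mul_and_not_dvd (n := p + 1) (by omega) 3 (by norm_num)
  have hw : w ≠ 0 := by
    rintro rfl
    apply hu
    rw [pow_zero, one_mul] at hwu
    omega
  set N := 3 ^ w with hN
  have hN1 : 1 < N := Nat.one_lt_pow hw (by norm_num)
  have hNodd : Odd N := Odd.pow (by decide)
  obtain ⟨m, hm⟩ := hNodd
  obtain ⟨T, hT, hTc⟩ := (f3.pow N).trace
  set S := serO (Zloc 3) with hS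
  have hn : ∀ n : ℕ, ((n : ℕ) : PowerSeries ℂ) ∈ S := fun n => natCast_mem _ n
  have h3S : (3 : PowerSeries ℂ) ∈ S := by exact_mod_cast hn 3
  have h56S : (56 : PowerSeries ℂ) ∈ S := by exact_mod_cast hn 56
  set B : PowerSeries ℂ := 56 * sigS 5 with hB
  have hBS : B ∈ S := S.mul_mem h56S (C3.sigS_mem_serO _ 5)
  have hVB : 56 * expand p hp0 (sigS 5) = expand p hp0 B := by
    rw [hB, map_mul, map_ofNat]
  rw [hVB] at hTc
  have hVBS : expand p hp0 B ∈ S := C3.expand_mem_serO hp0 hBS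
  obtain ⟨d, hd, hdE⟩ := C3.cong_pow (a := B + 3 * c) (b := B) (c := c)
    (S.add_mem hBS (S.mul_mem h3S hc)) hBS hc (by ring) w
  obtain ⟨d', hd', hdE'⟩ := C3.cong_pow (a := expand p hp0 B + 3 * c') (b := expand p hp0 B) (c := c')
    (S.add_mem hVBS (S.mul_mem h3S hc')) hVBS hc' (by ring) w
  rw [← hN] at hdE hdE'
  have e3 : (3 : PowerSeries ℂ) ^ (w + 1) = C ((3 : ℂ) ^ (w + 1)) := by
    rw [map_pow, map_ofNat]
  -- the `q`-expansion of the trace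
  set Es : PowerSeries ℂ := d + C (p : ℂ) * Up p d' with hEs
  have hEsS : Es ∈ S :=
    S.add_mem hd (S.mul_mem (C3.C_mem_serO (natCast_mem _ p)) (C3.Up_mem_serO p hd'))
  have hqT : qExpansion 1 T = C ((p : ℂ) + 1) * B ^ N + C ((3 : ℂ) ^ (w + 1)) * Es := by
    ext n
    rw [hTc n, eq_add_of_sub_eq hdE, eq_add_of_sub_eq hdE', e3, ← map_pow]
    simp only [map_add, map_one, add_mul, one_mul, coeff_C_mul, coeff_expand_mul, hEs, coeff_Up]
    ring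
  have hpu : (p : ℂ) + 1 = 3 ^ w * u := by exact_mod_cast hwu
  have h3w : ((3 : ℂ) ^ w) ≠ 0 := pow_ne_zero _ (by norm_num)
  -- the level one form `H`
  set H : ℍ → ℂ := (((3 : ℂ) ^ w)⁻¹ • T) * E6 with hH
  have hHMF : IsMF ⊤ (12 * ((m + 1 : ℕ) : ℤ)) H :=
    (hT.smul _).mul' isMF_E6 (by rw [hm]; push_cast; ring)
  have hqH : qExpansion 1 H = X ^ N * (C (u : ℂ) * (56 * C3.s5') ^ N * e6) + C 3 * (Es * e6) := by
    rw [hH, qExpansion_mul (analytic_of_isMF (hT.smul _)) (analytic_of_isMF isMF_E6),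
      qExpansion_smul (analytic_of_isMF hT), hqT, smul_eq_C_mul, hpu, hB, C3.sigS_five]
    have e1 : C (((3 : ℂ) ^ w)⁻¹) * C ((3 : ℂ) ^ w * u) = C (u : ℂ) := by
      rw [← map_mul]; congr 1; field_simp
    have e2 : C (((3 : ℂ) ^ w)⁻¹) * C ((3 : ℂ) ^ (w + 1)) = C (3 : ℂ) := by
      rw [← map_mul]; congr 1; rw [pow_succ]; field_simp
    show _ * e6 = _
    linear_combination ((56 * (X * C3.s5')) ^ N * e6) * e1 + (Es * e6) * e2
  have he6S : e6 ∈ S := C3.e6_mem_serO _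
  have hEe : Es * e6 ∈ S := S.mul_mem hEsS he6S
  have hcoeff : ∀ n, (qExpansion 1 H).coeff n =
      (if N ≤ n then (C (u : ℂ) * (56 * C3.s5') ^ N * e6).coeff (n - N) else 0)
        + 3 * (Es * e6).coeff n := by
    intro n
    rw [hqH, map_add, coeff_X_pow_mul', coeff_C_mul]
  have hs5S : C3.s5' ∈ S := fun n => by
    rw [C3.s5', coeff_mk]; exact natCast_mem _ _
  have hYS : C (u : ℂ) * (56 * C3.s5') ^ N * e6 ∈ S :=
    S.mul_mem (S.mul_mem (C3.C_mem_serO (natCast_mem _ u)) (S.pow_mem (S.mul_mem h56S hs5S) N)) he6S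
  have h3O : (3 : ℂ) ∈ Zloc 3 := by exact_mod_cast natCast_mem (Zloc 3) 3
  have key := sturm_int (Zloc 3) h3O (m + 1) hHMF
    (fun n => by
      rw [hcoeff n]
      refine (Zloc 3).add_mem ?_ ((Zloc 3).mul_mem h3O (hEe n))
      split_ifs
      · exact hYS _
      · exact (Zloc 3).zero_mem)
    (fun n hn' => ⟨_, hEe n, by rw [hcoeff n, if_neg (by omega), zero_add]⟩)
  obtain ⟨x, hx, hxE⟩ := key N
  rw [hcoeff N, if_pos le_rfl, Nat.sub_self, coeff_zero_eq_constantCoeff_apply, map_mul, map_mul,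
    map_pow, map_mul, C3.s5'_zero, C3.e6_zero, constantCoeff_C, map_ofNat] at hxE
  have hfin : (((u * 56 ^ N : ℕ) : ℤ) : ℂ) = ((3 : ℕ) : ℂ) * (x - (Es * e6).coeff N) := by
    push_cast
    linear_combination hxE
  have h3 := C3.dvd_of_eq_mul ((Zloc 3).sub_mem hx (hEe N)) hfin
  have h3' : 3 ∣ u * 56 ^ N := by exact_mod_cast h3
  rcases (Nat.Prime.dvd_mul Nat.prime_three).mp h3' with h | h
  · exact hu h
  · have := Nat.Prime.dvd_of_dvd_pow Nat.prime_three h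
    omega

end

end Fermat.Agent.S16Lib
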