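import Fermat.Agent.S16.Sharp
import Fermat.Prelude.Thm_CongruenceSubgroup_one_mem_strictPeriods_Gamma0

/-!
# S16, upper bound, leaf (INT): values of integral forms at points with integral `j`-invariant
-/

set_option autoImplicit false

open UpperHalfPlane ModularForm Matrix.SpecialLinearGroup CongruenceSubgroup
open scoped MatrixGroups Manifold
open Fermat.Agent.S20Lib Fermat.Agent.S28Lib

namespace Fermat.Agent.S16Lib

noncomputable section

theorem Zloc_le_Oint (r : ℕ) [Fact r.Prime] : Zloc r ≤ Oint r := by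
  rintro x ⟨a, b, hb, rfl⟩
  have hb0 : (b : ℂ) ≠ 0 := by
    intro h; apply hb; have : b = 0 := by exact_mod_cast h
    simp [this]
  refine ⟨b.natAbs, fun h => hb (Int.natCast_dvd.mpr h), ?_⟩
  rcases Int.natAbs_eq b with h | h
  · have e : ((b.natAbs : ℕ) : ℂ) * ((a : ℂ) / b) = (a : ℂ) := by
      have : ((b.natAbs : ℕ) : ℂ) = (b : ℂ) := by
        have := congrArg (Int.cast : ℤ → ℂ) h
        rw [this]; simp
      rw [this]; field_simp
    rw [e]; exact isIntegral_intCast _
  · have e : ((b.natAbs : ℕ) : ℂ) * ((a : ℂ) / b) = ((-a : ℤ) : ℂ) := by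
      have : ((b.natAbs : ℕ) : ℂ) = -(b : ℂ) := by
        have := congrArg (Int.cast : ℤ → ℂ) h
        rw [this]; simp
      rw [this]; push_cast; field_simp
    rw [e]; exact isIntegral_intCast _

namespace INT

/-- common denominators -/
lemma exists_common (r : ℕ) [Fact r.Prime] {ι : Type*} (s : Finset ι) (c : ι → ℂ)
    (h : ∀ i ∈ s, c i ∈ Oint r) :
    ∃ b : ℕ, ¬ r ∣ b ∧ ∀ i ∈ s, IsIntegral ℤ ((b : ℂ) * c i) := by
  classical
  induction s using Finset.induction_on with
  | empty =>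
    exact ⟨1, fun h => (Fact.out : r.Prime).one_lt.ne' (Nat.dvd_one.mp h), by simp⟩
  | insert a s ha ih =>
    obtain ⟨b, hb, hbs⟩ := ih fun i hi => h i (Finset.mem_insert_of_mem hi)
    obtain ⟨d, hd, hda⟩ := h a (Finset.mem_insert_self a s)
    refine ⟨b * d, fun hh => ?_, fun i hi => ?_⟩
    · rcases (Fact.out : r.Prime).dvd_mul.mp hh with hh | hh
      · exact hb hh
      · exact hd hh
    · rcases Finset.mem_insert.mp hi with rfl | hi
      · have e : ((b * d : ℕ) : ℂ) * c i = (b : ℂ) * ((d : ℂ) * c i) := by push_cast; ring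
        rw [e]; exact (isIntegral_natCast (a := b)).mul hda
      · have e : ((b * d : ℕ) : ℂ) * c i = (d : ℂ) * ((b : ℂ) * c i) := by push_cast; ring
        rw [e]; exact (isIntegral_natCast (a := d)).mul (hbs i hi)

end INT

theorem Oint_closed (r : ℕ) [Fact r.Prime] {x : ℂ} (hx : IsIntegral (Oint r) x) : x ∈ Oint r := by
  classical
  obtain ⟨P, hP, hPx⟩ := hx
  obtain ⟨b, hb, hbs⟩ := INT.exists_common r (Finset.range (P.natDegree + 1))
    (fun i => ((P.coeff i : Oint r) : ℂ)) (fun i _ => (P.coeff i).2)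
  refine ⟨b, hb, ?_⟩
  have hbO : (b : ℂ) ∈ Oint r := natCast_mem _ b
  set Q : Polynomial (Oint r) := P.scaleRoots ⟨(b : ℂ), hbO⟩ with hQ
  have hQm : Q.Monic := (Polynomial.monic_scaleRoots_iff _).mpr hP
  have hQx : Polynomial.eval₂ (algebraMap (Oint r) ℂ) ((b : ℂ) * x) Q = 0 := by
    have := Polynomial.scaleRoots_eval₂_eq_zero (algebraMap (Oint r) ℂ) (p := P) (r := x)
      (s := ⟨(b : ℂ), hbO⟩) hPx
    exact this
  set Q' : Polynomial ℂ := Q.map (algebraMap (Oint r) ℂ) with hQ'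
  have hQ'm : Q'.Monic := hQm.map _
  have hlift : Q' ∈ Polynomial.lifts (algebraMap (integralClosure ℤ ℂ) ℂ) := by
    rw [Polynomial.lifts_iff_coeff_lifts]
    intro n
    have hcoef : Q'.coeff n = ((P.coeff n : Oint r) : ℂ) * (b : ℂ) ^ (P.natDegree - n) := by
      rw [hQ', Polynomial.coeff_map, hQ, Polynomial.coeff_scaleRoots]
      rfl
    have hint : IsIntegral ℤ (Q'.coeff n) := by
      rw [hcoef]
      rcases lt_trichotomy n P.natDegree with hn | hn | hn
      · obtain ⟨m, hm⟩ : ∃ m, P.natDegree - n = m + 1 := ⟨P.natDegree - n - 1, by omega⟩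
        rw [hm, pow_succ]
        have e : ((P.coeff n : Oint r) : ℂ) * ((b : ℂ) ^ m * b)
            = (b : ℂ) ^ m * ((b : ℂ) * ((P.coeff n : Oint r) : ℂ)) := by ring
        rw [e]
        exact ((isIntegral_natCast (a := b)).pow m).mul
          (hbs n (Finset.mem_range.mpr (by omega)))
      · subst hn
        have : P.coeff P.natDegree = 1 := hP
        rw [this]
        simpa using isIntegral_one
      · rw [Polynomial.coeff_eq_zero_of_natDegree_lt hn]
        simpa using isIntegral_zero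
    exact ⟨⟨_, hint⟩, rfl⟩
  obtain ⟨q, hq1, -, hq3⟩ := Polynomial.lifts_and_natDegree_eq_and_monic hlift hQ'm
  have hint2 : IsIntegral (integralClosure ℤ ℂ) ((b : ℂ) * x) := by
    refine ⟨q, hq3, ?_⟩
    rw [← Polynomial.eval_map, hq1, hQ', Polynomial.eval_map]
    exact hQx
  exact isIntegral_trans _ hint2

theorem exp_mem_Oint (r : ℕ) [Fact r.Prime] {n : ℕ} (hn : n ≠ 0) :
    Complex.exp (2 * Real.pi * Complex.I / n) ∈ Oint r := by
  refine ⟨1, fun h => (Fact.out : r.Prime).one_lt.ne' (Nat.dvd_one.mp h), ?_⟩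
  rw [Nat.cast_one, one_mul]
  refine IsIntegral.of_pow (Nat.pos_of_ne_zero hn) ?_
  rw [← Complex.exp_nat_mul]
  have hn' : (n : ℂ) ≠ 0 := by exact_mod_cast hn
  have : (n : ℂ) * (2 * Real.pi * Complex.I / n) = 2 * Real.pi * Complex.I := by field_simp
  rw [this, Complex.exp_two_pi_mul_I]
  exact isIntegral_one

theorem not_dvd_den_of_mem_Oint (r : ℕ) [Fact r.Prime] {x : ℚ} (hx : (x : ℂ) ∈ Oint r) :
    ¬ r ∣ x.den := by
  obtain ⟨b, hb, hint⟩ := hx
  have h1 : IsIntegral ℤ ((b : ℚ) * x) := by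
    have : ((b : ℂ) * (x : ℂ)) = algebraMap ℚ ℂ ((b : ℚ) * x) := by simp
    rw [this] at hint
    exact (isIntegral_algebraMap_iff (algebraMap ℚ ℂ).injective).mp hint
  obtain ⟨m, hm⟩ := IsIntegrallyClosed.isIntegral_iff.mp h1
  have hb0 : b ≠ 0 := by rintro rfl; exact hb (dvd_zero r)
  have hx' : x = (m : ℚ) / (b : ℚ) := by
    have hb' : (b : ℚ) ≠ 0 := by exact_mod_cast hb0
    have : (m : ℚ) = (b : ℚ) * x := by simpa using hm
    rw [this]; field_simp
  intro h
  apply hb
  have h2 : ((x.den : ℕ) : ℤ) ∣ (b : ℤ) := by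
    rw [hx']
    have := Rat.den_dvd m (b : ℤ)
    rwa [Rat.divInt_eq_div] at this
  exact h.trans (by exact_mod_cast h2)

namespace INT

lemma utr_one (τ : ℍ) : utr 1 0 1 τ = τ := by
  apply UpperHalfPlane.ext
  rw [coe_utr one_pos one_pos]
  simp

lemma qi_of_isMF {p : ℕ} [NeZero p] {O : Subring ℂ} {k : ℤ} {F : ℍ → ℂ}
    (hF : IsMF (Gamma0 p) k F) (h1 : IntS O (qExpansion 1 F)) : QI O 1 F where
  per := by
    have := SlashInvariantFormClass.periodic_comp_ofComplex (h := 1) hF.toModularForm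
      (CongruenceSubgroup.one_mem_strictPeriods_Gamma0 p)
    simpa using this
  holo := hF.holo
  bdd := by simpa using hF.bdd 1
  int m := by simpa using h1 m

lemma pow_slash (k : ℤ) (F : ℍ → ℂ) (n : ℕ) (γ : SL(2, ℤ)) :
    (F ^ n) ∣[(n : ℤ) * k] γ = (F ∣[k] γ) ^ n := by
  have := EsymmAux.prod_slash (Finset.range n) k (fun _ => F) γ
  simpa [Finset.prod_const, Finset.card_range] using this

end INT

variable (p : ℕ) [Fact p.Prime]

/-- values of integral forms at points with integral `j`-invariant are integral -/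
theorem int_value (r : ℕ) [Fact r.Prime] {k : ℕ} {F : ℍ → ℂ} (hF : IsMF (Gamma0 p) k F)
    (h1 : IntS (Oint r) (qExpansion 1 F)) (h2 : IntS (Oint r) (qExpansion 1 (sharp p k F)))
    (τ : ℍ) (hj : E4 τ ^ 3 / Dl τ ∈ Oint r) : F τ ^ 12 / Dl τ ^ k ∈ Oint r := by
  classical
  have hp0 : p ≠ 0 := (Fact.out : p.Prime).ne_zero
  have : NeZero p := ⟨hp0⟩
  have hppos : 0 < p := Nat.pos_of_ne_zero hp0
  set O := Oint r with hO
  have hζ : Complex.exp (2 * Real.pi * Complex.I / p) ∈ O := exp_mem_Oint r hp0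
  have hQF : QI O 1 F := INT.qi_of_isMF hF h1
  have hQS : QI O 1 (sharp p k F) := INT.qi_of_isMF (sharp_isMF p hF) h2
  -- all conjugates of `F` have integral expansions
  have hQI1 : ∀ γ : SL(2, ℤ), QI O p (F ∣[(k : ℤ)] γ) := by
    intro γ
    rcases slash_cases p hF γ with h | ⟨j, -, h⟩
    · rw [h]
      have := QI.comp_utr hppos hζ hQF (a := 1) (b := 0) (a' := 1) one_pos one_pos (one_dvd _)
      simpa [INT.utr_one] using this
    · have e : F ∣[(k : ℤ)] γ = fun τ => sharp p k F (utr 1 j p τ) := funext h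
      rw [e]
      exact QI.comp_utr hppos hζ hQS one_pos hppos dvd_rfl
  set h0 : ℍ → ℂ := F ^ 12 with hh0
  set K : ℤ := ((12 : ℕ) : ℤ) * (k : ℤ) with hK
  have hMF : IsMF (Gamma0 p) K h0 := EsymmAux.isMF_pow hF 12
  have hQI : ∀ γ : SL(2, ℤ), QI O p (h0 ∣[K] γ) := by
    intro γ
    rw [hh0, hK, INT.pow_slash]
    exact (hQI1 γ).pow hppos 12
  set T := idx p with hT
  have key : ∀ i : ℕ, ∃ c : ℕ → O, esymmConj p K h0 i = ∑ a ∈ Finset.range (i * k + 1),
      (c a : ℂ) • (Dl ^ a * E4 ^ (3 * (i * k - a))) := by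
    intro i
    have h1 : IsMF ⊤ (12 * ((i * k : ℕ) : ℤ)) (esymmConj p K h0 i) := by
      have := isMF_esymmConj p hMF i
      have e : (i : ℤ) * K = 12 * ((i * k : ℕ) : ℤ) := by
        rw [hK]; push_cast; ring
      rwa [e] at this
    have h2 : QI O p (esymmConj p K h0 i) :=
      QI.sum hppos _ fun s _ => QI.prod hppos s fun x _ => hQI _
    have h3 : QI O 1 (esymmConj p K h0 i) := h2.descend hppos h1.periodic_one
    refine levelOne_structure O (i * k) _ h1 fun n => ?_
    have := h3.int n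
    simpa using this
  choose c hc using key
  have hrel := congrFun (sum_esymmConj_mul_pow p hMF.inv) τ
  rw [← hT, Pi.zero_apply] at hrel
  have hD : Dl τ ≠ 0 := discriminant_ne_zero τ
  set j : ℂ := E4 τ ^ 3 / Dl τ with hjdef
  set x : ℂ := F τ ^ 12 / Dl τ ^ k with hx
  -- the values of the symmetric functions
  have hval : ∀ i : ℕ, ∃ y ∈ O, esymmConj p K h0 i τ = y * Dl τ ^ (i * k) := by
    intro i
    refine ⟨∑ a ∈ Finset.range (i * k + 1), (c i a : ℂ) * j ^ (i * k - a),
      O.sum_mem fun a _ => O.mul_mem (c i a).2 (O.pow_mem hj _), ?_⟩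
    rw [hc i, Finset.sum_apply, Finset.sum_mul]
    refine Finset.sum_congr rfl fun a ha => ?_
    have ha' : a ≤ i * k := Nat.lt_succ_iff.mp (Finset.mem_range.mp ha)
    simp only [Pi.smul_apply, Pi.mul_apply, Pi.pow_apply, smul_eq_mul]
    have e : Dl τ ^ (i * k) = Dl τ ^ a * Dl τ ^ (i * k - a) := by
      rw [← pow_add]; congr 1; omega
    rw [e, hjdef, div_pow, pow_mul]
    field_simp
  choose y hyO hy using hval
  have hy0 : y 0 = 1 := by
    have := hy 0
    simpa [esymmConj] using this.symm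
  -- the monic polynomial
  apply Oint_closed r
  have hsum : ∑ i ∈ Finset.range (T + 1), (-1 : ℂ) ^ i * y i * x ^ (T - i) = 0 := by
    have hDT : Dl τ ^ (k * T) ≠ 0 := pow_ne_zero _ hD
    apply mul_left_cancel₀ hDT
    rw [mul_zero, ← hrel, Finset.sum_apply, Finset.mul_sum]
    refine Finset.sum_congr rfl fun i hi => ?_
    have hi' : i ≤ T := Nat.lt_succ_iff.mp (Finset.mem_range.mp hi)
    simp only [Pi.smul_apply, Pi.mul_apply, Pi.pow_apply, smul_eq_mul]
    rw [hy i, hh0, Pi.pow_apply, hx, div_pow]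
    have e : Dl τ ^ (k * T) = Dl τ ^ (i * k) * (Dl τ ^ k) ^ (T - i) := by
      rw [← pow_mul, ← pow_add]; congr 1
      obtain ⟨d, hd⟩ := Nat.exists_eq_add_of_le hi'
      rw [hd, Nat.add_sub_cancel_left]; ring
    rw [e]
    have hDk : (Dl τ ^ k) ^ (T - i) ≠ 0 := pow_ne_zero _ (pow_ne_zero _ hD)
    field_simp
  set Q : Polynomial O := ∑ i ∈ Finset.range T,
    Polynomial.C ((-1 : O) ^ (i + 1) * ⟨y (i + 1), hyO (i + 1)⟩) * Polynomial.X ^ (T - (i + 1))
    with hQ
  have hdeg : Q.degree < (T : WithBot ℕ) := by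
    refine (Polynomial.degree_sum_le _ _).trans_lt ?_
    refine (Finset.sup_lt_iff (WithBot.bot_lt_coe T)).mpr ?_
    intro i hi
    have hi' : i < T := Finset.mem_range.mp hi
    refine (Polynomial.degree_C_mul_X_pow_le _ _).trans_lt ?_
    exact WithBot.coe_lt_coe.mpr (by omega : T - (i + 1) < T)
  refine ⟨Polynomial.X ^ T + Q, Polynomial.monic_X_pow_add hdeg, ?_⟩
  rw [Finset.sum_range_succ'] at hsum
  rw [Polynomial.eval₂_add, Polynomial.eval₂_pow, Polynomial.eval₂_X, hQ,
    Polynomial.eval₂_finsetSum, add_comm, ← hsum]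
  congr 1
  · refine Finset.sum_congr rfl fun i _ => ?_
    rw [Polynomial.eval₂_mul, Polynomial.eval₂_C, Polynomial.eval₂_pow, Polynomial.eval₂_X,
      map_mul, map_pow, map_neg, map_one]
    rfl
  · simp [hy0]

end

end Fermat.Agent.S16Lib
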