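import Fermat.Agent.S16.FDApi
import Fermat.Agent.S16.IntValue
import Fermat.Agent.S16.LevelOneFacts
import Fermat.Agent.S24.JLocal

/-!
# S16, upper bound, leaf (C2): `p ≡ 7 mod 8`, no `G ≡ 1 mod 8`

Evaluation at `τ = i` (helper21's argument).
-/

set_option autoImplicit false

open UpperHalfPlane ModularForm Matrix.SpecialLinearGroup CongruenceSubgroup
open scoped MatrixGroups Manifold
open Fermat.Agent.S20Lib Fermat.Agent.S28Lib

namespace Fermat.Agent.S16Lib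

noncomputable section

namespace C2

/-- pointed version of `FD` -/
def FDf (p : ℕ) (k : ℤ) (F : ℍ → ℂ) (φ φs : PowerSeries ℂ) : Prop :=
  IsMF (Gamma0 p) k F ∧ qExpansion 1 F = φ ∧ qExpansion 1 (sharp p k F) = φs

section FDf

variable {p : ℕ} [Fact p.Prime]

lemma FDf.add {k : ℤ} {F G : ℍ → ℂ} {φ φs χ χs : PowerSeries ℂ} (h : FDf p k F φ φs)
    (h' : FDf p k G χ χs) : FDf p k (F + G) (φ + χ) (φs + χs) := by
  obtain ⟨hF, rfl, rfl⟩ := h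
  obtain ⟨hG, rfl, rfl⟩ := h'
  refine ⟨hF.add hG, qExpansion_add (IsQAux.analytic hF) (IsQAux.analytic hG), ?_⟩
  rw [sharp_add, qExpansion_add (IsQAux.analytic (sharp_isMF p hF))
    (IsQAux.analytic (sharp_isMF p hG))]

lemma FDf.smul {k : ℤ} {F : ℍ → ℂ} {φ φs : PowerSeries ℂ} (c : ℂ) (h : FDf p k F φ φs) :
    FDf p k (c • F) (c • φ) (c • φs) := by
  obtain ⟨hF, rfl, rfl⟩ := h
  refine ⟨hF.smul c, qExpansion_smul (IsQAux.analytic hF) c, ?_⟩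
  rw [sharp_smul, qExpansion_smul (IsQAux.analytic (sharp_isMF p hF))]

lemma FDf.mul {k l m : ℤ} {F G : ℍ → ℂ} {φ φs χ χs : PowerSeries ℂ} (h : FDf p k F φ φs)
    (h' : FDf p l G χ χs) (hm : m = k + l) : FDf p m (F * G) (φ * χ) (φs * χs) := by
  subst hm
  obtain ⟨hF, rfl, rfl⟩ := h
  obtain ⟨hG, rfl, rfl⟩ := h'
  refine ⟨hF.mul hG, qExpansion_mul (IsQAux.analytic hF) (IsQAux.analytic hG), ?_⟩
  rw [sharp_mul, qExpansion_mul (IsQAux.analytic (sharp_isMF p hF))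
    (IsQAux.analytic (sharp_isMF p hG))]

lemma FDf.levelOne {k : ℤ} {B : ℍ → ℂ} (hB : IsMF ⊤ k B) :
    FDf p k B (qExpansion 1 B)
      (PowerSeries.expand p (Fact.out : p.Prime).ne_zero (qExpansion 1 B)) := by
  refine ⟨hB.mono le_top, rfl, ?_⟩
  rw [sharp_levelOne p hB]
  exact qExpansion_dilate (IsQAux.qi_top (N := 1) (hB.mono le_top)) _

end FDf

lemma mem_of_pow_mem (r : ℕ) [Fact r.Prime] {x : ℂ} {n : ℕ} (hn : 0 < n) (h : x ^ n ∈ Oint r) :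
    x ∈ Oint r := by
  apply Oint_closed r
  refine IsIntegral.of_pow hn ?_
  exact isIntegral_algebraMap (R := Oint r) (x := (⟨x ^ n, h⟩ : Oint r))

/-- values at `i`, normalised by a twelfth root of `Δ(i)` -/
lemma val_mem {p : ℕ} [Fact p.Prime] (k : ℕ) {F : ℍ → ℂ} {φ φs : PowerSeries ℂ}
    (h : FDf p (k : ℤ) F φ φs) (h1 : IntS (Zloc 2) φ) (h2 : IntS (Zloc 2) φs) {w : ℂ}
    (hw : w ^ 12 = Dl I) : F I / w ^ k ∈ Oint 2 := by
  obtain ⟨hF, rfl, rfl⟩ := h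
  have hj : E4 I ^ 3 / Dl I ∈ Oint 2 := by
    have : E4 I ^ 3 / Dl I = 1728 := Fermat.Agent.S24Lib.jan_I
    rw [this]
    exact ofNat_mem _ 1728
  have := int_value p 2 hF (fun n => Zloc_le_Oint 2 (h1 n)) (fun n => Zloc_le_Oint 2 (h2 n)) I hj
  apply mem_of_pow_mem 2 (n := 12) (by norm_num)
  rw [div_pow, ← pow_mul, mul_comm k 12, pow_mul, hw]
  exact this

/-! ### power series -/

local notation "𝒮" => EsymmAux.serO (Zloc 2)

lemma four_dvd (d : ℕ) : 4 ∣ 5 * d ^ 3 + 7 * d ^ 5 := by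
  have h : d % 4 = 0 ∨ d % 4 = 1 ∨ d % 4 = 2 ∨ d % 4 = 3 := by omega
  rcases h with h | h | h | h <;>
    simp [Nat.dvd_iff_mod_eq_zero, Nat.add_mod, Nat.mul_mod, Nat.pow_mod, h]

lemma four_dvd_sigma (n : ℕ) :
    4 ∣ 5 * ArithmeticFunction.sigma 3 n + 7 * ArithmeticFunction.sigma 5 n := by
  rw [ArithmeticFunction.sigma_apply, ArithmeticFunction.sigma_apply, Finset.mul_sum,
    Finset.mul_sum, ← Finset.sum_add_distrib]
  exact Finset.dvd_sum fun d _ => four_dvd d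

/-- `(5 σ₃ + 7 σ₅) / 4` -/
def tS : PowerSeries ℂ := PowerSeries.mk fun n =>
  (((5 * ArithmeticFunction.sigma 3 n + 7 * ArithmeticFunction.sigma 5 n) / 4 : ℕ) : ℂ)

lemma sig_rel : (5 : PowerSeries ℂ) * sigS 3 + 7 * sigS 5 = 4 * tS := by
  ext n
  have e5 : (5 : PowerSeries ℂ) = PowerSeries.C 5 := (map_ofNat _ 5).symm
  have e7 : (7 : PowerSeries ℂ) = PowerSeries.C 7 := (map_ofNat _ 7).symm
  have e4 : (4 : PowerSeries ℂ) = PowerSeries.C 4 := (map_ofNat _ 4).symm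
  rw [e5, e7, e4, map_add, PowerSeries.coeff_C_mul, PowerSeries.coeff_C_mul,
    PowerSeries.coeff_C_mul, sigS, sigS, tS, PowerSeries.coeff_mk, PowerSeries.coeff_mk,
    PowerSeries.coeff_mk]
  obtain ⟨m, hm⟩ := four_dvd_sigma n
  rw [hm, Nat.mul_div_cancel_left _ (by norm_num : 0 < 4)]
  have hm' : (5 : ℂ) * (ArithmeticFunction.sigma 3 n : ℕ) + 7 * (ArithmeticFunction.sigma 5 n : ℕ)
      = 4 * (m : ℂ) := by exact_mod_cast hm
  by_cases hn : n = 0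
  · subst hn
    simp at hm' ⊢
    exact hm'
  · rw [if_neg hn, if_neg hn]; exact hm'

lemma sigS_mem (j : ℕ) : sigS j ∈ 𝒮 := by
  intro n
  rw [sigS, PowerSeries.coeff_mk]
  split_ifs
  · exact zero_mem _
  · exact natCast_mem _ _

lemma tS_mem : tS ∈ 𝒮 := by
  intro n
  rw [tS, PowerSeries.coeff_mk]
  exact natCast_mem _ _

lemma expand_mem {q : ℕ} (hq : q ≠ 0) {s : PowerSeries ℂ} (hs : s ∈ 𝒮) :
    PowerSeries.expand q hq s ∈ 𝒮 := by
  intro n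
  rw [PowerSeries.coeff_expand]
  split_ifs
  · exact hs _
  · exact zero_mem _

lemma C_mem {a : ℂ} (ha : a ∈ Zloc 2) : PowerSeries.C a ∈ 𝒮 := by
  intro n
  rw [PowerSeries.coeff_C]
  split_ifs
  · exact ha
  · exact zero_mem _

lemma Up_mem (q : ℕ) {s : PowerSeries ℂ} (hs : s ∈ 𝒮) : Up q s ∈ 𝒮 := by
  intro n
  rw [coeff_Up]
  exact hs _

/-- the two integrality statements, in abstract form -/
lemma core {g s3 s5 t : PowerSeries ℂ} (hg : g ∈ 𝒮) (h3 : s3 ∈ 𝒮) (ht : t ∈ 𝒮)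
    (hrel : 5 * s3 + 7 * s5 = 4 * t) :
    (16⁻¹ : ℂ) • ((1 + 8 * g) * (1 + 8 * g) + (-1 : ℂ) • (1 + 240 * s3)) ∈ 𝒮 ∧
    (64⁻¹ : ℂ) • ((2 : ℂ) • (1 - 504 * s5) + (1 + 8 * g) * (1 + 8 * g) * (1 + 8 * g)
      + (-3 : ℂ) • ((1 + 8 * g) * (1 + 240 * s3))) ∈ 𝒮 := by
  have e1 : (16⁻¹ : ℂ) • ((1 + 8 * g) * (1 + 8 * g) + (-1 : ℂ) • (1 + 240 * s3))
      = g + 4 * (g * g) - 15 * s3 := by
    rw [inv_smul_eq_iff₀ (by norm_num)]
    simp only [PowerSeries.smul_eq_C_mul, map_neg, map_one, map_ofNat]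
    ring
  have e2 : (64⁻¹ : ℂ) • ((2 : ℂ) • (1 - 504 * s5) + (1 + 8 * g) * (1 + 8 * g) * (1 + 8 * g)
      + (-3 : ℂ) • ((1 + 8 * g) * (1 + 240 * s3)))
      = 3 * (g * g) + 8 * (g * g * g) - 90 * (g * s3) - 9 * t := by
    rw [inv_smul_eq_iff₀ (by norm_num)]
    simp only [PowerSeries.smul_eq_C_mul, map_neg, map_ofNat]
    linear_combination (-144 : PowerSeries ℂ) * hrel
  rw [e1, e2]
  have n4 : (4 : PowerSeries ℂ) ∈ 𝒮 := ofNat_mem _ 4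
  have n15 : (15 : PowerSeries ℂ) ∈ 𝒮 := ofNat_mem _ 15
  have n3 : (3 : PowerSeries ℂ) ∈ 𝒮 := ofNat_mem _ 3
  have n8 : (8 : PowerSeries ℂ) ∈ 𝒮 := ofNat_mem _ 8
  have n90 : (90 : PowerSeries ℂ) ∈ 𝒮 := ofNat_mem _ 90
  have n9 : (9 : PowerSeries ℂ) ∈ 𝒮 := ofNat_mem _ 9
  have gg := mul_mem hg hg
  exact ⟨sub_mem (add_mem hg (mul_mem n4 gg)) (mul_mem n15 h3),
    sub_mem (sub_mem (add_mem (mul_mem n3 gg) (mul_mem n8 (mul_mem gg hg)))
      (mul_mem n90 (mul_mem hg h3))) (mul_mem n9 ht)⟩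

lemma Up_one_add (q : ℕ) (hq : q ≠ 0) (g : PowerSeries ℂ) :
    Up q (1 + 8 * g) = 1 + 8 * Up q g := by
  ext n
  have e8 : (8 : PowerSeries ℂ) = PowerSeries.C 8 := (map_ofNat _ 8).symm
  rw [coeff_Up, e8, map_add, map_add, PowerSeries.coeff_C_mul, PowerSeries.coeff_C_mul, coeff_Up,
    PowerSeries.coeff_one, PowerSeries.coeff_one]
  simp [hq]

end C2

variable (p : ℕ) [Fact p.Prime]

open C2 in
theorem nc_two (hp : p % 8 = 7) : ¬ NCHyp p 2 8 := by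
  rintro ⟨φ, φs, g, hFD, hg, -, hφ⟩
  have hp0 : p ≠ 0 := (Fact.out : p.Prime).ne_zero
  have hpC : (p : ℂ) ≠ 0 := by exact_mod_cast hp0
  have hφs := FD.two hFD
  obtain ⟨G, hG, hGφ, hGs⟩ := hFD
  have hGf : FDf p 2 G φ φs := ⟨hG, hGφ, hGs⟩
  have hφ' : φ = 1 + 8 * g := by
    rw [hφ, PowerSeries.smul_eq_C_mul, Nat.cast_ofNat, map_ofNat]
  -- the constant `c = -1/p = 1 + 8 a`
  obtain ⟨m, hm⟩ : ∃ m, p = 8 * m + 7 := ⟨p / 8, by omega⟩
  set a : ℂ := -((m + 1 : ℕ) : ℂ) / p with ha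
  have haZ : a ∈ Zloc 2 := by
    refine ⟨-((m + 1 : ℕ) : ℤ), (p : ℤ), ?_, by rw [ha]; push_cast; ring⟩
    intro h
    have : (2 : ℕ) ∣ p := by exact_mod_cast h
    omega
  have hc : -(p : ℂ)⁻¹ = 1 + 8 * a := by
    rw [ha]
    have : (p : ℂ) = 8 * (m : ℂ) + 7 := by exact_mod_cast hm
    field_simp
    rw [this]; push_cast; ring
  set h : PowerSeries ℂ := Up p g with hh
  have hhS : h ∈ EsymmAux.serO (Zloc 2) := Up_mem p hg
  set A : PowerSeries ℂ := PowerSeries.C a with hA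
  have hAS : A ∈ EsymmAux.serO (Zloc 2) := C_mem haZ
  set B : PowerSeries ℂ := A + h + 8 * (A * h) with hB
  have n8 : (8 : PowerSeries ℂ) ∈ EsymmAux.serO (Zloc 2) := ofNat_mem _ 8
  have hBS : B ∈ EsymmAux.serO (Zloc 2) :=
    add_mem (add_mem hAS hhS) (mul_mem n8 (mul_mem hAS hhS))
  have hφs' : φs = 1 + 8 * B := by
    rw [hφs, hφ', Up_one_add p hp0, PowerSeries.smul_eq_C_mul, hc, map_add, map_one, map_mul,
      map_ofNat, ← hA, ← hh, hB]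
    ring
  -- level one forms
  set V := PowerSeries.expand (R := ℂ) p hp0 with hV
  have he4 : e4 = 1 + 240 * sigS 3 := by
    rw [e4_eq, PowerSeries.smul_eq_C_mul, map_ofNat]
  have he6 : e6 = 1 - 504 * sigS 5 := by
    rw [e6_eq, PowerSeries.smul_eq_C_mul, map_ofNat]
  have hVe4 : V e4 = 1 + 240 * V (sigS 3) := by
    rw [he4, map_add, map_one, map_mul, map_ofNat]
  have hVe6 : V e6 = 1 - 504 * V (sigS 5) := by
    rw [he6, map_sub, map_one, map_mul, map_ofNat]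
  have hVrel : 5 * V (sigS 3) + 7 * V (sigS 5) = 4 * V tS := by
    have := congrArg V sig_rel
    simpa only [map_add, map_mul, map_ofNat] using this
  have hE4 : FDf p 4 E4 e4 (V e4) := FDf.levelOne isMF_E4
  have hE6 : FDf p 6 E6 e6 (V e6) := FDf.levelOne isMF_E6
  set Y : ℍ → ℂ := (16⁻¹ : ℂ) • (G * G + (-1 : ℂ) • E4) with hYdef
  set Z : ℍ → ℂ := (64⁻¹ : ℂ) • ((2 : ℂ) • E6 + G * G * G + (-3 : ℂ) • (G * E4)) with hZdef
  have hGG : FDf p 4 (G * G) (φ * φ) (φs * φs) := hGf.mul hGf (by norm_num)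
  have hY := (hGG.add (hE4.smul (-1))).smul (16⁻¹ : ℂ)
  have hZ := (((hE6.smul 2).add (hGG.mul hGf (m := 6) (by norm_num))).add
    ((hGf.mul hE4 (m := 6) (by norm_num)).smul (-3))).smul (64⁻¹ : ℂ)
  rw [← hYdef] at hY
  rw [← hZdef] at hZ
  obtain ⟨i1, i2⟩ := core hg (sigS_mem 3) tS_mem sig_rel
  obtain ⟨i3, i4⟩ := core hBS (expand_mem hp0 (sigS_mem 3)) (expand_mem hp0 tS_mem) hVrel
  rw [← hφ', ← he4] at i1
  rw [← hφ', ← he4, ← he6] at i2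
  rw [← hφs', ← hVe4] at i3
  rw [← hφs', ← hVe4, ← hVe6] at i4
  have iφ : φ ∈ EsymmAux.serO (Zloc 2) := by
    rw [hφ']; exact add_mem (one_mem _) (mul_mem n8 hg)
  have iφs : φs ∈ EsymmAux.serO (Zloc 2) := by
    rw [hφs']; exact add_mem (one_mem _) (mul_mem n8 hBS)
  -- values at `i`
  obtain ⟨w, hw⟩ := IsAlgClosed.exists_pow_nat_eq (Dl I) (n := 12) (by norm_num)
  have hw0 : w ≠ 0 := by
    rintro rfl
    exact Dl_ne_zero I (by rw [← hw]; norm_num)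
  have hx : G I / w ^ 2 ∈ Oint 2 := val_mem 2 (by exact_mod_cast hGf) iφ iφs hw
  have hy : Y I / w ^ 4 ∈ Oint 2 := val_mem 4 (by exact_mod_cast hY) i1 i3 hw
  have hz : Z I / w ^ 6 ∈ Oint 2 := val_mem 6 (by exact_mod_cast hZ) i2 i4 hw
  have hE6I : E6 I = 0 := Fermat.Agent.S24Lib.jlocal_E6_I
  have hD : (1728 : ℂ) * Dl I = E4 I ^ 3 - E6 I ^ 2 := by
    have := congrFun Dl_eq I
    simpa using this
  rw [hE6I, ← hw] at hD
  have hYI : Y I = 16⁻¹ * (G I * G I + (-1) * E4 I) := by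
    simp [hYdef]
    ring
  have hZI : Z I = 64⁻¹ * (2 * E6 I + G I * G I * G I + (-3) * (G I * E4 I)) := by
    simp [hZdef]
    ring
  rw [hE6I] at hZI
  set x := G I / w ^ 2 with hxdef
  set y := Y I / w ^ 4 with hydef
  set z := Z I / w ^ 6 with hzdef
  have n3 : (3 : ℂ) ∈ Oint 2 := ofNat_mem _ 3
  have n4 : (4 : ℂ) ∈ Oint 2 := ofNat_mem _ 4
  have hx2 : x / 2 ∈ Oint 2 := by
    apply mem_of_pow_mem 2 (n := 3) (by norm_num)
    have : (x / 2) ^ 3 = 3 * (x * y) - 4 * z := by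
      rw [hxdef, hydef, hzdef, hYI, hZI]
      field_simp
      ring
    rw [this]
    exact sub_mem (mul_mem n3 (mul_mem hx hy)) (mul_mem n4 hz)
  set x' := x / 2 with hx'def
  have hfin : ((27 / 2 : ℚ) : ℂ) = 6 * (x' ^ 2 * y ^ 2) - 4 * (x' ^ 3 * z) + 24 * (x' * y * z)
      - 32 * y ^ 3 - 8 * z ^ 2 := by
    have hw12 : w ^ 12 ≠ 0 := pow_ne_zero _ hw0
    apply mul_right_cancel₀ hw12
    rw [hx'def, hxdef, hydef, hzdef, hYI, hZI]
    push_cast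
    field_simp
    linear_combination (1048576 : ℂ) * hD
  have hmem : ((27 / 2 : ℚ) : ℂ) ∈ Oint 2 := by
    rw [hfin]
    have n6 : (6 : ℂ) ∈ Oint 2 := ofNat_mem _ 6
    have n24 : (24 : ℂ) ∈ Oint 2 := ofNat_mem _ 24
    have n32 : (32 : ℂ) ∈ Oint 2 := ofNat_mem _ 32
    have n8' : (8 : ℂ) ∈ Oint 2 := ofNat_mem _ 8
    exact sub_mem (sub_mem (add_mem (sub_mem (mul_mem n6 (mul_mem (pow_mem hx2 2) (pow_mem hy 2)))
      (mul_mem n4 (mul_mem (pow_mem hx2 3) hz))) (mul_mem n24 (mul_mem (mul_mem hx2 hy) hz)))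
      (mul_mem n32 (pow_mem hy 3))) (mul_mem n8' (pow_mem hz 2))
  have := not_dvd_den_of_mem_Oint 2 hmem
  apply this
  norm_num

end

end Fermat.Agent.S16Lib
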