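import Mathlib

set_option autoImplicit false

namespace Fermat.Agent.S16Lib

theorem exists_smul_eq_flip {T L : Type*} [AddCommGroup T] [AddCommGroup L]
    [Module.Finite ℤ T] [Module.Free ℤ T] [Module.Finite ℤ L] [Module.Free ℤ L]
    (B : T →ₗ[ℤ] L →ₗ[ℤ] ℤ) (h1 : Function.Injective B) (h2 : Function.Injective B.flip)
    (lam : T →ₗ[ℤ] ℤ) : ∃ (N : ℤ) (f : L), N ≠ 0 ∧ ∀ t, N * lam t = B t f := by
  have e1 : Module.finrank ℤ T ≤ Module.finrank ℤ (L →ₗ[ℤ] ℤ) :=
    LinearMap.finrank_le_finrank_of_injective h1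
  have e2 : Module.finrank ℤ L ≤ Module.finrank ℤ (T →ₗ[ℤ] ℤ) :=
    LinearMap.finrank_le_finrank_of_injective h2
  rw [Module.finrank_linearMap, Module.finrank_self, mul_one] at e1 e2
  have e3 : Module.finrank ℤ (LinearMap.range B.flip) = Module.finrank ℤ (T →ₗ[ℤ] ℤ) := by
    rw [LinearMap.finrank_range_of_inj h2, Module.finrank_linearMap, Module.finrank_self, mul_one]
    omega
  have e4 := Submodule.finrank_quotient_add_finrank (LinearMap.range B.flip)
  have e5 : Module.finrank ℤ ((T →ₗ[ℤ] ℤ) ⧸ LinearMap.range B.flip) = 0 := by omega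
  have e6 : Module.IsTorsion ℤ ((T →ₗ[ℤ] ℤ) ⧸ LinearMap.range B.flip) :=
    Module.finrank_eq_zero_iff_isTorsion.mp e5
  obtain ⟨⟨N, hN⟩, hNl⟩ := @e6 (Submodule.Quotient.mk lam)
  have hN0 : N ≠ 0 := nonZeroDivisors.ne_zero hN
  have h3 : N • lam ∈ LinearMap.range B.flip := by
    rw [← Submodule.Quotient.mk_eq_zero, Submodule.Quotient.mk_smul]
    exact hNl
  obtain ⟨f, hf⟩ := h3
  refine ⟨N, f, hN0, fun t => ?_⟩
  have := LinearMap.congr_fun hf t
  rw [LinearMap.flip_apply] at this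
  rw [this]
  simp

end Fermat.Agent.S16Lib
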