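import Mathlib

set_option autoImplicit false

namespace Fermat.Agent.S16Lib

theorem exists_linear_lift {R T : Type*} [CommRing R] [CommRing T]
    [Module.Finite ℤ T] [Module.Free ℤ T]
    (φ : R →+* T) (hφ : Function.Surjective φ) (ev : R →+* ℤ) (m : ℕ)
    (hm : ∀ r, φ r = 0 → (m : ℤ) ∣ ev r) :
    ∃ lam : T →ₗ[ℤ] ℤ, ∀ r, (m : ℤ) ∣ lam (φ r) - ev r := by
  -- the ring hom `T → ZMod m`
  let g : R →+* ZMod m := (Int.castRingHom (ZMod m)).comp ev
  have hg : RingHom.ker φ ≤ RingHom.ker g := by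
    intro r hr
    rw [RingHom.mem_ker] at hr ⊢
    show ((ev r : ℤ) : ZMod m) = 0
    exact (ZMod.intCast_zmod_eq_zero_iff_dvd _ _).mpr (hm r hr)
  let μ : T →+* ZMod m := RingHom.liftOfSurjective φ hφ ⟨g, hg⟩
  have hμ : ∀ r, μ (φ r) = ((ev r : ℤ) : ZMod m) := fun r =>
    RingHom.liftOfRightInverse_comp_apply φ _ _ ⟨g, hg⟩ r
  let μl : T →ₗ[ℤ] ZMod m := μ.toAddMonoidHom.toIntLinearMap
  let c : ℤ →ₗ[ℤ] ZMod m := (Int.castAddHom (ZMod m)).toIntLinearMap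
  have hc : Function.Surjective c := ZMod.intCast_surjective
  obtain ⟨lam, hlam⟩ := Module.projective_lifting_property c μl hc
  refine ⟨lam, fun r => ?_⟩
  have h1 : ((lam (φ r) : ℤ) : ZMod m) = ((ev r : ℤ) : ZMod m) := by
    have := LinearMap.congr_fun hlam (φ r)
    rw [← hμ r]
    exact this
  rw [← ZMod.intCast_zmod_eq_zero_iff_dvd]
  push_cast
  rw [h1, sub_self]

end Fermat.Agent.S16Lib
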