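import Fermat.Agent.S16.Duality
import Fermat.Agent.S16.DualAbs
import Fermat.Agent.S16.DualLift
import Fermat.Agent.S16.Lower.Final

set_option autoImplicit false

namespace Fermat.Agent.S16Lib

open CuspForm ModularFormClass CongruenceSubgroup ModularCurve
open Fermat.Agent.S49Lib

variable (p : ℕ) [Fact p.Prime]

local notation "S₂" => CuspForm (Gamma0 p) 2
local notation "𝕋" => heckeAlgebra p 2 (∅ : Set ℕ)
local notation "LL" => Subtype (fun x => x ∈ intLattice p 2)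

/-- the additive subgroup `m ℤ ⊆ ℂ` -/
def duM (m : ℤ) : AddSubgroup ℂ := AddSubgroup.zmultiples (m : ℂ)

theorem mem_duM {m : ℤ} {x : ℂ} : x ∈ duM m ↔ ∃ z : ℤ, x = (m : ℂ) * z := by
  unfold duM
  rw [AddSubgroup.mem_zmultiples_iff]
  constructor
  · rintro ⟨k, rfl⟩; exact ⟨k, by simp [mul_comm]⟩
  · rintro ⟨k, rfl⟩; exact ⟨k, by simp [mul_comm]⟩

theorem intCast_mem_duM {m z : ℤ} : (z : ℂ) ∈ duM m ↔ m ∣ z := by
  rw [mem_duM]
  constructor
  · rintro ⟨k, hk⟩; exact ⟨k, by exact_mod_cast hk⟩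
  · rintro ⟨k, rfl⟩; exact ⟨k, by push_cast; ring⟩

/-- Duality: if `m` divides the Eisenstein value of every Hecke polynomial acting as zero, then
there is a cusp form with integral coefficients congruent to the Eisenstein series mod `m`. -/
theorem exists_congr_form (m : ℕ)
    (hm : ∀ t : HeckeAlg, heckeEvalForms p 2 t = 0 →
      (m : ℤ) ∣ MvPolynomial.aeval (eisensteinSystem p) t) :
    ∃ (f : S₂) (a : ℕ → ℤ), (∀ k, qCoeff ⇑f k = (a k : ℂ)) ∧
      ∀ k, 1 ≤ k → (m : ℤ) ∣ a k - sig p k := by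
  have hp : p.Prime := Fact.out
  have : Module.Finite ℤ 𝕋 := Fermat.Agent.S22.result p 2 ∅
  have : Module.Free ℤ 𝕋 := Module.free_of_finite_type_torsion_free'
  have : Module.Finite ℤ LL := intLattice.moduleFinite p
  have : Module.Free ℤ LL := intLattice.moduleFree p
  obtain ⟨lam, hlam⟩ := exists_linear_lift (heckeEvalForms p 2) (heckeEvalForms_surjective p 2)
    (MvPolynomial.aeval (R := ℤ) (eisensteinSystem p)).toRingHom m hm
  obtain ⟨N, f₁, hN, hf₁⟩ := exists_smul_eq_flip (duB p) (duB_injective p) (duB_flip_injective p) lam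
  have hNC : (N : ℂ) ≠ 0 := by exact_mod_cast hN
  set g : S₂ := ((N : ℂ)⁻¹) • (f₁ : S₂) with hg
  have hkey : ∀ t : 𝕋, qCoeff ⇑((t : Module.End ℂ S₂) g) 1 = (lam t : ℂ) := by
    intro t
    rw [hg, map_smul, qCoeff_smul, ← duB_spec, ← hf₁ t]
    push_cast
    field_simp
  -- integrality
  have hint : ∀ (k : ℕ) (t : 𝕋), qCoeff ⇑((t : Module.End ℂ S₂) g) k ∈ duM 1 :=
    du_propagate p (duM 1) g (fun t => by rw [hkey]; exact intCast_mem_duM.mpr (one_dvd _))
  -- multiplicativity of `lam` mod `m`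
  have hmul : ∀ x r : HeckeAlg, (m : ℤ) ∣ lam (heckeEvalForms p 2 x * heckeEvalForms p 2 r) -
      MvPolynomial.aeval (eisensteinSystem p) x * lam (heckeEvalForms p 2 r) := by
    intro x r
    have h1 := hlam (x * r)
    have h2 := hlam r
    rw [map_mul] at h1
    simp only [AlgHom.toRingHom_eq_coe, RingHom.coe_coe, map_mul] at h1 h2
    have h3 := Dvd.dvd.mul_left h2 (MvPolynomial.aeval (eisensteinSystem p) x)
    have := dvd_sub h1 h3
    have e : lam (heckeEvalForms p 2 x * heckeEvalForms p 2 r) -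
      MvPolynomial.aeval (eisensteinSystem p) x * lam (heckeEvalForms p 2 r) =
      lam (heckeEvalForms p 2 x * heckeEvalForms p 2 r) -
        MvPolynomial.aeval (eisensteinSystem p) x * MvPolynomial.aeval (eisensteinSystem p) r -
      MvPolynomial.aeval (eisensteinSystem p) x *
        (lam (heckeEvalForms p 2 r) - MvPolynomial.aeval (eisensteinSystem p) r) := by ring
    rw [e]
    exact this
  have hT : ∀ (ℓ : ℕ) (hℓ : ℓ.Prime) (hnd : ¬ ℓ ∣ p) (t : 𝕋),
      qCoeff ⇑(heckeTLin 2 hℓ hnd ((t : Module.End ℂ S₂) g)) 1 -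
        (1 + ℓ : ℂ) * qCoeff ⇑((t : Module.End ℂ S₂) g) 1 ∈ duM m := by
    intro ℓ hℓ hnd t
    obtain ⟨r, rfl⟩ := heckeEvalForms_surjective p 2 t
    have h1 := hmul (heckeGen ⟨ℓ, hℓ⟩) r
    rw [heckeEvalForms_heckeGen_of_not_dvd (ℓ := ⟨ℓ, hℓ⟩) hnd] at h1
    have h2 := hkey (heckeAlgebra.T hℓ hnd (Set.notMem_empty _) * heckeEvalForms p 2 r)
    simp only [Subalgebra.coe_mul, heckeAlgebra.coe_T, Module.End.mul_apply] at h2
    rw [h2, hkey]
    have h3 : MvPolynomial.aeval (eisensteinSystem p) (heckeGen ⟨ℓ, hℓ⟩) = (1 + ℓ : ℤ) := by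
      exact (MvPolynomial.aeval_X (eisensteinSystem p) (⟨ℓ, hℓ⟩ : Nat.Primes)).trans
        (eisensteinSystem_of_not_dvd (ℓ := ⟨ℓ, hℓ⟩) hnd)
    rw [h3] at h1
    have := intCast_mem_duM.mpr h1
    convert this using 1
    push_cast
    ring
  have hU : ∀ t : 𝕋, qCoeff ⇑(heckeULin 2 (dvd_refl p) ((t : Module.End ℂ S₂) g)) 1 -
        qCoeff ⇑((t : Module.End ℂ S₂) g) 1 ∈ duM m := by
    intro t
    obtain ⟨r, rfl⟩ := heckeEvalForms_surjective p 2 t
    have h1 := hmul (heckeGen ⟨p, hp⟩) r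
    rw [heckeEvalForms_heckeGen_of_dvd (q := ⟨p, hp⟩) (dvd_refl p)] at h1
    have h2 := hkey (heckeAlgebra.U hp (dvd_refl p) (Set.notMem_empty _) * heckeEvalForms p 2 r)
    simp only [Subalgebra.coe_mul, heckeAlgebra.coe_U, Module.End.mul_apply] at h2
    rw [h2, hkey]
    have h3 : MvPolynomial.aeval (eisensteinSystem p) (heckeGen ⟨p, hp⟩) = (1 : ℤ) := by
      exact (MvPolynomial.aeval_X (eisensteinSystem p) (⟨p, hp⟩ : Nat.Primes)).trans
        (eisensteinSystem_of_dvd (ℓ := ⟨p, hp⟩) (dvd_refl p))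
    rw [h3] at h1
    have := intCast_mem_duM.mpr h1
    convert this using 1
    push_cast
    ring
  have hcong := du_congr p (duM m) g hT hU
  have hone : ∀ k, qCoeff ⇑(((1 : 𝕋) : Module.End ℂ S₂) g) k = qCoeff ⇑g k := fun k => rfl
  have hex : ∀ k, ∃ z : ℤ, qCoeff ⇑g k = (z : ℂ) := by
    intro k
    obtain ⟨z, hz⟩ := mem_duM.mp (hint k 1)
    exact ⟨z, by rw [← hone, hz]; simp⟩
  choose a ha using hex
  refine ⟨g, a, ha, fun k _ => ?_⟩
  have h1 := hcong k 1
  rw [hone, hone, ha, ha] at h1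
  have h2 : (m : ℤ) ∣ a k - sig p k * a 1 := by
    apply intCast_mem_duM.mp
    convert h1 using 1
    push_cast
    ring
  have h3 : (m : ℤ) ∣ a 1 - 1 := by
    have e1 := hlam 1
    have e2 := hkey 1
    rw [hone, ha] at e2
    have e3 : a 1 = lam 1 := by exact_mod_cast e2
    simpa [e3] using e1
  have := dvd_add h2 (Dvd.dvd.mul_left h3 (sig p k))
  have e : a k - sig p k = a k - sig p k * a 1 + sig p k * (a 1 - 1) := by ring
  rw [e]
  exact this

end Fermat.Agent.S16Lib
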