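import Fermat.Agent.S16.Sig
import Fermat.Agent.S22
import Fermat.Agent.S23
import Fermat.Agent.S49.Hecke

set_option autoImplicit false

namespace Fermat.Agent.S16Lib

open CuspForm ModularFormClass CongruenceSubgroup ModularCurve
open Fermat.Agent.S49Lib
open P2MW.S_CuspForm_intLattice_fg.W3WsD (qCoeff_add qCoeff_zsmul mem_intLattice_iff)

variable (p : ℕ) [Fact p.Prime]

local notation "S₂" => CuspForm (Gamma0 p) 2
local notation "𝕋" => heckeAlgebra p 2 (∅ : Set ℕ)

theorem du_not_dvd {p ℓ : ℕ} (hp : p.Prime) (hℓ : ℓ.Prime) (hne : ℓ ≠ p) : ¬ ℓ ∣ p :=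
  fun h => hne ((Nat.prime_dvd_prime_iff_eq hℓ hp).mp h)

theorem du_natCast_mul_mem (A : AddSubgroup ℂ) (n : ℕ) {x : ℂ} (hx : x ∈ A) : (n : ℂ) * x ∈ A := by
  simpa using A.nsmul_mem hx n

theorem du_intCast_mul_mem (A : AddSubgroup ℂ) (n : ℤ) {x : ℂ} (hx : x ∈ A) : (n : ℂ) * x ∈ A := by
  simpa using A.zsmul_mem hx n

/-- if all `a₁(t g)` lie in an additive subgroup `A`, then so do all `a_k(t g)` -/
theorem du_propagate (A : AddSubgroup ℂ) (g : S₂)
    (h : ∀ t : 𝕋, qCoeff ⇑((t : Module.End ℂ S₂) g) 1 ∈ A) :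
    ∀ (k : ℕ) (t : 𝕋), qCoeff ⇑((t : Module.End ℂ S₂) g) k ∈ A := by
  have hp : p.Prime := Fact.out
  intro k
  induction' k using Nat.strong_induction_on with k ih
  intro t
  rcases Nat.lt_or_ge k 2 with hk | hk
  · interval_cases k
    · rw [qCoeff_zero_index]; exact A.zero_mem
    · exact h t
  obtain ⟨ℓ, hℓ, k', rfl⟩ := Nat.exists_prime_and_dvd (n := k) (by omega)
  have hk'pos : 0 < k' := by
    rcases Nat.eq_zero_or_pos k' with h0 | h0
    · subst h0; omega
    · exact h0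
  have hlt : k' < ℓ * k' := by have := hℓ.two_le; nlinarith
  by_cases hne : ℓ = p
  · subst hne
    have e := qCoeff_heckeULin hℓ (dvd_refl ℓ) ((t : Module.End ℂ (CuspForm (Gamma0 ℓ) 2)) g) k'
    rw [← e]
    have e1 := ih k' hlt (heckeAlgebra.U hℓ (dvd_refl ℓ) (Set.notMem_empty _) * t)
    simp only [Subalgebra.coe_mul, heckeAlgebra.coe_U, Module.End.mul_apply] at e1
    exact e1
  · have hnd := du_not_dvd hp hℓ hne
    have e := qCoeff_heckeTLin hℓ hnd ((t : Module.End ℂ S₂) g) k'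
    have e1 := ih k' hlt (heckeAlgebra.T hℓ hnd (Set.notMem_empty _) * t)
    simp only [Subalgebra.coe_mul, heckeAlgebra.coe_T, Module.End.mul_apply] at e1
    have e2 : qCoeff ⇑((t : Module.End ℂ S₂) g) (ℓ * k') =
        qCoeff ⇑(heckeTLin 2 hℓ hnd ((t : Module.End ℂ S₂) g)) k' -
          (ℓ : ℂ) * (if ℓ ∣ k' then qCoeff ⇑((t : Module.End ℂ S₂) g) (k' / ℓ) else 0) := by
      rw [e]; ring
    rw [e2]
    refine A.sub_mem e1 (du_natCast_mul_mem A ℓ ?_)
    split_ifs
    · exact ih _ (lt_of_le_of_lt (Nat.div_le_self k' ℓ) hlt) t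
    · exact A.zero_mem

/-- Eisenstein congruences propagate from `a₁` to all coefficients -/
theorem du_congr (A : AddSubgroup ℂ) (g : S₂)
    (hT : ∀ (ℓ : ℕ) (hℓ : ℓ.Prime) (hnd : ¬ ℓ ∣ p) (t : 𝕋),
      qCoeff ⇑(heckeTLin 2 hℓ hnd ((t : Module.End ℂ S₂) g)) 1 -
        (1 + ℓ : ℂ) * qCoeff ⇑((t : Module.End ℂ S₂) g) 1 ∈ A)
    (hU : ∀ t : 𝕋, qCoeff ⇑(heckeULin 2 (dvd_refl p) ((t : Module.End ℂ S₂) g)) 1 -
        qCoeff ⇑((t : Module.End ℂ S₂) g) 1 ∈ A) :
    ∀ (k : ℕ) (t : 𝕋), qCoeff ⇑((t : Module.End ℂ S₂) g) k -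
      (sig p k : ℂ) * qCoeff ⇑((t : Module.End ℂ S₂) g) 1 ∈ A := by
  have hp : p.Prime := Fact.out
  intro k
  induction' k using Nat.strong_induction_on with k ih
  intro t
  rcases Nat.lt_or_ge k 2 with hk | hk
  · interval_cases k
    · rw [qCoeff_zero_index, sig_zero]; simp
    · rw [sig_one hp]; simp
  obtain ⟨ℓ, hℓ, k', rfl⟩ := Nat.exists_prime_and_dvd (n := k) (by omega)
  have hk'pos : 0 < k' := by
    rcases Nat.eq_zero_or_pos k' with h0 | h0
    · subst h0; omega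
    · exact h0
  have hlt : k' < ℓ * k' := by have := hℓ.two_le; nlinarith
  by_cases hne : ℓ = p
  · subst hne
    have e := qCoeff_heckeULin hℓ (dvd_refl ℓ) ((t : Module.End ℂ (CuspForm (Gamma0 ℓ) 2)) g) k'
    have e1 := ih k' hlt (heckeAlgebra.U hℓ (dvd_refl ℓ) (Set.notMem_empty _) * t)
    have e2 := du_intCast_mul_mem A (sig ℓ k') (hU t)
    simp only [Subalgebra.coe_mul, heckeAlgebra.coe_U, Module.End.mul_apply] at e1
    rw [← e, sig_self_mul hℓ]
    have := A.add_mem e1 e2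
    convert this using 1
    ring
  · have hnd := du_not_dvd hp hℓ hne
    have e := qCoeff_heckeTLin hℓ hnd ((t : Module.End ℂ S₂) g) k'
    have e1 := ih k' hlt (heckeAlgebra.T hℓ hnd (Set.notMem_empty _) * t)
    have e2 := du_intCast_mul_mem A (sig p k') (hT ℓ hℓ hnd t)
    have e3 := ih (k' / ℓ) (lt_of_le_of_lt (Nat.div_le_self k' ℓ) hlt) t
    have hs := sig_prime_mul hp hℓ hne k'
    simp only [Subalgebra.coe_mul, heckeAlgebra.coe_T, Module.End.mul_apply] at e1
    by_cases hd : ℓ ∣ k'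
    · rw [if_pos hd] at e hs
      have hs' : (sig p (ℓ * k') : ℂ) = (1 + ℓ) * sig p k' - ℓ * sig p (k' / ℓ) := by
        have : sig p (ℓ * k') = (1 + ℓ) * sig p k' - ℓ * sig p (k' / ℓ) := by linarith
        rw [this]; push_cast; ring
      have := A.sub_mem (A.add_mem e1 e2) (du_natCast_mul_mem A ℓ e3)
      convert this using 1
      rw [hs', e]
      ring
    · rw [if_neg hd] at e hs
      have hs' : (sig p (ℓ * k') : ℂ) = (1 + ℓ) * sig p k' := by
        have : sig p (ℓ * k') = (1 + ℓ) * sig p k' := by linarith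
        rw [this]; push_cast; ring
      have := A.add_mem e1 e2
      convert this using 1
      rw [hs', e]
      ring


section Pairing

local notation "LL" => Subtype (fun x => x ∈ intLattice p 2)

/-- the `k`-th coefficient as a `ℤ`-linear map to `ℂ` -/
noncomputable def duQ (k : ℕ) : LL →ₗ[ℤ] ℂ where
  toFun f := qCoeff ⇑(f : S₂) k
  map_add' f g := by simpa using qCoeff_add (f : S₂) (g : S₂) k
  map_smul' c f := by simpa using qCoeff_zsmul c (f : S₂) k

theorem duCast_injective : Function.Injective (Algebra.linearMap ℤ ℂ) :=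
  fun a b h => by simpa using h

theorem duQ_mem_range (k : ℕ) (f : LL) : duQ p k f ∈ LinearMap.range (Algebra.linearMap ℤ ℂ) := by
  obtain ⟨m, hm⟩ := (mem_intLattice_iff (f : S₂)).mp f.2 k
  exact ⟨m, by simpa [duQ] using hm.symm⟩

/-- the `k`-th coefficient as a `ℤ`-linear map to `ℤ` -/
noncomputable def duZ (k : ℕ) : LL →ₗ[ℤ] ℤ :=
  (LinearEquiv.ofInjective (Algebra.linearMap ℤ ℂ) duCast_injective).symm.toLinearMap ∘ₗ
    (duQ p k).codRestrict _ (duQ_mem_range p k)

theorem duZ_spec (k : ℕ) (f : LL) : ((duZ p k f : ℤ) : ℂ) = qCoeff ⇑(f : S₂) k := by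
  have h := (LinearEquiv.ofInjective (Algebra.linearMap ℤ ℂ) duCast_injective).apply_symm_apply
    ((duQ p k).codRestrict _ (duQ_mem_range p k) f)
  have h2 := congrArg Subtype.val h
  have h3 : ((duZ p k f : ℤ) : ℂ) = Algebra.linearMap ℤ ℂ (duZ p k f) := by simp
  rw [h3]
  exact h2

/-- the pairing `(t, f) ↦ a₁(t f)` -/
noncomputable def duB : 𝕋 →ₗ[ℤ] LL →ₗ[ℤ] ℤ :=
  (LinearMap.compRight ℤ (duZ p 1)) ∘ₗ ((latticeActionHom p ∅).toIntAlgHom.toLinearMap)

theorem duB_spec (t : 𝕋) (f : LL) :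
    ((duB p t f : ℤ) : ℂ) = qCoeff ⇑((t : Module.End ℂ S₂) (f : S₂)) 1 := by
  have : duB p t f = duZ p 1 (latticeActionHom p ∅ t f) := rfl
  rw [this, duZ_spec]
  rfl

theorem duB_flip_injective : Function.Injective (duB p).flip := by
  rw [injective_iff_map_eq_zero]
  intro f hf
  have h1 : ∀ t : 𝕋, qCoeff ⇑((t : Module.End ℂ S₂) (f : S₂)) 1 ∈ (⊥ : AddSubgroup ℂ) := by
    intro t
    rw [← duB_spec]
    have : duB p t f = 0 := by
      have := LinearMap.congr_fun hf t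
      simpa using this
    simp [this]
  have h2 := fun k => du_propagate p ⊥ (f : S₂) h1 k 1
  apply Subtype.ext
  apply eq_zero_of_qCoeff_eq_zero
  intro k
  simpa using h2 k

theorem duB_injective : Function.Injective (duB p) := by
  rw [injective_iff_map_eq_zero]
  intro t ht
  apply latticeActionHom_injective p ∅ (Fermat.Agent.S23.result p)
  rw [map_zero]
  apply LinearMap.ext
  intro f
  apply Subtype.ext
  change (t : Module.End ℂ S₂) (f : S₂) = 0
  have h1 : ∀ s : 𝕋, qCoeff ⇑((s : Module.End ℂ S₂) ((t : Module.End ℂ S₂) (f : S₂))) 1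
      ∈ (⊥ : AddSubgroup ℂ) := by
    intro s
    have e : (s : Module.End ℂ S₂) ((t : Module.End ℂ S₂) (f : S₂)) =
        (t : Module.End ℂ S₂) ((latticeActionHom p ∅ s f : LL) : S₂) := by
      have := congrArg (fun x : 𝕋 => (x : Module.End ℂ S₂) (f : S₂)) (mul_comm s t)
      simp only [Subalgebra.coe_mul, Module.End.mul_apply] at this
      exact this
    rw [e, ← duB_spec, ht]
    simp
  have h2 := fun k => du_propagate p ⊥ _ h1 k 1
  apply eq_zero_of_qCoeff_eq_zero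
  intro k
  simpa using h2 k

end Pairing

end Fermat.Agent.S16Lib
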