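import Fermat.Agent.S16.Sharp
import Fermat.Agent.S28.IsQ
import Fermat.Agent.S20.LevelOne
import Fermat.Prelude.Thm_UpperHalfPlane_qCoeff_heckeU
import Fermat.Prelude.Thm_ModularForm_periodic_heckeU_comp_ofComplex
import Fermat.Prelude.Thm_ModularForm_mdifferentiable_heckeU
import Fermat.Prelude.Thm_ModularForm_isBoundedAtImInfty_heckeU

/-!
# S16, upper bound, leaf (FD): API for pairs (`q`-expansion, `q`-expansion of the Fricke dual)
-/

set_option autoImplicit false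

open UpperHalfPlane ModularForm Matrix.SpecialLinearGroup CongruenceSubgroup
open scoped MatrixGroups Manifold
open Fermat.Agent.S20Lib Fermat.Agent.S28Lib

namespace Fermat.Agent.S16Lib

noncomputable section

variable {p : ℕ} [Fact p.Prime]

theorem FD.add {k : ℤ} {φ φs χ χs : PowerSeries ℂ} (h : FD p k φ φs) (h' : FD p k χ χs) :
    FD p k (φ + χ) (φs + χs) := by
  obtain ⟨F, hF, rfl, rfl⟩ := h
  obtain ⟨G, hG, rfl, rfl⟩ := h'
  refine ⟨F + G, hF.add hG, qExpansion_add (IsQAux.analytic hF) (IsQAux.analytic hG), ?_⟩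
  rw [sharp_add, qExpansion_add (IsQAux.analytic (sharp_isMF p hF))
    (IsQAux.analytic (sharp_isMF p hG))]

theorem FD.smul {k : ℤ} {φ φs : PowerSeries ℂ} (c : ℂ) (h : FD p k φ φs) :
    FD p k (c • φ) (c • φs) := by
  obtain ⟨F, hF, rfl, rfl⟩ := h
  refine ⟨c • F, hF.smul c, qExpansion_smul (IsQAux.analytic hF) c, ?_⟩
  rw [sharp_smul, qExpansion_smul (IsQAux.analytic (sharp_isMF p hF))]

theorem FD.mul {k l : ℤ} {φ φs χ χs : PowerSeries ℂ} (h : FD p k φ φs) (h' : FD p l χ χs) :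
    FD p (k + l) (φ * χ) (φs * χs) := by
  obtain ⟨F, hF, rfl, rfl⟩ := h
  obtain ⟨G, hG, rfl, rfl⟩ := h'
  refine ⟨F * G, hF.mul hG, qExpansion_mul (IsQAux.analytic hF) (IsQAux.analytic hG), ?_⟩
  rw [sharp_mul, qExpansion_mul (IsQAux.analytic (sharp_isMF p hF))
    (IsQAux.analytic (sharp_isMF p hG))]

theorem FD.levelOne {k : ℤ} {B : ℍ → ℂ} (hB : IsMF ⊤ k B) :
    FD p k (qExpansion 1 B) (PowerSeries.expand p (Fact.out : p.Prime).ne_zero (qExpansion 1 B)) := by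
  refine ⟨B, hB.mono le_top, rfl, ?_⟩
  rw [sharp_levelOne p hB]
  exact qExpansion_dilate (IsQAux.qi_top (N := 1) (hB.mono le_top)) _

theorem FD.one : FD p 0 1 1 := by
  have h1 : IsMF ⊤ 0 (1 : ℍ → ℂ) := by
    refine ⟨mdifferentiable_const, fun γ _ => is_invariant_one γ, fun γ => ?_⟩
    rw [is_invariant_one γ]
    exact Filter.const_boundedAtFilter _ (1 : ℂ)
  have := FD.levelOne (p := p) h1
  rw [qExpansion_one] at this
  simpa using this

theorem FD.pow {k : ℤ} {φ φs : PowerSeries ℂ} (h : FD p k φ φs) (n : ℕ) :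
    FD p (n * k) (φ ^ n) (φs ^ n) := by
  induction n with
  | zero => simpa using FD.one (p := p)
  | succ n ih =>
    have := ih.mul h
    rw [pow_succ, pow_succ]
    convert this using 1
    push_cast; ring

theorem FD.swap {k : ℤ} (hk : Even k) {φ φs : PowerSeries ℂ} (h : FD p k φ φs) :
    FD p k φs (((p : ℂ) ^ (-k)) • φ) := by
  obtain ⟨F, hF, rfl, rfl⟩ := h
  refine ⟨sharp p k F, sharp_isMF p hF, rfl, ?_⟩
  rw [sharp_sharp p hk, qExpansion_smul (IsQAux.analytic hF)]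

theorem FDAux.utr_eq_heckeMatrix (j : ℕ) (τ : ℍ) : utr 1 j p τ = heckeMatrix p j • τ := by
  have hp : p ≠ 0 := (Fact.out : p.Prime).ne_zero
  have h : ((1 : ℕ) : ℝ) * (p : ℝ) ≠ 0 := by simpa using hp
  rw [utr, dif_pos h, heckeMatrix, dif_neg hp]
  congr 1
  apply Units.ext
  simp

/-- `q`-expansion of the trace to level one -/
theorem FD.trace {k : ℤ} {φ φs : PowerSeries ℂ} (h : FD p k φ φs) :
    ∃ T : ℍ → ℂ, IsMF ⊤ k T ∧ ∀ n, (qExpansion 1 T).coeff n = φ.coeff n + p * φs.coeff (p * n) := by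
  obtain ⟨F, hF, rfl, rfl⟩ := h
  have hp : p ≠ 0 := (Fact.out : p.Prime).ne_zero
  have hpC : (p : ℂ) ≠ 0 := by exact_mod_cast hp
  refine ⟨_, trace_isMF p hF, fun n => ?_⟩
  set W := sharp p k F with hW
  have hWmf : IsMF (Gamma0 p) k W := sharp_isMF p hF
  have hsum : (∑ j ∈ Finset.range p, fun τ => W (utr 1 j p τ)) = (p : ℂ) • heckeU k p W := by
    funext τ
    rw [Pi.smul_apply, heckeU_apply k hp, Finset.sum_apply, smul_eq_mul, ← mul_assoc,
      mul_inv_cancel₀ hpC, one_mul]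
    exact Finset.sum_congr rfl fun j _ => by rw [FDAux.utr_eq_heckeMatrix]
  have hper := IsQAux.periodic hWmf
  have hbdd : IsBoundedAtImInfty W := by simpa using hWmf.bdd 1
  have hanU : AnalyticAt ℂ (cuspFunction 1 (heckeU k p W)) 0 :=
    analyticAt_cuspFunction_zero one_pos
      (by simpa using ModularForm.periodic_heckeU_comp_ofComplex hper k p)
      (ModularForm.mdifferentiable_heckeU hWmf.holo k p)
      (ModularForm.isBoundedAtImInfty_heckeU hbdd k p)
  have hcoeff := UpperHalfPlane.qCoeff_heckeU hper hWmf.holo hbdd k hp n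
  rw [ModularForm.coeffHeckeU_apply] at hcoeff
  have hcoeff' : (qExpansion 1 (heckeU k p W)).coeff n = (qExpansion 1 W).coeff (n * p) := hcoeff
  have hanU' : AnalyticAt ℂ (cuspFunction 1 ((p : ℂ) • heckeU k p W)) 0 := by
    rw [cuspFunction_smul hanU.continuousAt]
    exact hanU.const_smul
  rw [hsum, qExpansion_add (IsQAux.analytic hF) hanU', qExpansion_smul hanU, map_add,
    PowerSeries.coeff_smul, hcoeff', mul_comm n p, smul_eq_mul]

/-- weight two: `M₂(SL₂ℤ) = 0` gives `G^♯ = - p⁻¹ U_p G` -/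
theorem FD.two {φ φs : PowerSeries ℂ} (h : FD p 2 φ φs) : φs = (-(p : ℂ)⁻¹) • Up p φ := by
  have hp : p ≠ 0 := (Fact.out : p.Prime).ne_zero
  have hpC : (p : ℂ) ≠ 0 := by exact_mod_cast hp
  obtain ⟨T, hT, hc⟩ := (h.swap even_two).trace
  have hT0 : T = 0 := isMF_top_two_eq_zero hT
  ext n
  have := hc n
  rw [hT0, qExpansion_zero] at this
  simp only [map_zero, PowerSeries.coeff_smul, smul_eq_mul] at this
  rw [PowerSeries.coeff_smul, coeff_Up, smul_eq_mul]
  have h2 : (p : ℂ) * ((p : ℂ) ^ (-2 : ℤ) * φ.coeff (p * n)) = (p : ℂ)⁻¹ * φ.coeff (p * n) := by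
    rw [zpow_neg, zpow_two]
    field_simp
  rw [h2] at this
  linear_combination -this

theorem FD.two_Up {φ φs : PowerSeries ℂ} (h : FD p 2 φ φs) :
    FD p 2 (Up p φ) ((-(p : ℂ)⁻¹) • φ) ∧ Up p (Up p φ) = φ := by
  have hp : p ≠ 0 := (Fact.out : p.Prime).ne_zero
  have hpC : (p : ℂ) ≠ 0 := by exact_mod_cast hp
  have h1 := h.two
  have h2 := (h.swap even_two).smul (-(p : ℂ))
  have e1 : (-(p : ℂ)) • φs = Up p φ := by
    rw [h1, smul_smul]
    have : -(p : ℂ) * -(p : ℂ)⁻¹ = 1 := by field_simp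
    rw [this, one_smul]
  have e2 : (-(p : ℂ)) • ((p : ℂ) ^ (-2 : ℤ) • φ) = (-(p : ℂ)⁻¹) • φ := by
    rw [smul_smul]
    congr 1
    rw [zpow_neg, zpow_two]
    field_simp
  rw [e1, e2] at h2
  refine ⟨h2, ?_⟩
  have h3 := h2.two
  have h4 : (-(p : ℂ)) • ((-(p : ℂ)⁻¹) • φ) = (-(p : ℂ)) • ((-(p : ℂ)⁻¹) • Up p (Up p φ)) := by
    rw [h3]
  rw [smul_smul, smul_smul] at h4
  have : -(p : ℂ) * -(p : ℂ)⁻¹ = 1 := by field_simp
  rw [this, one_smul, one_smul] at h4
  exact h4.symm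

end

end Fermat.Agent.S16Lib
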