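import Mathlib
import Fermat.Agent.S16.Lower.Final

set_option autoImplicit false

/-!
# S16: the lower bound `n ∣ m` in the interface form
-/

namespace Fermat.Agent.S16Lib

theorem eis_dvd_of_eval_eq_zero (p : ℕ) [Fact p.Prime] (t : ModularCurve.HeckeAlg)
    (ht : CuspForm.heckeEvalForms p 2 t = 0) :
    (ModularCurve.eisensteinNumerator p : ℤ) ∣
      MvPolynomial.aeval (ModularCurve.eisensteinSystem p) t :=
  eisensteinNumerator_dvd_of_eval_eq_zero p (tfStmt p) t ht

end Fermat.Agent.S16Lib
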