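import Fermat.Agent.S16.UBDefs
import Fermat.Agent.Lib.Modular.LevelRaise
import Fermat.Agent.S20.Cosets

/-!
# S16, upper bound, leaf (SH): the Fricke dual `sharp` and the trace to level one
-/

set_option autoImplicit false
set_option linter.unusedSectionVars false

open UpperHalfPlane ModularForm Matrix.SpecialLinearGroup CongruenceSubgroup
open scoped MatrixGroups Manifold
open Fermat.Agent.S20Lib Fermat.Agent.S28Lib

namespace Fermat.Agent.S16Lib

noncomputable section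

variable (p : ℕ) [Fact p.Prime]

theorem sharp_apply (k : ℤ) (F : ℍ → ℂ) (τ : ℍ) :
    sharp p k F τ = ((p : ℂ) * τ) ^ (-k) * F (ModularGroup.S • utr p 0 1 τ) := by
  have hp : 0 < p := (Fact.out : p.Prime).pos
  unfold sharp
  rw [ModularForm.SL_slash_apply, mul_comm, ModularGroup.denom_S, coe_utr hp one_pos]
  simp

namespace SH

open Fermat.Agent.LevelRaise TranslateAux

lemma sharp_eq_raise (k : ℤ) (F : ℍ → ℂ) :
    sharp p k F = raise p (F ∣[k] ModularGroup.S) := by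
  have hp : p ≠ 0 := (Fact.out : p.Prime).ne_zero
  funext τ
  rw [raise_apply, ← utr_eq_heckeDiag hp]
  rfl

lemma sharp_eq_smul (k : ℤ) (F : ℍ → ℂ) :
    sharp p k F = ((p : ℂ) ^ (k - 1))⁻¹ •
      (F ∣[k] (((ModularGroup.S : SL(2, ℤ)) : GL (Fin 2) ℝ) * heckeDiagMatrix p)) := by
  have hp : p ≠ 0 := (Fact.out : p.Prime).ne_zero
  rw [sharp_eq_raise, raise_eq k hp, SL_slash, ← SlashAction.slash_mul]

/-- `S D γ = γ' S D` -/
lemma exists_comm (γ : SL(2, ℤ)) (hγ : γ ∈ Gamma0 p) :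
    ∃ γ' ∈ Gamma0 p, ((ModularGroup.S : SL(2, ℤ)) : GL (Fin 2) ℝ) * heckeDiagMatrix p *
      (γ : GL (Fin 2) ℝ) = (γ' : GL (Fin 2) ℝ) * (((ModularGroup.S : SL(2, ℤ)) : GL (Fin 2) ℝ) *
        heckeDiagMatrix p) := by
  have hp : p ≠ 0 := (Fact.out : p.Prime).ne_zero
  rw [Gamma0_mem, ZMod.intCast_zmod_eq_zero_iff_dvd] at hγ
  obtain ⟨c', hc'⟩ := hγ
  have hdet := det_eq γ
  obtain ⟨γ', e00, e01, e10, e11⟩ : ∃ γ' : SL(2, ℤ), γ' 0 0 = γ 1 1 ∧ γ' 0 1 = -c' ∧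
      γ' 1 0 = -(p : ℤ) * γ 0 1 ∧ γ' 1 1 = γ 0 0 :=
    ⟨⟨!![γ 1 1, -c'; -(p : ℤ) * γ 0 1, γ 0 0], by
      rw [Matrix.det_fin_two_of]; rw [hc'] at hdet; linear_combination hdet⟩, rfl, rfl, rfl, rfl⟩
  refine ⟨γ', ?_, ?_⟩
  · rw [Gamma0_mem, ZMod.intCast_zmod_eq_zero_iff_dvd, e10]
    exact ⟨-γ 0 1, by ring⟩
  · apply Units.ext
    simp only [Units.val_mul, val_heckeDiagMatrix hp]
    ext i j
    fin_cases i <;> fin_cases j
    · simp [Matrix.mul_apply, Fin.sum_univ_two, e00, e01, ModularGroup.coe_S, hc']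
      ring
    · simp [Matrix.mul_apply, Fin.sum_univ_two, e00, e01, ModularGroup.coe_S]
    · simp [Matrix.mul_apply, Fin.sum_univ_two, e10, e11, ModularGroup.coe_S]
      ring
    · simp [Matrix.mul_apply, Fin.sum_univ_two, e10, e11, ModularGroup.coe_S]

lemma bdd_slash_triMat (k : ℤ) {A D : ℕ} (hA : A ≠ 0) (hD : D ≠ 0) (B : ℤ) {f : ℍ → ℂ}
    (hf : IsBoundedAtImInfty f) : IsBoundedAtImInfty (f ∣[k] triMat A D B) := by
  have h1 : IsBoundedAtImInfty (fun τ : ℍ => f (triMat A D B • τ)) :=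
    Asymptotics.IsBigO.comp_tendsto hf (tendsto_triMat_smul hA hD B)
  have h2 : f ∣[k] triMat A D B =
      (((A : ℂ) * D) ^ (k - 1) * (D : ℂ) ^ (-k)) • (fun τ : ℍ => f (triMat A D B • τ)) := by
    funext τ; rw [slash_triMat_apply k hA hD]; rfl
  rw [h2]
  exact h1.const_smul_left _

lemma coe_S_smul (z : ℍ) : ((ModularGroup.S • z : ℍ) : ℂ) = (-(z : ℂ))⁻¹ := by
  rw [UpperHalfPlane.modular_S_smul]

/-- the bottom row determines the coset `Γ₀(p) γ` -/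
lemma slash_eq_of_dvd {k : ℤ} {F : ℍ → ℂ} (hF : ∀ γ ∈ Gamma0 p, F ∣[k] γ = F) (γ δ : SL(2, ℤ))
    (h : (p : ℤ) ∣ γ 1 0 * δ 1 1 - γ 1 1 * δ 1 0) : F ∣[k] γ = F ∣[k] δ := by
  have hmem : γ * δ⁻¹ ∈ Gamma0 p := by
    rw [Gamma0_mem, ZMod.intCast_zmod_eq_zero_iff_dvd]
    have : (γ * δ⁻¹) 1 0 = γ 1 0 * δ 1 1 - γ 1 1 * δ 1 0 := by
      rw [Matrix.SpecialLinearGroup.coe_mul, coe_inv, Matrix.adjugate_fin_two, Matrix.mul_apply, Fin.sum_univ_two]
      simp; ring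
    rw [this]; exact h
  have : γ = γ * δ⁻¹ * δ := by group
  conv_lhs => rw [this, SlashAction.slash_mul, hF _ hmem]

lemma slash_ST (k : ℤ) (F : ℍ → ℂ) (j : ℕ) (τ : ℍ) :
    (F ∣[k] (ModularGroup.S * ModularGroup.T ^ (j : ℤ))) τ = sharp p k F (utr 1 j p τ) := by
  have hp : 0 < p := (Fact.out : p.Prime).pos
  have hp' : (p : ℂ) ≠ 0 := by exact_mod_cast hp.ne'
  rw [SlashAction.slash_mul, SL_slash_apply, ModularGroup.denom_apply, ModularGroup.coe_T_zpow]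
  have : ModularGroup.T ^ (j : ℤ) • τ = utr p 0 1 (utr 1 j p τ) := by
    ext
    rw [ModularGroup.coe_T_zpow_smul_eq, coe_utr hp one_pos, coe_utr one_pos hp]
    field_simp
    simp
  rw [this]
  simp [sharp]

lemma ST_one_zero (j : ℤ) : (ModularGroup.S * ModularGroup.T ^ j) 1 0 = 1 := by
  simp [Matrix.SpecialLinearGroup.coe_mul, ModularGroup.coe_S, ModularGroup.coe_T_zpow, Matrix.mul_apply, Fin.sum_univ_two]

lemma ST_one_one (j : ℤ) : (ModularGroup.S * ModularGroup.T ^ j) 1 1 = j := by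
  simp [Matrix.SpecialLinearGroup.coe_mul, ModularGroup.coe_S, ModularGroup.coe_T_zpow, Matrix.mul_apply, Fin.sum_univ_two]

/-- solving `c j ≡ d mod p` -/
lemma exists_j {c : ℤ} (hc : ¬ (p : ℤ) ∣ c) (d : ℤ) : ∃ j < p, (p : ℤ) ∣ c * (j : ℤ) - d := by
  have hc' : (c : ZMod p) ≠ 0 := by rwa [Ne, ZMod.intCast_zmod_eq_zero_iff_dvd]
  refine ⟨((d : ZMod p) * (c : ZMod p)⁻¹).val, ZMod.val_lt _, ?_⟩
  rw [← ZMod.intCast_zmod_eq_zero_iff_dvd]
  push_cast
  rw [ZMod.natCast_zmod_val]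
  field_simp
  simp

end SH

open SH Fermat.Agent.LevelRaise

theorem sharp_isMF {k : ℤ} {F : ℍ → ℂ} (hF : IsMF (Gamma0 p) k F) :
    IsMF (Gamma0 p) k (sharp p k F) where
  holo := by
    rw [sharp_eq_raise]
    exact raise_mdiff (Fact.out : p.Prime).ne_zero (hF.slash_holo _)
  inv γ hγ := by
    obtain ⟨γ', hγ', h⟩ := exists_comm p γ hγ
    rw [sharp_eq_smul, SL_smul_slash, SL_slash, ← SlashAction.slash_mul, h,
      SlashAction.slash_mul, ← SL_slash, hF.inv γ' hγ']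
  bdd γ := by
    have hp : p ≠ 0 := (Fact.out : p.Prime).ne_zero
    obtain ⟨A, D, B, γ', hAD, -, h⟩ := exists_decomp p hp γ
    have hA0 : A ≠ 0 := by rintro rfl; simp at hAD; exact hp hAD.symm
    have hD0 : D ≠ 0 := by rintro rfl; simp at hAD; exact hp hAD.symm
    rw [sharp_eq_raise, raise_eq k hp, SL_smul_slash, SL_slash, ← SlashAction.slash_mul, h,
      SlashAction.slash_mul, ← SL_slash]
    exact (bdd_slash_triMat k hA0 hD0 B (hF.slash_bdd _ _)).const_smul_left _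

theorem sharp_sharp {k : ℤ} (hk : Even k) (F : ℍ → ℂ) :
    sharp p k (sharp p k F) = ((p : ℂ) ^ (-k)) • F := by
  have hp : 0 < p := (Fact.out : p.Prime).pos
  have hp' : (p : ℂ) ≠ 0 := by exact_mod_cast hp.ne'
  funext τ
  have hτ : (τ : ℂ) ≠ 0 := ne_zero τ
  have h1 : ModularGroup.S • utr p 0 1 (ModularGroup.S • utr p 0 1 τ) = τ := by
    ext
    rw [coe_S_smul, coe_utr hp one_pos, coe_S_smul, coe_utr hp one_pos]
    field_simp
    simp
    rw [div_neg, neg_neg, mul_div_cancel_left₀ _ hp']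
  rw [sharp_apply, sharp_apply, h1, coe_S_smul, coe_utr hp one_pos, Pi.smul_apply, smul_eq_mul,
    ← mul_assoc, ← mul_zpow]
  congr 1
  have h2 : (p : ℂ) * τ * ((p : ℂ) * (-(((p : ℂ) * τ + (0 : ℕ)) / (1 : ℕ)))⁻¹) = -(p : ℂ) := by
    field_simp
    simp
  rw [h2, hk.neg.neg_zpow]

theorem slash_cases {k : ℤ} {F : ℍ → ℂ} (hF : IsMF (Gamma0 p) k F) (γ : SL(2, ℤ)) :
    F ∣[k] γ = F ∨ ∃ j < p, ∀ τ, (F ∣[k] γ) τ = sharp p k F (utr 1 j p τ) := by
  by_cases hc : (p : ℤ) ∣ γ 1 0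
  · left
    exact hF.inv γ (by rwa [Gamma0_mem, ZMod.intCast_zmod_eq_zero_iff_dvd])
  · right
    obtain ⟨j, hj, h⟩ := exists_j p hc (γ 1 1)
    refine ⟨j, hj, fun τ => ?_⟩
    rw [← slash_ST, slash_eq_of_dvd p hF.inv γ (ModularGroup.S * ModularGroup.T ^ (j : ℤ))]
    rw [ST_one_zero, ST_one_one]
    simpa using h

theorem sharp_levelOne {k : ℤ} {B : ℍ → ℂ} (hB : IsMF ⊤ k B) :
    sharp p k B = fun τ => B (utr p 0 1 τ) := by
  unfold sharp
  rw [hB.top_slash]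

theorem sharp_mul (k l : ℤ) (F G : ℍ → ℂ) :
    sharp p (k + l) (F * G) = sharp p k F * sharp p l G := by
  unfold sharp
  rw [mul_slash_SL2]
  rfl

theorem sharp_add (k : ℤ) (F G : ℍ → ℂ) :
    sharp p k (F + G) = sharp p k F + sharp p k G := by
  unfold sharp
  rw [SlashAction.add_slash]
  rfl

theorem sharp_smul (k : ℤ) (c : ℂ) (F : ℍ → ℂ) : sharp p k (c • F) = c • sharp p k F := by
  unfold sharp
  rw [SL_smul_slash]
  rfl

namespace SH

lemma isMF_sum_conj {Γ : Subgroup SL(2, ℤ)} [Fintype (SL(2, ℤ) ⧸ Γ)] {k : ℤ} {F : ℍ → ℂ}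
    (hF : IsMF Γ k F) : IsMF ⊤ k (∑ x : SL(2, ℤ) ⧸ Γ, conj Γ k F x) := by
  have hinv : ∀ γ : SL(2, ℤ), (∑ x : SL(2, ℤ) ⧸ Γ, conj Γ k F x) ∣[k] γ =
      ∑ x : SL(2, ℤ) ⧸ Γ, conj Γ k F x := by
    intro γ
    rw [SlashAction.sum_slash]
    simp_rw [conj_slash hF.inv]
    exact Equiv.sum_comp (MulAction.toPerm γ⁻¹) _
  exact ⟨EsymmAux.mdiff_sum _ _ fun x _ => hF.conj_holo x, fun γ _ => hinv γ, fun γ => by
    rw [hinv]; exact EsymmAux.bdd_sum _ _ fun x _ => hF.conj_bdd x⟩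

lemma inv_zero_zero (g : SL(2, ℤ)) : g⁻¹ 0 0 = g 1 1 := by
  rw [coe_inv, Matrix.adjugate_fin_two]; simp

lemma inv_one_zero (g : SL(2, ℤ)) : g⁻¹ 1 0 = - g 1 0 := by
  rw [coe_inv, Matrix.adjugate_fin_two]; simp

/-- coset representatives of `SL(2,ℤ) ⧸ Γ₀(p)` -/
def rep : Option (Fin p) → SL(2, ℤ) ⧸ Gamma0 p
  | none => ((1 : SL(2, ℤ)) : SL(2, ℤ) ⧸ Gamma0 p)
  | some j =>
    (((ModularGroup.S * ModularGroup.T ^ ((j : ℕ) : ℤ))⁻¹ : SL(2, ℤ)) : SL(2, ℤ) ⧸ Gamma0 p)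

lemma not_dvd_one : ¬ (p : ℤ) ∣ 1 := by
  intro h
  have := Int.eq_one_of_dvd_one (by positivity) h
  have h2 := (Fact.out : p.Prime).one_lt
  omega

lemma rep_bijective : Function.Bijective (rep p) := by
  constructor
  · rintro (_ | i) (_ | j) h
    · rfl
    · exfalso
      simp only [rep] at h
      rw [mk_eq_mk_iff, inv_zero_zero, inv_one_zero, ST_one_zero, ST_one_one] at h
      apply not_dvd_one p
      simpa using h
    · exfalso
      simp only [rep] at h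
      rw [mk_eq_mk_iff, inv_zero_zero, inv_one_zero, ST_one_zero, ST_one_one] at h
      apply not_dvd_one p
      simpa using h
    · simp only [rep] at h
      rw [mk_eq_mk_iff, inv_zero_zero, inv_one_zero, inv_zero_zero, inv_one_zero, ST_one_zero,
        ST_one_one, ST_one_zero, ST_one_one] at h
      have h' : (p : ℤ) ∣ ((j : ℕ) : ℤ) - ((i : ℕ) : ℤ) := by
        convert h using 1; ring
      have := (Nat.modEq_iff_dvd.mpr h').eq_of_lt_of_lt i.2 j.2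
      exact congrArg some (Fin.ext this)
  · intro x
    induction x using QuotientGroup.induction_on with
    | H g =>
      by_cases hc : (p : ℤ) ∣ g 1 0
      · refine ⟨none, ?_⟩
        simp only [rep]
        rw [mk_eq_mk_iff]
        simpa using hc
      · obtain ⟨j, hj, h⟩ := exists_j p hc (- g 0 0)
        refine ⟨some ⟨j, hj⟩, ?_⟩
        simp only [rep]
        rw [mk_eq_mk_iff, inv_zero_zero, inv_one_zero, ST_one_zero, ST_one_one]
        convert h using 1; ring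

end SH

/-- the trace to level one -/
theorem trace_isMF {k : ℤ} {F : ℍ → ℂ} (hF : IsMF (Gamma0 p) k F) :
    IsMF ⊤ k (F + ∑ j ∈ Finset.range p, fun τ => sharp p k F (utr 1 j p τ)) := by
  have : NeZero p := ⟨(Fact.out : p.Prime).ne_zero⟩
  have h := isMF_sum_conj (Γ := Gamma0 p) hF
  have e : ∑ x, conj (Gamma0 p) k F x =
      F + ∑ j ∈ Finset.range p, fun τ => sharp p k F (utr 1 j p τ) := by
    rw [← (Equiv.ofBijective _ (rep_bijective p)).sum_comp, Fintype.sum_option,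
      ← Fin.sum_univ_eq_sum_range (fun j => fun τ => sharp p k F (utr 1 j p τ))]
    congr 1
    · exact conj_one hF.inv
    · refine Finset.sum_congr rfl fun j _ => ?_
      funext τ
      show conj _ _ _ (rep p (some j)) τ = _
      rw [rep, conj_mk hF.inv, inv_inv, slash_ST p]
  rwa [e] at h

end

end Fermat.Agent.S16Lib
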