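import Fermat.Agent.S16.Defs

set_option autoImplicit false

namespace Fermat.Agent.S16Lib

open Finset

theorem sig_zero (p : ℕ) : sig p 0 = 0 := by simp [sig]

theorem sig_one {p : ℕ} (hp : p.Prime) : sig p 1 = 1 := by
  have : ¬ p ∣ 1 := fun h => hp.one_lt.ne' (Nat.dvd_one.mp h)
  simp [sig, Finset.filter_singleton, this]

theorem sigAux_divisors_prime_mul {ℓ k : ℕ} (hℓ : ℓ.Prime) (hk : k ≠ 0) :
    (ℓ * k).divisors = k.divisors ∪ k.divisors.image (ℓ * ·) := by
  ext d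
  simp only [Nat.mem_divisors, mem_union, mem_image, ne_eq, mul_eq_zero, hℓ.ne_zero, hk,
    or_self, not_false_eq_true, and_true]
  constructor
  · intro h
    by_cases hd : ℓ ∣ d
    · obtain ⟨d', rfl⟩ := hd
      exact Or.inr ⟨d', Nat.dvd_of_mul_dvd_mul_left hℓ.pos h, rfl⟩
    · exact Or.inl (((Nat.Prime.coprime_iff_not_dvd hℓ).mpr hd).symm.dvd_of_dvd_mul_left h)
  · rintro (h | ⟨d', h, rfl⟩)
    · exact h.mul_left ℓ
    · exact Nat.mul_dvd_mul_left ℓ h

theorem sigAux_inter {ℓ k : ℕ} (hℓ : ℓ.Prime) (hk : k ≠ 0) :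
    k.divisors ∩ k.divisors.image (ℓ * ·) =
      if ℓ ∣ k then (k / ℓ).divisors.image (ℓ * ·) else ∅ := by
  ext d
  split_ifs with h
  · have hk' : k / ℓ ≠ 0 := by
      obtain ⟨c, rfl⟩ := h
      rw [Nat.mul_div_cancel_left _ hℓ.pos]
      rintro rfl
      simp at hk
    simp only [mem_inter, Nat.mem_divisors, mem_image, ne_eq, hk, not_false_eq_true, and_true, hk']
    constructor
    · rintro ⟨h1, d', -, rfl⟩
      exact ⟨d', Nat.dvd_div_of_mul_dvd h1, rfl⟩
    · rintro ⟨d', h1, rfl⟩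
      have h2 : ℓ * d' ∣ k := Nat.mul_dvd_of_dvd_div h h1
      exact ⟨h2, d', (Dvd.intro_left ℓ rfl).trans h2, rfl⟩
  · simp only [mem_inter, Nat.mem_divisors, mem_image, ne_eq, hk, not_false_eq_true, and_true,
      notMem_empty, iff_false, not_and, not_exists]
    rintro h1 d' - rfl
    exact h ((Dvd.intro d' rfl).trans h1)

theorem sigAux_sum_image {p ℓ : ℕ} (hp : p.Prime) (hℓ : ℓ.Prime) (hne : ℓ ≠ p) (D : Finset ℕ) :
    ∑ d ∈ (D.image (ℓ * ·)).filter (fun d => ¬ p ∣ d), (d : ℤ) =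
      ℓ * ∑ d ∈ D.filter (fun d => ¬ p ∣ d), (d : ℤ) := by
  have hinj : Function.Injective (ℓ * ·) := fun a b h => Nat.eq_of_mul_eq_mul_left hℓ.pos h
  rw [Finset.filter_image, Finset.sum_image (fun a _ b _ h => hinj h), Finset.mul_sum]
  have : ∀ d, (¬ p ∣ ℓ * d) ↔ ¬ p ∣ d := by
    intro d
    rw [hp.dvd_mul]
    have : ¬ p ∣ ℓ := fun h => hne ((Nat.prime_dvd_prime_iff_eq hp hℓ).mp h).symm
    tauto
  simp only [this]
  exact Finset.sum_congr rfl fun d _ => by push_cast; ring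

/-- the Hecke relation at a prime `ℓ ≠ p` -/
theorem sig_prime_mul {p ℓ : ℕ} (hp : p.Prime) (hℓ : ℓ.Prime) (hne : ℓ ≠ p) (k : ℕ) :
    sig p (ℓ * k) + ℓ * (if ℓ ∣ k then sig p (k / ℓ) else 0) = (1 + ℓ) * sig p k := by
  rcases eq_or_ne k 0 with rfl | hk
  · simp [sig_zero]
  have h := Finset.sum_union_inter (s₁ := k.divisors.filter (fun d => ¬ p ∣ d))
    (s₂ := (k.divisors.image (ℓ * ·)).filter (fun d => ¬ p ∣ d)) (f := fun d : ℕ => (d : ℤ))
  rw [← Finset.filter_union, ← sigAux_divisors_prime_mul hℓ hk, ← Finset.filter_inter_distrib,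
    sigAux_inter hℓ hk, sigAux_sum_image hp hℓ hne] at h
  unfold sig
  split_ifs at h ⊢ with hd
  · rw [sigAux_sum_image hp hℓ hne] at h
    linarith
  · simp only [filter_empty, sum_empty, add_zero] at h
    linarith

/-- the Hecke relation at `p` -/
theorem sig_self_mul {p : ℕ} (hp : p.Prime) (k : ℕ) : sig p (p * k) = sig p k := by
  rcases eq_or_ne k 0 with rfl | hk
  · simp
  unfold sig
  rw [sigAux_divisors_prime_mul hp hk, Finset.filter_union]
  have : (k.divisors.image (p * ·)).filter (fun d => ¬ p ∣ d) = ∅ := by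
    ext d
    simp only [mem_filter, mem_image, notMem_empty, iff_false, not_and, not_not]
    rintro ⟨d', -, rfl⟩
    exact Dvd.intro d' rfl
  rw [this, Finset.union_empty]

end Fermat.Agent.S16Lib
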