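import Fermat.Agent.S28.Esymm
import Fermat.Agent.S28.QI

/-!
# S16, upper bound: shared definitions

* `Zloc r`  : rational numbers with denominator prime to `r`, as a subring of `ℂ`
* `Oint r`  : algebraic numbers `x` such that `b x` is an algebraic integer for some `b` prime to `r`
* `sharp p k F` : `τ ↦ (F ∣[k] S) (p τ)` (Fricke dual, up to a power of `p`)
* `FD p k φ φs` : `φ`, `φs` are the `q`-expansions of a form of weight `k` on `Γ₀(p)` and of its dual
* `Up p φ` : the formal operator `U_p`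
-/

set_option autoImplicit false

open UpperHalfPlane ModularForm Matrix.SpecialLinearGroup
open scoped MatrixGroups Manifold
open Fermat.Agent.S20Lib Fermat.Agent.S28Lib

namespace Fermat.Agent.S16Lib

noncomputable section

/-- rational numbers with denominator prime to `r`, inside `ℂ` -/
def Zloc (r : ℕ) [Fact r.Prime] : Subring ℂ where
  carrier := {x | ∃ a b : ℤ, ¬ (r : ℤ) ∣ b ∧ x = (a : ℂ) / b}
  mul_mem' := by
    rintro x y ⟨a, b, hb, rfl⟩ ⟨c, d, hd, rfl⟩
    refine ⟨a * c, b * d, fun h => ?_, by push_cast; ring⟩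
    rcases (Nat.prime_iff_prime_int.mp (Fact.out : r.Prime)).dvd_or_dvd h with h | h
    · exact hb h
    · exact hd h
  one_mem' := ⟨1, 1, fun h => by
    have := Int.eq_one_of_dvd_one (by positivity) h
    have h2 := (Fact.out : r.Prime).one_lt
    omega, by simp⟩
  add_mem' := by
    rintro x y ⟨a, b, hb, rfl⟩ ⟨c, d, hd, rfl⟩
    have hb0 : (b : ℂ) ≠ 0 := by
      intro h; apply hb; have : b = 0 := by exact_mod_cast h
      simp [this]
    have hd0 : (d : ℂ) ≠ 0 := by
      intro h; apply hd; have : d = 0 := by exact_mod_cast h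
      simp [this]
    refine ⟨a * d + c * b, b * d, fun h => ?_, by push_cast; field_simp⟩
    rcases (Nat.prime_iff_prime_int.mp (Fact.out : r.Prime)).dvd_or_dvd h with h | h
    · exact hb h
    · exact hd h
  zero_mem' := ⟨0, 1, fun h => by
    have := Int.eq_one_of_dvd_one (by positivity) h
    have h2 := (Fact.out : r.Prime).one_lt
    omega, by simp⟩
  neg_mem' := by
    rintro x ⟨a, b, hb, rfl⟩
    exact ⟨-a, b, hb, by push_cast; ring⟩

/-- algebraic numbers which are integral at `r` -/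
def Oint (r : ℕ) [Fact r.Prime] : Subring ℂ where
  carrier := {x | ∃ b : ℕ, ¬ r ∣ b ∧ IsIntegral ℤ ((b : ℂ) * x)}
  mul_mem' := by
    rintro x y ⟨b, hb, hx⟩ ⟨d, hd, hy⟩
    refine ⟨b * d, fun h => ?_, ?_⟩
    · rcases (Fact.out : r.Prime).dvd_mul.mp h with h | h
      · exact hb h
      · exact hd h
    · have := hx.mul hy
      have e : ((b * d : ℕ) : ℂ) * (x * y) = (b : ℂ) * x * ((d : ℂ) * y) := by push_cast; ring
      rw [e]; exact this
  one_mem' := ⟨1, fun h => (Fact.out : r.Prime).one_lt.ne' (Nat.dvd_one.mp h), by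
    simpa using isIntegral_one⟩
  add_mem' := by
    rintro x y ⟨b, hb, hx⟩ ⟨d, hd, hy⟩
    refine ⟨b * d, fun h => ?_, ?_⟩
    · rcases (Fact.out : r.Prime).dvd_mul.mp h with h | h
      · exact hb h
      · exact hd h
    · have h1 : IsIntegral ℤ ((d : ℂ) * ((b : ℂ) * x)) := (isIntegral_natCast (a := d)).mul hx
      have h2 : IsIntegral ℤ ((b : ℂ) * ((d : ℂ) * y)) := (isIntegral_natCast (a := b)).mul hy
      have := h1.add h2
      have e : ((b * d : ℕ) : ℂ) * (x + y) = (d : ℂ) * ((b : ℂ) * x) + (b : ℂ) * ((d : ℂ) * y) := by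
        push_cast; ring
      rw [e]; exact this
  zero_mem' := ⟨1, fun h => (Fact.out : r.Prime).one_lt.ne' (Nat.dvd_one.mp h), by
    simpa using isIntegral_zero⟩
  neg_mem' := by
    rintro x ⟨b, hb, hx⟩
    refine ⟨b, hb, ?_⟩
    have := hx.neg
    convert this using 1
    ring

/-- Fricke dual: `τ ↦ (F ∣[k] S) (p τ)`; so `(F ∣[k] S) τ = sharp p k F (τ / p)`. -/
def sharp (p : ℕ) (k : ℤ) (F : ℍ → ℂ) : ℍ → ℂ :=
  fun τ => (F ∣[k] ModularGroup.S) (utr p 0 1 τ)

/-- `φ`, `φs` are the `q`-expansions of a modular form of weight `k` on `Γ₀(p)` and of its dual. -/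
def FD (p : ℕ) (k : ℤ) (φ φs : PowerSeries ℂ) : Prop :=
  ∃ F : ℍ → ℂ, IsMF (CongruenceSubgroup.Gamma0 p) k F ∧ qExpansion 1 F = φ ∧
    qExpansion 1 (sharp p k F) = φs

/-- formal `U_p` -/
def Up (p : ℕ) (φ : PowerSeries ℂ) : PowerSeries ℂ := PowerSeries.mk fun n => φ.coeff (p * n)

@[simp] lemma coeff_Up (p : ℕ) (φ : PowerSeries ℂ) (n : ℕ) : (Up p φ).coeff n = φ.coeff (p * n) :=
  PowerSeries.coeff_mk _ _

/-- power series with coefficients in `O` -/
def IntS (O : Subring ℂ) (g : PowerSeries ℂ) : Prop := ∀ n, g.coeff n ∈ O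

/-- `q`-expansions of `E₄`, `E₆` -/
def e4 : PowerSeries ℂ := qExpansion 1 (E₄ : ℍ → ℂ)
def e6 : PowerSeries ℂ := qExpansion 1 (E₆ : ℍ → ℂ)

/-- `∑ σ_j(n) q^n` -/
def sigS (j : ℕ) : PowerSeries ℂ :=
  PowerSeries.mk fun n => if n = 0 then 0 else ((ArithmeticFunction.sigma j n : ℕ) : ℂ)

/-- there is `G ∈ M₂(Γ₀(p))` with `r`-integral `q`-expansion `≡ 1 mod M` and constant term `1` -/
def NCHyp (p r M : ℕ) [Fact r.Prime] : Prop :=
  ∃ φ φs g : PowerSeries ℂ, FD p 2 φ φs ∧ IntS (Zloc r) g ∧ g.coeff 0 = 0 ∧ φ = 1 + (M : ℂ) • g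

end

end Fermat.Agent.S16Lib
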