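import Fermat.Agent.S16.Defs
import Fermat.Agent.S16.CaseI2
import Fermat.Agent.S16.CaseTwo
import Fermat.Agent.S16.CaseThree
import Fermat.Agent.S16.CaseLarge
import Fermat.Agent.S16.CaseSelf
import Fermat.Prelude.Thm_ModularForm_sturm_bound_Gamma0

/-!
# S16, upper bound: assembling the cases
-/

set_option autoImplicit false
set_option linter.unusedSectionVars false

open UpperHalfPlane ModularForm Matrix.SpecialLinearGroup CongruenceSubgroup
open scoped MatrixGroups Manifold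
open Fermat.Agent.S20Lib Fermat.Agent.S28Lib

namespace Fermat.Agent.S16Lib

noncomputable section

namespace FIN

variable (p : ℕ) [Fact p.Prime]

lemma dvd_of_div_mem_Zloc {r : ℕ} [Fact r.Prime] {A e : ℕ} {x : ℂ} (hx : x ∈ Zloc r)
    (h : (A : ℂ) = x * (r : ℂ) ^ e) : r ^ e ∣ A := by
  obtain ⟨a, b, hb, rfl⟩ := hx
  have hb0 : (b : ℂ) ≠ 0 := by
    intro h0; apply hb; have : b = 0 := by exact_mod_cast h0
    simp [this]
  have h1 : (A : ℤ) * b = a * (r : ℤ) ^ e := by
    have : (A : ℂ) * b = a * (r : ℂ) ^ e := by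
      rw [h]; field_simp
    exact_mod_cast this
  have hr : Prime (r : ℤ) := Nat.prime_iff_prime_int.mp Fact.out
  have hcop : IsCoprime ((r : ℤ) ^ e) b :=
    IsCoprime.pow_left ((Prime.coprime_iff_not_dvd hr).mpr hb)
  have h2 : (r : ℤ) ^ e ∣ (A : ℤ) * b := ⟨a, by rw [h1]; ring⟩
  have h3 := hcop.dvd_of_dvd_mul_right h2
  exact_mod_cast h3

lemma NCHyp.of_dvd {r : ℕ} [Fact r.Prime] {M M' : ℕ} (h : M ∣ M') (H : NCHyp p r M') :
    NCHyp p r M := by
  obtain ⟨c, rfl⟩ := h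
  obtain ⟨φ, φs, g, hFD, hg, hg0, hφ⟩ := H
  refine ⟨φ, φs, (c : ℂ) • g, hFD, fun n => ?_, ?_, ?_⟩
  · rw [PowerSeries.coeff_smul, smul_eq_mul]
    exact (Zloc r).mul_mem (natCast_mem _ c) (hg n)
  · rw [PowerSeries.coeff_smul, hg0, smul_zero]
  · rw [hφ, smul_smul]; push_cast; rfl

/-- `r = 2` -/
lemma no_two (hp : 5 ≤ p) : ¬ NCHyp p 2 (if p % 4 = 1 then 4 else 8) := by
  have hpp : p.Prime := Fact.out
  have hp2 : p ≠ 2 := by omega
  have hodd : p % 2 = 1 := by
    rcases hpp.eq_two_or_odd with h | h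
    · omega
    · exact h
  have main : ∀ H : NCHyp p 2 8, 128 ∣ 240 * (p + 1) := by
    intro H
    have h1 := nc_I2_two p hp2 8 (by norm_num) H
    have := dvd_of_div_mem_Zloc (r := 2) (A := 240 * (p + 1)) (e := 7) h1 (by
      push_cast; ring)
    simpa using this
  split_ifs with h4
  · intro H
    have := main (nc_I2_improve p h4 H)
    omega
  · intro H
    by_cases h8 : p % 8 = 7
    · exact nc_two p h8 H
    · have := main H
      omega

/-- `r = 3` -/
lemma no_three (hp : 5 ≤ p) : ¬ NCHyp p 3 (if p % 3 = 1 then 3 else 9) := by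
  have hpp : p.Prime := Fact.out
  have hp3 : (3 : ℕ) ≠ p := by omega
  have h3 : p % 3 ≠ 0 := by
    intro h
    have : 3 ∣ p := Nat.dvd_of_mod_eq_zero h
    exact hp3 ((Nat.prime_dvd_prime_iff_eq Nat.prime_three hpp).mp this)
  split_ifs with h1
  · intro H
    have h2 := nc_I2 p 3 hp3 3 (by norm_num) H
    have := dvd_of_div_mem_Zloc (r := 3) (A := 240 * (p + 1)) (e := 2) h2 (by
      push_cast; ring)
    omega
  · intro H
    by_cases h9 : 9 ∣ p + 1
    · exact nc_three p h9 H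
    · have h2 := nc_I2 p 3 hp3 9 (by norm_num) H
      have := dvd_of_div_mem_Zloc (r := 3) (A := 240 * (p + 1)) (e := 4) h2 (by
        push_cast; ring)
      omega

/-- `r ≥ 5` -/
lemma no_large (hp : 5 ≤ p) (r : ℕ) [Fact r.Prime] (hr : 5 ≤ r) : ¬ NCHyp p r r := by
  have hrr : r.Prime := Fact.out
  by_cases hrp : r = p
  · subst hrp
    have e : (inferInstance : Fact r.Prime) = ‹_› := Subsingleton.elim _ _
    exact nc_self r hp
  by_cases hd : r ∣ p + 1
  · exact nc_large p r hr hrp hd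
  intro H
  have h2 := nc_I2 p r hrp r hrr.pos H
  have hr0 : (r : ℂ) ≠ 0 := by exact_mod_cast hrr.ne_zero
  have h3 := dvd_of_div_mem_Zloc (r := r) (A := 240 * (p + 1)) (e := 2) h2 (by
    push_cast; field_simp)
  have hcop : Nat.Coprime (r ^ 2) (p + 1) :=
    Nat.Coprime.pow_left 2 ((Nat.Prime.coprime_iff_not_dvd hrr).mpr hd)
  have h4 : r ^ 2 ∣ 240 := hcop.dvd_of_dvd_mul_right h3
  have h5 : r ^ 2 ≤ 240 := Nat.le_of_dvd (by norm_num) h4
  have h6 : r ≤ 15 := by nlinarith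
  interval_cases r <;> omega

/-- the modulus which is excluded at `r` -/
def bad (r : ℕ) : ℕ :=
  if r = 2 then (if p % 4 = 1 then 4 else 8) else if r = 3 then (if p % 3 = 1 then 3 else 9) else r

lemma no_bad (hp : 5 ≤ p) (r : ℕ) [Fact r.Prime] : ¬ NCHyp p r (bad p r) := by
  have hrr : r.Prime := Fact.out
  unfold bad
  by_cases h2 : r = 2
  · subst h2
    rw [if_pos rfl]
    exact no_two p hp
  rw [if_neg h2]
  by_cases h3 : r = 3
  · subst h3
    rw [if_pos rfl]
    exact no_three p hp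
  rw [if_neg h3]
  have : 5 ≤ r := by
    have := hrr.two_le
    by_contra hlt
    have h4 : r = 4 := by omega
    subst h4
    exact absurd hrr (by norm_num)
  exact no_large p hp r this

lemma bad_dvd (hp : 5 ≤ p) (r : ℕ) [Fact r.Prime] :
    bad p r ∣ 24 / Nat.gcd (p - 1) 12 * r := by
  have hpp : p.Prime := Fact.out
  have hodd : p % 2 = 1 := by
    rcases hpp.eq_two_or_odd with h | h
    · omega
    · exact h
  have h3 : p % 3 ≠ 0 := by
    intro h
    have : 3 ∣ p := Nat.dvd_of_mod_eq_zero h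
    have := (Nat.prime_dvd_prime_iff_eq Nat.prime_three hpp).mp this
    omega
  have hg : Nat.gcd (p - 1) 12 = Nat.gcd ((p - 1) % 12) 12 := by
    rw [← Nat.gcd_rec, Nat.gcd_comm]
  have hlt : (p - 1) % 12 < 12 := Nat.mod_lt _ (by norm_num)
  unfold bad
  rw [hg]
  have e4 : p % 4 = ((p - 1) % 12 + 1) % 4 := by omega
  have e3 : p % 3 = ((p - 1) % 12 + 1) % 3 := by omega
  have e2 : ((p - 1) % 12) % 2 = 0 := by omega
  have e3' : ((p - 1) % 12 + 1) % 3 ≠ 0 := by omega
  rw [e4, e3]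
  generalize (p - 1) % 12 = t at *
  by_cases h2 : r = 2
  · subst h2
    interval_cases t <;> simp_all
  by_cases h3 : r = 3
  · subst h3
    interval_cases t <;> simp_all
  rw [if_neg h2, if_neg h3]
  exact Dvd.intro_left _ rfl

/-- the weight two Eisenstein series of level `Γ₀(p)` exists -/
def EisHyp : Prop :=
  ∃ E : ℍ → ℂ, IsMF (Gamma0 p) 2 E ∧
    ∀ k, (qExpansion 1 E).coeff k = if k = 0 then ((p : ℂ) - 1) / 24 else (sig p k : ℂ)

lemma coeff_zero_cusp (f : CuspForm (Gamma0 p) 2) : (qExpansion 1 f).coeff 0 = 0 :=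
  CuspFormClass.qExpansion_coeff_zero f one_pos (by simp [CongruenceSubgroup.strictPeriods_Gamma0])

lemma index_eq : (Gamma0 p).index = p + 1 := by
  rw [Subgroup.index, ← Nat.card_congr (Equiv.ofBijective _ (SH.rep_bijective p))]
  simp

lemma cusp_eq_zero (hp : p < 5) (f : CuspForm (Gamma0 p) 2) : f = 0 := by
  have hF : (CuspForm.toModularFormₗ f) = 0 := by
    apply ModularForm.sturm_bound_Gamma0 p
    intro n hn
    rw [index_eq] at hn
    have hn0 : n = 0 := by
      have : ((2 : ℤ) * ((p + 1 : ℕ) : ℤ)).toNat / 12 = 0 := by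
        omega
      omega
    subst hn0
    exact coeff_zero_cusp p f
  exact CuspForm.toModularFormₗ_injective (by simpa using hF)

lemma sig_one : sig p 1 = 1 := by
  have hp : ¬ p ∣ 1 := fun h => (Fact.out : p.Prime).one_lt.ne' (Nat.dvd_one.mp h)
  simp [sig, Finset.filter_singleton, hp]

theorem small (hp : p < 5) (m : ℕ) (f : CuspForm (Gamma0 p) 2) (a : ℕ → ℤ)
    (ha : ∀ k, ModularFormClass.qCoeff f k = (a k : ℂ))
    (hc : ∀ k, 1 ≤ k → (m : ℤ) ∣ a k - sig p k) : m ∣ ModularCurve.eisensteinNumerator p := by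
  have h0 := cusp_eq_zero p hp f
  have h1 : a 1 = 0 := by
    have := ha 1
    rw [h0, ModularFormClass.qCoeff] at this
    have e : qExpansion 1 (⇑(0 : CuspForm (Gamma0 p) 2)) = 0 := by
      rw [FunLike.coe_zero]; exact qExpansion_zero _
    rw [e] at this
    have h2 : ((a 1 : ℤ) : ℂ) = 0 := by rw [← this]; simp
    exact_mod_cast h2
  have h2 := hc 1 le_rfl
  rw [h1, sig_one] at h2
  have h3 : (m : ℤ) ∣ 1 := by simpa using h2
  have h4 : m ∣ 1 := by exact_mod_cast h3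
  exact h4.trans (one_dvd _)

theorem large (hE : EisHyp p) (hp : 5 ≤ p) (m : ℕ) (f : CuspForm (Gamma0 p) 2) (a : ℕ → ℤ)
    (ha : ∀ k, ModularFormClass.qCoeff f k = (a k : ℂ))
    (hc : ∀ k, 1 ≤ k → (m : ℤ) ∣ a k - sig p k) : m ∣ ModularCurve.eisensteinNumerator p := by
  by_contra hm
  rw [Nat.dvd_iff_prime_pow_dvd_dvd] at hm
  push Not at hm
  obtain ⟨r, t, hr, hrm, hrn⟩ := hm
  have : Fact r.Prime := ⟨hr⟩
  set n := ModularCurve.eisensteinNumerator p with hn
  set d := Nat.gcd (p - 1) 12 with hd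
  have hdn : p - 1 = d * n := by
    rw [hn, ModularCurve.eisensteinNumerator, Nat.mul_div_cancel' (Nat.gcd_dvd_left _ _)]
  have hn0 : n ≠ 0 := by
    intro h0
    rw [h0] at hdn
    omega
  have hd24 : 24 / d * d = 24 :=
    Nat.div_mul_cancel ((Nat.gcd_dvd_right _ _).trans (by norm_num))
  set c := 24 / d with hcdef
  obtain ⟨s, n', hn', hns⟩ := Nat.exists_eq_pow_mul_and_not_dvd hn0 r hr.ne_one
  have hst : s < t := by
    by_contra hle
    apply hrn
    rw [hns]
    exact (pow_dvd_pow r (not_lt.mp hle)).trans (Dvd.intro _ rfl)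
  obtain ⟨m', hm'⟩ : r ^ (s + 1) ∣ m := (pow_dvd_pow r hst).trans hrm
  obtain ⟨E, hEmf, hEq⟩ := hE
  have hfmf : IsMF (Gamma0 p) 2 f := (isCF_coe (Gamma0 p) f).isMF
  have hFDE : FD p 2 (qExpansion 1 E) (qExpansion 1 (sharp p 2 E)) := ⟨E, hEmf, rfl, rfl⟩
  have hFDf : FD p 2 (qExpansion 1 f) (qExpansion 1 (sharp p 2 f)) := ⟨f, hfmf, rfl, rfl⟩
  have hFD := (hFDE.add (hFDf.smul (-1))).smul (24 / ((p : ℂ) - 1))
  have hpC : (p : ℂ) - 1 = (d : ℂ) * ((r : ℂ) ^ s * n') := by
    have h1 : ((p - 1 : ℕ) : ℂ) = (p : ℂ) - 1 := by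
      rw [Nat.cast_sub (by omega)]; simp
    rw [← h1, hdn, hns]; push_cast; ring
  have hcd : (c : ℂ) * d = 24 := by exact_mod_cast hd24
  have hd0 : (d : ℂ) ≠ 0 := by
    intro h0; rw [h0] at hcd; norm_num at hcd
  have hr0 : (r : ℂ) ≠ 0 := by exact_mod_cast hr.ne_zero
  have hn'0 : (n' : ℂ) ≠ 0 := by
    intro h0
    have : n' = 0 := by exact_mod_cast h0
    exact hn' (this ▸ dvd_zero r)
  have hn'i : (n' : ℂ)⁻¹ ∈ Zloc r := by
    refine ⟨1, n', ?_, by simp⟩
    intro h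
    exact hn' (by exact_mod_cast h)
  refine no_bad p hp r (NCHyp.of_dvd p (bad_dvd p hp r) ⟨_, _,
    PowerSeries.mk fun k => if k = 0 then 0 else
      -((m' : ℂ) * (n' : ℂ)⁻¹ * (((a k - sig p k) / (m : ℤ) : ℤ) : ℂ)), hFD, ?_, ?_, ?_⟩)
  · intro k
    rw [PowerSeries.coeff_mk]
    split_ifs
    · exact (Zloc r).zero_mem
    · exact (Zloc r).neg_mem ((Zloc r).mul_mem ((Zloc r).mul_mem (natCast_mem _ _) hn'i)
        (intCast_mem _ _))
  · rw [PowerSeries.coeff_mk, if_pos rfl]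
  · ext k
    simp only [PowerSeries.coeff_smul, map_add, smul_eq_mul, PowerSeries.coeff_mk, hEq]
    have hak : (qExpansion 1 f).coeff k = (a k : ℂ) := ha k
    rcases Nat.eq_zero_or_pos k with rfl | hk
    · rw [coeff_zero_cusp]
      have : (p : ℂ) - 1 ≠ 0 := by
        rw [hpC]; positivity
      simp only [if_true]
      rw [PowerSeries.coeff_zero_one]
      field_simp
      ring
    · have hk0 : k ≠ 0 := by omega
      rw [if_neg hk0, if_neg hk0, hak, PowerSeries.coeff_one, if_neg hk0]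
      have hb : (m : ℤ) * ((a k - sig p k) / (m : ℤ)) = a k - sig p k :=
        Int.mul_ediv_cancel' (hc k hk)
      have hbC : (m : ℂ) * (((a k - sig p k) / (m : ℤ) : ℤ) : ℂ) = (a k : ℂ) - (sig p k : ℂ) := by
        exact_mod_cast hb
      have hmC : (m : ℂ) = (r : ℂ) ^ (s + 1) * m' := by exact_mod_cast hm'
      rw [hmC] at hbC
      have e1 : (sig p k : ℂ) + -1 * (a k : ℂ) = -((a k : ℂ) - (sig p k : ℂ)) := by ring
      rw [e1, ← hbC, hpC, ← hcd]
      push_cast
      field_simp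
      ring

end FIN

/-- the upper bound, given the Eisenstein series -/
theorem dvd_of_congr_of_eis (p : ℕ) [Fact p.Prime] (hE : FIN.EisHyp p) (m : ℕ)
    (f : CuspForm (CongruenceSubgroup.Gamma0 p) 2) (a : ℕ → ℤ)
    (ha : ∀ k, ModularFormClass.qCoeff f k = (a k : ℂ))
    (hc : ∀ k, 1 ≤ k → (m : ℤ) ∣ a k - sig p k) : m ∣ ModularCurve.eisensteinNumerator p := by
  rcases lt_or_ge p 5 with hp | hp
  · exact FIN.small p hp m f a ha hc
  · exact FIN.large p hE hp m f a ha hc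

end

end Fermat.Agent.S16Lib
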